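/-
S40 (row 38, `moonshots` rows 62/63), TOP LEVEL, file 1 (helper15): **the vocabulary of record and
step T0.**

`W : WeierstrassCurve ℤ`, `p` a prime, `N` the level at which `W` is residually modular.

* `Idx W p N` : the good primes `ℓ ∤ N`, `ℓ ≠ p` (the only primes the frozen S40 speaks about);
* `theta W p N j : ZMod p` : `a_ℓ(W) mod p`;
* `WthetaL W p N L : Submodule (ZMod p) (Jtors L p)` : the common `θ`-eigenspace of the `T_ℓ`,
  `ℓ ∈ Idx W p N`, in `J₀(L)[p](Q̄)` (any level `L`; `Wtheta := WthetaL … N`); it is stable under the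
  Galois group (`galTors_mem_wthetaL`);
* `exists_eigenvector_of_tensor` : descent of a common eigenvector with eigenvalues in `𝔽_p` from
  `𝔽 ⊗ U` to `U`;
* **T0** `wtheta_ne_bot : W.IsResiduallyModularOfLevel p N → Wtheta W p N ≠ ⊥`
  (`N4F/Tors/OutputsFinal.eigenformOccurs` + descent);
* `exists_simple_le` : a nonzero Galois-stable `V ≤ Wtheta` which is simple;
* `inputs N : N4F.Res.Inputs N` (the unconditional block outputs, as in `S29.lean`).
-/
import Mathlib
import Fermat.Prelude.Def_FLTPrelim_ModularRep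
import Fermat.Agent.N4F.Res.S29Cond
import Fermat.Agent.N4F.Res.BlocksFinal
import Fermat.Agent.N4F.E.AlphaSideFinal

set_option autoImplicit false
set_option linter.unusedSectionVars false
set_option linter.style.haveILetI false

open ModularCurve AlgebraicCurve CuspForm
open scoped TensorProduct

noncomputable section

namespace Fermat.Agent.S40.Top.Eigen

open Fermat.Agent.N4F.Res

local notation "Qbar" => AlgebraicClosure ℚ
local notation "Γ" => (AlgebraicClosure ℚ ≃ₐ[ℚ] AlgebraicClosure ℚ)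

/-- The unconditional block outputs of N4-FULL at level `N` (as in `S29.lean`). -/
theorem inputs (N : ℕ) [NeZero N] : Inputs N :=
  (Fermat.Agent.N4F.Res.BlocksFinal.blocks_of_charpolyForm
    Fermat.Agent.N4F.E.AlphaSideFinal.alphaCharpolyForm).inputs N

/-! ### The index set and the eigenvalues -/

section Index

variable (W : WeierstrassCurve ℤ) (p N : ℕ)

/-- The good primes `ℓ ∤ N`, `ℓ ≠ p`. -/
def Idx : Type :=
  {ℓ : Nat.Primes // W.IsGoodPrimeFor ℓ ∧ ¬ (ℓ : ℕ) ∣ N ∧ (ℓ : ℕ) ≠ p}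

variable {W p N}

theorem Idx.good (j : Idx W p N) : W.IsGoodPrimeFor (j.1 : ℕ) := j.2.1

theorem Idx.not_dvd (j : Idx W p N) : ¬ ((j.1 : Nat.Primes) : ℕ) ∣ N := j.2.2.1

theorem Idx.ne (j : Idx W p N) : ((j.1 : Nat.Primes) : ℕ) ≠ p := j.2.2.2

theorem Idx.not_dvd_of_dvd (j : Idx W p N) {L : ℕ} (hL : L ∣ N) :
    ¬ ((j.1 : Nat.Primes) : ℕ) ∣ L := fun h => j.not_dvd (h.trans hL)

variable (W p N)

/-- The eigenvalues `a_ℓ(W) mod p`. -/
def theta (j : Idx W p N) : ZMod p := ((W.apOfModel ((j.1 : Nat.Primes) : ℕ) : ℤ) : ZMod p)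

end Index

/-! ### The eigenspace -/

section Eigenspace

variable (W : WeierstrassCurve ℤ) (p N : ℕ) (L : ℕ) [NeZero L]

/-- The common `θ`-eigenspace of the `T_ℓ`, `ℓ ∈ Idx W p N`, in `J₀(L)[p](Q̄)`. -/
def WthetaL : Submodule (ZMod p) (Jtors L p) :=
  ⨅ j : Idx W p N, LinearMap.ker (heckeTors L p j.1 - theta W p N j • (1 : Module.End (ZMod p) _))

variable {W p N L}

theorem mem_wthetaL_iff {x : Jtors L p} :
    x ∈ WthetaL W p N L ↔ ∀ j : Idx W p N, heckeTors L p j.1 x = theta W p N j • x := by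
  simp only [WthetaL, Submodule.mem_iInf, LinearMap.mem_ker, LinearMap.sub_apply,
    LinearMap.smul_apply, Module.End.one_apply, sub_eq_zero]

/-- The eigenspace is stable under the Galois group. -/
theorem galTors_mem_wthetaL (σ : Γ) {x : Jtors L p} (hx : x ∈ WthetaL W p N L) :
    galTors L p σ x ∈ WthetaL W p N L := by
  rw [mem_wthetaL_iff] at hx ⊢
  intro j
  have h1 : heckeTors L p j.1 (galTors L p σ x) = galTors L p σ (heckeTors L p j.1 x) := by
    apply Subtype.ext
    rw [coe_heckeTors_apply, coe_galTors_apply, coe_galTors_apply, coe_heckeTors_apply]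
    exact galoisHeckeComm L j.1 σ (x : JZero L)
  rw [h1, hx j, map_smul]

end Eigenspace

/-- The `θ`-eigenspace at the level `N` itself. -/
abbrev Wtheta (W : WeierstrassCurve ℤ) (p N : ℕ) [NeZero N] : Submodule (ZMod p) (Jtors N p) :=
  WthetaL W p N N

/-! ### Descent of eigenvectors with eigenvalues in the prime field -/

section Descent

variable {p : ℕ} [Fact p.Prime] {𝔽 : Type*} [Field 𝔽] [Algebra (ZMod p) 𝔽]
  {U : Type*} [AddCommGroup U] [Module (ZMod p) U]

/-- `(lam ⊗ id) : 𝔽 ⊗ U → U` for a functional `lam` on `𝔽`. -/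
def contract (lam : 𝔽 →ₗ[ZMod p] ZMod p) : 𝔽 ⊗[ZMod p] U →ₗ[ZMod p] U :=
  (TensorProduct.lid (ZMod p) U).toLinearMap ∘ₗ lam.rTensor U

@[simp] theorem contract_tmul (lam : 𝔽 →ₗ[ZMod p] ZMod p) (a : 𝔽) (u : U) :
    contract lam (a ⊗ₜ[ZMod p] u) = lam a • u := by
  simp [contract]

theorem contract_baseChange (lam : 𝔽 →ₗ[ZMod p] ZMod p) (T : Module.End (ZMod p) U)
    (v : 𝔽 ⊗[ZMod p] U) : contract lam (T.baseChange 𝔽 v) = T (contract lam v) := by
  induction v using TensorProduct.induction_on with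
  | zero => simp
  | tmul a u => simp
  | add x y hx hy => simp only [map_add, hx, hy]

theorem contract_algebraMap_smul (lam : 𝔽 →ₗ[ZMod p] ZMod p) (c : ZMod p)
    (v : 𝔽 ⊗[ZMod p] U) :
    contract lam (algebraMap (ZMod p) 𝔽 c • v) = c • contract lam v := by
  rw [algebraMap_smul, map_smul]

/-- A nonzero tensor is detected by some contraction. -/
theorem exists_contract_ne_zero {v : 𝔽 ⊗[ZMod p] U} (hv : v ≠ 0) :
    ∃ lam : 𝔽 →ₗ[ZMod p] ZMod p, contract lam v ≠ 0 := by
  classical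
  let b := Module.Free.chooseBasis (ZMod p) U
  let e := TensorProduct.equivFinsuppOfBasisRight (R := ZMod p) (M := 𝔽) b
  have hev : e v ≠ 0 := fun h => hv (e.injective (by rw [h, map_zero]))
  obtain ⟨i, hi⟩ : ∃ i, e v i ≠ 0 := by
    by_contra hcon
    push Not at hcon
    exact hev (Finsupp.ext hcon)
  obtain ⟨lam, hlam⟩ : ∃ lam : Module.Dual (ZMod p) 𝔽, lam (e v i) ≠ 0 := by
    by_contra hcon
    push Not at hcon
    exact hi ((Module.forall_dual_apply_eq_zero_iff (ZMod p) (e v i)).1 hcon)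
  refine ⟨lam, fun h0 => hlam ?_⟩
  -- the `i`-th coordinate of `contract lam v` is `lam (e v i)`
  have key : ∀ w : 𝔽 ⊗[ZMod p] U, b.repr (contract lam w) i = lam (e w i) := by
    intro w
    induction w using TensorProduct.induction_on with
    | zero => simp
    | tmul a u =>
      rw [contract_tmul, map_smul, Finsupp.smul_apply, smul_eq_mul]
      have : e (a ⊗ₜ[ZMod p] u) i = b.repr u i • a := by
        simp [e]
      rw [this, map_smul, smul_eq_mul, mul_comm]
    | add x y hx hy => simp only [map_add, Finsupp.add_apply, hx, hy]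
  rw [← key v, h0, map_zero, Finsupp.zero_apply]

/-- **Descent**: a nonzero `v ∈ 𝔽 ⊗ U` yields a nonzero `u ∈ U` inheriting every eigen-equation with
eigenvalue in the prime field. -/
theorem exists_eigenvector_of_tensor {v : 𝔽 ⊗[ZMod p] U} (hv : v ≠ 0) :
    ∃ u : U, u ≠ 0 ∧ ∀ (T : Module.End (ZMod p) U) (c : ZMod p),
      T.baseChange 𝔽 v = algebraMap (ZMod p) 𝔽 c • v → T u = c • u := by
  obtain ⟨lam, hlam⟩ := exists_contract_ne_zero hv
  refine ⟨contract lam v, hlam, fun T c h => ?_⟩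
  rw [← contract_baseChange, h, contract_algebraMap_smul]

end Descent

/-! ### T0: the eigenspace is nonzero -/

section TZero

variable {W : WeierstrassCurve ℤ} {p N : ℕ} [NeZero N]

/-- **T0**: if `W` is residually modular of level `N` at `p`, then `a_ℓ(W) mod p` is a system of
eigenvalues of the `T_ℓ` (good `ℓ ∤ N`, `ℓ ≠ p`) on `J₀(N)[p](Q̄)`. -/
theorem wtheta_ne_bot (hp : p.Prime) (hmod : W.IsResiduallyModularOfLevel p N) :
    Wtheta W p N ≠ ⊥ := by
  classical
  obtain ⟨f, 𝔪, hf, hmax, hpm, hcong⟩ := hmod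
  haveI : Fact p.Prime := ⟨hp⟩
  letI : Field (integralClosure ℤ ℂ ⧸ 𝔪) := Ideal.Quotient.field 𝔪
  have hp0 : ((p : ℕ) : integralClosure ℤ ℂ ⧸ 𝔪) = 0 := by
    have : (Ideal.Quotient.mk 𝔪) ((p : ℕ) : integralClosure ℤ ℂ) = 0 :=
      Ideal.Quotient.eq_zero_iff_mem.mpr hpm
    rwa [map_natCast] at this
  haveI hchar : CharP (integralClosure ℤ ℂ ⧸ 𝔪) p := (CharP.charP_iff_prime_eq_zero hp).mpr hp0
  letI : Algebra (ZMod p) (integralClosure ℤ ℂ ⧸ 𝔪) := ZMod.algebra _ p
  set φ : integralClosure ℤ ℂ →+* integralClosure ℤ ℂ ⧸ 𝔪 := Ideal.Quotient.mk 𝔪 with hφ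
  obtain ⟨a, ha, hocc⟩ := (inputs N).eigenformOccurs hf
  obtain ⟨v, hv0, hv⟩ := hocc p (integralClosure ℤ ℂ ⧸ 𝔪) φ
  obtain ⟨u, hu0, hu⟩ := exists_eigenvector_of_tensor hv0
  intro hbot
  apply hu0
  have hmem : u ∈ Wtheta W p N := by
    rw [mem_wthetaL_iff]
    intro j
    refine hu (heckeTors N p j.1) (theta W p N j) ?_
    rw [hv j.1 j.not_dvd]
    congr 1
    obtain ⟨c, hc1, hc2⟩ := hcong (j.1 : ℕ) j.1.2 j.good j.not_dvd j.ne
    have hca : a j.1 = c := Subtype.ext (by rw [ha j.1 j.not_dvd, hc1])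
    have h1 : φ (c - ((W.apOfModel (j.1 : ℕ) : ℤ) : integralClosure ℤ ℂ)) = 0 :=
      Ideal.Quotient.eq_zero_iff_mem.mpr hc2
    rw [map_sub, sub_eq_zero, map_intCast] at h1
    show φ (a j.1) = _
    rw [hca, h1, theta, map_intCast]
  rw [hbot, Submodule.mem_bot] at hmem
  exact hmem

end TZero

/-! ### Galois-stable and simple submodules -/

section Simple

variable {p L : ℕ} [NeZero L]

/-- Stability under the Galois group. -/
def IsGalStable (V : Submodule (ZMod p) (Jtors L p)) : Prop :=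
  ∀ (σ : Γ) (x : Jtors L p), x ∈ V → galTors L p σ x ∈ V

/-- A nonzero Galois-stable submodule without proper nonzero Galois-stable submodules. -/
def IsSimpleGal (V : Submodule (ZMod p) (Jtors L p)) : Prop :=
  V ≠ ⊥ ∧ IsGalStable V ∧ ∀ V' : Submodule (ZMod p) (Jtors L p), V' ≤ V → IsGalStable V' →
    V' = ⊥ ∨ V' = V

theorem isGalStable_wthetaL (W : WeierstrassCurve ℤ) (N : ℕ) :
    IsGalStable (WthetaL W p N L) := fun σ _ hx => galTors_mem_wthetaL σ hx

/-- Every nonzero Galois-stable submodule of the finite group `J₀(L)[p]` contains a simple one. -/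
theorem exists_simple_le [Finite (Jtors L p)] {V₀ : Submodule (ZMod p) (Jtors L p)}
    (h0 : V₀ ≠ ⊥) (hst : IsGalStable V₀) :
    ∃ V : Submodule (ZMod p) (Jtors L p), V ≤ V₀ ∧ IsSimpleGal V := by
  classical
  let S : Set (Submodule (ZMod p) (Jtors L p)) := {V | V ≤ V₀ ∧ V ≠ ⊥ ∧ IsGalStable V}
  have hS : S.Nonempty := ⟨V₀, le_rfl, h0, hst⟩
  obtain ⟨V, hV, hmin⟩ := (wellFounded_lt (α := Submodule (ZMod p) (Jtors L p))).has_min S hS
  refine ⟨V, hV.1, hV.2.1, hV.2.2, fun V' hle hst' => ?_⟩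
  by_cases hb : V' = ⊥
  · exact Or.inl hb
  · right
    have hV' : V' ∈ S := ⟨hle.trans hV.1, hb, hst'⟩
    exact eq_of_le_of_not_lt hle (hmin V' hV')

end Simple

end Fermat.Agent.S40.Top.Eigen
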