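/-
S40 (row 38, `moonshots` rows 62/63), TOP LEVEL, file 2 (helper15): **the frozen statement S40 from
named hypotheses.**

Setting: `W : WeierstrassCurve ℤ`, `p` an odd prime, level `M′ * p` with `p ∤ M′`.
`Wθ := Eigen.Wtheta W p (M′ * p) ≤ J₀(M′ p)[p](Q̄)` is the `θ`-eigenspace (`θ ℓ = a_ℓ(W) mod p`).

Top-level DAG (row 62 §1, with the order "first `V`, then the case split"):
* T0 (`Eigen.wtheta_ne_bot`) `Wθ ≠ ⊥`; pick `V ≤ Wθ` simple Galois-stable (`Eigen.exists_simple_le`);
* (H-E1) `C V` — "`V` is a copy of `E[p]`" (an abstract predicate here; `CopyOfE` of helper29), of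
  which this file consumes only (H-det): `finrank V = 2` and `det (σ | V) = χ_p(σ)`;
* Case (i) `α_* V ≠ 0` or `β_* V ≠ 0`: (H-old) gives a nonzero `θ`-eigenvector in `J₀(M′)[p]`, and
  (H-M3) concludes;
* Case (ii) `V ≤ newPart`: (H-new) gives EITHER the conclusion (through the mod `p` eigen-series of
  level `M′` and Deligne–Serre) OR a place `A ∣ p` whose inertia group acts on `V` through the
  scalar `χ_p`; the latter is impossible: `χ_p² = det = χ_p` on `I_A`, but `χ_p` is ramified at `p`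
  (`p` odd; `S56/Loc/CycloRamified.exists_mem_inertia_ne`).

* `galOn V hV σ` : the Galois action restricted to a stable submodule;
* `not_inertia_scalar` : the determinant contradiction;
* **`s40_of_blocks`** : the conclusion at level `M′` from the blocks;
* **`s40_frozen_of_blocks`** : the same with the frozen binders (`M`, `p ∣ M`, `¬ p² ∣ M`, `M / p`).
-/
import Mathlib
import Fermat.Agent.S40.Top.Eigen
import Fermat.Agent.P4.Push
import Fermat.Agent.S56.Loc.CycloRamified

set_option autoImplicit false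
set_option linter.unusedSectionVars false
set_option linter.unusedVariables false
set_option linter.style.haveILetI false

open ModularCurve AlgebraicCurve

noncomputable section

namespace Fermat.Agent.S40.Top.Final

open Fermat.Agent.N4F.Res Fermat.Agent.S40.Top.Eigen
open Fermat.Agent.S14.GaloisModule (chi)

local notation "Qbar" => AlgebraicClosure ℚ
local notation "Γ" => (AlgebraicClosure ℚ ≃ₐ[ℚ] AlgebraicClosure ℚ)

/-! ### The Galois action on a stable submodule -/

section GalOn

variable {p L : ℕ} [NeZero L]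

/-- The Galois action restricted to a Galois-stable submodule of `J₀(L)[p]`. -/
def galOn (V : Submodule (ZMod p) (Jtors L p)) (hV : IsGalStable V) (σ : Γ) :
    Module.End (ZMod p) V :=
  (galTors L p σ).restrict (fun x hx => hV σ x hx)

@[simp] theorem coe_galOn_apply (V : Submodule (ZMod p) (Jtors L p)) (hV : IsGalStable V) (σ : Γ)
    (x : V) : ((galOn V hV σ x : V) : Jtors L p) = galTors L p σ (x : Jtors L p) := rfl

end GalOn

/-! ### The determinant contradiction -/

section Det

variable {p L : ℕ} [NeZero L] [Fact p.Prime]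

/-- **Inertia at `p` cannot act on a copy of `E[p]` through the scalar `χ_p`** (`p` odd):
`χ_p² = det = χ_p` on `I_A` would force `χ_p` to be unramified at `p`. -/
theorem not_inertia_scalar (hp2 : p ≠ 2) (V : Submodule (ZMod p) (Jtors L p))
    (hV : IsGalStable V) (hrank : Module.finrank (ZMod p) V = 2)
    (hdet : ∀ σ : Γ, LinearMap.det (galOn V hV σ) = ((chi p σ : (ZMod p)ˣ) : ZMod p))
    (A : ValuationSubring Qbar) (hA : A.LiesOverPrime p)
    (hsc : ∀ τ ∈ A.inertiaSubgroupIn ℚ, ∀ x ∈ V,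
      galTors L p τ x = ((chi p τ : (ZMod p)ˣ) : ZMod p) • x) : False := by
  have hpp : p.Prime := Fact.out
  obtain ⟨τ, hτ, ζ, hζ, hne⟩ :=
    Fermat.Agent.S56.Loc.CycloRamified.exists_mem_inertia_ne p hp2 A hA
  -- `ζ` is a primitive `p`-th root of unity
  have hζ1 : ζ ≠ 1 := by
    rintro rfl
    exact hne (map_one τ)
  have hprim : IsPrimitiveRoot ζ p := by
    have h1 : orderOf ζ ∣ p := orderOf_dvd_of_pow_eq_one hζ
    rcases (Nat.dvd_prime hpp).mp h1 with h | h
    · exact absurd (orderOf_eq_one_iff.mp h) hζ1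
    · rw [← h]
      exact IsPrimitiveRoot.orderOf ζ
  -- `χ_p(τ) ≠ 1`
  have hχ : chi p τ ≠ 1 := fun h =>
    hne ((Fermat.Agent.S14.GaloisModule.mem_ker_chi_iff p τ hprim).mp (MonoidHom.mem_ker.mpr h))
  set c : ZMod p := ((chi p τ : (ZMod p)ˣ) : ZMod p) with hc
  have hgal : galOn V hV τ = c • (1 : Module.End (ZMod p) V) := by
    refine LinearMap.ext fun x => Subtype.ext ?_
    rw [coe_galOn_apply, hsc τ hτ x x.2]
    rfl
  have h1 := hdet τ
  rw [hgal, LinearMap.det_smul, hrank, ← hc] at h1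
  have h2 : LinearMap.det (1 : Module.End (ZMod p) V) = 1 := LinearMap.det_id
  rw [h2, mul_one] at h1
  -- `c ^ 2 = c`, `c` a unit
  have hcu : IsUnit c := (chi p τ).isUnit
  have h3 : c * (c - 1) = 0 := by rw [mul_sub, mul_one, ← sq, h1, sub_self]
  have h4 : c - 1 = 0 := (hcu.mul_right_eq_zero).mp h3
  apply hχ
  apply Units.ext
  rw [Units.val_one, ← hc]
  exact sub_eq_zero.mp h4

end Det

/-! ### The assembly -/

section Assembly

open Fermat.Agent.P3G.AuxPrime Fermat.Agent.P4.Push

variable {W : WeierstrassCurve ℤ} {p M' : ℕ} [NeZero M'] [NeZero p] [Fact p.Prime]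

/-- **S40 at level `M' * p → M'` from the blocks.**
`C` is the abstract predicate "`V` is a copy of `E[p]`" ((H-E1), helper29's `CopyOfE`); this file
consumes only (H-det). -/
theorem s40_of_blocks (hp2 : p ≠ 2)
    (hmod : W.IsResiduallyModularOfLevel p (M' * p))
    (C : Submodule (ZMod p) (Jtors (M' * p) p) → Prop)
    (hE1 : ∀ V : Submodule (ZMod p) (Jtors (M' * p) p), IsSimpleGal V →
      V ≤ Wtheta W p (M' * p) → C V)
    (hdet : ∀ (V : Submodule (ZMod p) (Jtors (M' * p) p)) (hV : IsSimpleGal V), C V →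
      Module.finrank (ZMod p) V = 2 ∧
        ∀ σ : Γ, LinearMap.det (galOn V hV.2.1 σ) = ((chi p σ : (ZMod p)ˣ) : ZMod p))
    (hold : ∀ V : Submodule (ZMod p) (Jtors (M' * p) p), IsSimpleGal V →
      V ≤ Wtheta W p (M' * p) → C V →
      (∃ x ∈ V, alphaPush M' p ((x : Jtors (M' * p) p) : JZero (M' * p)) ≠ 0 ∨
        betaPush M' p ((x : Jtors (M' * p) p) : JZero (M' * p)) ≠ 0) →
      ∃ z : Jtors M' p, z ≠ 0 ∧ z ∈ WthetaL W p (M' * p) M')
    (hM3 : ∀ z : Jtors M' p, z ≠ 0 → z ∈ WthetaL W p (M' * p) M' →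
      W.IsResiduallyModularOfLevel p M')
    (hnew : ∀ V : Submodule (ZMod p) (Jtors (M' * p) p), IsSimpleGal V →
      V ≤ Wtheta W p (M' * p) → C V →
      (∀ x ∈ V, ((x : Jtors (M' * p) p) : JZero (M' * p)) ∈ newPart M' p) →
      W.IsResiduallyModularOfLevel p M' ∨
        ∃ A : ValuationSubring Qbar, A.LiesOverPrime p ∧
          ∀ τ ∈ A.inertiaSubgroupIn ℚ, ∀ x ∈ V,
            galTors (M' * p) p τ x = ((chi p τ : (ZMod p)ˣ) : ZMod p) • x) :
    W.IsResiduallyModularOfLevel p M' := by
  have hpp : p.Prime := Fact.out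
  haveI : Finite (Jtors (M' * p) p) := (inputs (M' * p)).torsionFinite p hpp.pos
  -- T0 and the choice of `V`
  obtain ⟨V, hle, hV⟩ := exists_simple_le (wtheta_ne_bot hpp hmod)
    (isGalStable_wthetaL W (M' * p))
  have hC : C V := hE1 V hV hle
  by_cases hcase : ∃ x ∈ V, alphaPush M' p ((x : Jtors (M' * p) p) : JZero (M' * p)) ≠ 0 ∨
      betaPush M' p ((x : Jtors (M' * p) p) : JZero (M' * p)) ≠ 0
  · -- Case (i): the old case
    obtain ⟨z, hz0, hz⟩ := hold V hV hle hC hcase
    exact hM3 z hz0 hz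
  · -- Case (ii): `V` is new
    push Not at hcase
    have hnewV : ∀ x ∈ V, ((x : Jtors (M' * p) p) : JZero (M' * p)) ∈ newPart M' p := by
      intro x hx
      rw [mem_newPart_iff]
      exact hcase x hx
    rcases hnew V hV hle hC hnewV with h | ⟨A, hA, hsc⟩
    · exact h
    · obtain ⟨hrank, hd⟩ := hdet V hV hC
      exact (not_inertia_scalar hp2 V hV.2.1 hrank hd A hA hsc).elim

end Assembly

/-! ### From the frozen binders to the level `M' * p` -/

/-- The frozen S40 binders `0 < M`, `p ∣ M`, `¬ p ^ 2 ∣ M` and the conclusion at `M / p`, reduced to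
the statement at levels `M' * p → M'` with `p ∤ M'`. -/
theorem frozen_of_level {W : WeierstrassCurve ℤ} {p : ℕ} (hp : p.Prime) {M : ℕ} (hM : 0 < M)
    (hpM : p ∣ M) (hp2M : ¬ p ^ 2 ∣ M) (hmod : W.IsResiduallyModularOfLevel p M)
    (h : ∀ (M' : ℕ) [NeZero M'], ¬ p ∣ M' → W.IsResiduallyModularOfLevel p (M' * p) →
      W.IsResiduallyModularOfLevel p M') :
    W.IsResiduallyModularOfLevel p (M / p) := by
  obtain ⟨M', rfl⟩ := hpM
  have hM' : M' ≠ 0 := by
    rintro rfl
    simp at hM
  haveI : NeZero M' := ⟨hM'⟩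
  have hpM' : ¬ p ∣ M' := by
    rintro ⟨d, rfl⟩
    exact hp2M ⟨d, by ring⟩
  rw [Nat.mul_div_cancel_left M' hp.pos]
  rw [mul_comm] at hmod
  exact h M' hpM' hmod

end Fermat.Agent.S40.Top.Final
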