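/-
S40 (level lowering at `p`), block (E1), algebra part (helper29): the hypothesis `hspan` of the
quadratic-relation isomorphism criterion (`S40/E1/QuadIso.exists_equiv_of_quadratic_relation`) for
an odd two-dimensional representation.

* `span_range_matrix_eq_top` : a multiplicative family of `2 × 2` matrices containing
  `diag(1, -1)`, a matrix with nonzero lower left entry and one with nonzero upper right entry
  spans `M₂(k)` (`2 ≠ 0`);
* `span_range_eq_top_of_odd` : a two-dimensional representation `ρ` without stable line, such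
  that `ρ c` is an involution of determinant `-1` for some `c` (`2 ≠ 0`), spans the whole
  endomorphism algebra.
-/
import Mathlib
import Fermat.Agent.S58.Form.HresAbs

set_option autoImplicit false
set_option linter.unnecessarySeqFocus false
set_option linter.unusedSimpArgs false

namespace Fermat.Agent.S40.Top.QuadAlg

/-! ### A two-dimensional odd representation without stable line spans `End` -/

section Span

open Fermat.Agent.S58.Form.HresAbs

variable {k : Type*} [Field k] {G : Type*} [Monoid G]

/-- Matrix form: a multiplicative family of `2 × 2` matrices containing `diag(1, -1)`, a matrix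
with nonzero lower left entry and a matrix with nonzero upper right entry spans `M₂(k)`. -/
theorem span_range_matrix_eq_top (h2 : (2 : k) ≠ 0) (A : G →* Matrix (Fin 2) (Fin 2) k)
    (c : G) (hAc : A c = !![1, 0; 0, -1]) (s s' : G) (hs : A s 1 0 ≠ 0) (hs' : A s' 0 1 ≠ 0) :
    Submodule.span k (Set.range A) = ⊤ := by
  have hmem : ∀ g, A g ∈ Submodule.span k (Set.range A) := fun g =>
    Submodule.subset_span ⟨g, rfl⟩
  have h4 : (4 : k) ≠ 0 := by
    have : (4 : k) = 2 * 2 := by norm_num
    rw [this]
    exact mul_ne_zero h2 h2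
  have e00 : Matrix.single 0 0 (1 : k) = (2 : k)⁻¹ • (A 1 + A c) := by
    rw [map_one, hAc]
    ext i j
    fin_cases i <;> fin_cases j <;> simp [Matrix.single, Matrix.one_fin_two] <;> field_simp <;> norm_num
  have e11 : Matrix.single 1 1 (1 : k) = (2 : k)⁻¹ • (A 1 - A c) := by
    rw [map_one, hAc]
    ext i j
    fin_cases i <;> fin_cases j <;> simp [Matrix.single, Matrix.one_fin_two] <;> field_simp <;> norm_num
  have e10 : Matrix.single 1 0 (1 : k)
      = (4 * A s 1 0)⁻¹ • (A s + A (s * c) - A (c * s) - A (c * s * c)) := by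
    rw [map_mul, map_mul, map_mul, map_mul, hAc]
    generalize A s = M at hs ⊢
    rw [Matrix.eta_fin_two M]
    ext i j
    fin_cases i <;> fin_cases j <;> simp [Matrix.single, Matrix.mul_fin_two] <;> field_simp <;> ring
  have e01 : Matrix.single 0 1 (1 : k)
      = (4 * A s' 0 1)⁻¹ • (A s' - A (s' * c) + A (c * s') - A (c * s' * c)) := by
    rw [map_mul, map_mul, map_mul, map_mul, hAc]
    generalize A s' = M at hs' ⊢
    rw [Matrix.eta_fin_two M]
    ext i j
    fin_cases i <;> fin_cases j <;> simp [Matrix.single, Matrix.mul_fin_two] <;> field_simp <;> ring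
  have hsingle : ∀ i j : Fin 2, Matrix.single i j (1 : k) ∈ Submodule.span k (Set.range A) := by
    intro i j
    fin_cases i <;> fin_cases j
    · show Matrix.single 0 0 (1 : k) ∈ _
      rw [e00]
      exact Submodule.smul_mem _ _ (Submodule.add_mem _ (hmem _) (hmem _))
    · show Matrix.single 0 1 (1 : k) ∈ _
      rw [e01]
      exact Submodule.smul_mem _ _ (Submodule.sub_mem _ (Submodule.add_mem _
        (Submodule.sub_mem _ (hmem _) (hmem _)) (hmem _)) (hmem _))
    · show Matrix.single 1 0 (1 : k) ∈ _
      rw [e10]
      exact Submodule.smul_mem _ _ (Submodule.sub_mem _ (Submodule.sub_mem _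
        (Submodule.add_mem _ (hmem _) (hmem _)) (hmem _)) (hmem _))
    · show Matrix.single 1 1 (1 : k) ∈ _
      rw [e11]
      exact Submodule.smul_mem _ _ (Submodule.sub_mem _ (hmem _) (hmem _))
  rw [eq_top_iff]
  intro X _
  rw [Matrix.matrix_eq_sum_single X]
  refine Submodule.sum_mem _ fun i _ => Submodule.sum_mem _ fun j _ => ?_
  have : Matrix.single i j (X i j) = X i j • Matrix.single i j (1 : k) := by
    rw [Matrix.smul_single, smul_eq_mul, mul_one]
  rw [this]
  exact Submodule.smul_mem _ _ (hsingle i j)

variable {E : Type*} [AddCommGroup E] [Module k E]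

/-- **An odd two-dimensional representation without stable line spans `End`.** -/
theorem span_range_eq_top_of_odd (hE : Module.finrank k E = 2) (h2 : (2 : k) ≠ 0)
    (ρ : G →* Module.End k E)
    (hirr : ∀ N : Submodule k E, (∀ s, ∀ x ∈ N, ρ s x ∈ N) → N = ⊥ ∨ N = ⊤)
    (c : G) (hc : c * c = 1) (hdet : LinearMap.det (ρ c) = -1) :
    Submodule.span k (Set.range ρ) = ⊤ := by
  obtain ⟨b, hb0, hb1⟩ := exists_eigenbasis hE h2 (ρ c) (by rw [← map_mul, hc, map_one]) hdet
  let A : G →* Matrix (Fin 2) (Fin 2) k :=
    { toFun := fun s => LinearMap.toMatrix b b (ρ s)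
      map_one' := by rw [map_one]; exact LinearMap.toMatrix_one b
      map_mul' := fun s t => by rw [map_mul]; exact LinearMap.toMatrix_mul b _ _ }
  have hA : ∀ s, A s = LinearMap.toMatrix b b (ρ s) := fun _ => rfl
  have hAc : A c = !![1, 0; 0, -1] := by
    ext i j
    rw [hA, LinearMap.toMatrix_apply]
    fin_cases j
    · show b.repr (ρ c (b 0)) i = _
      rw [hb0, Module.Basis.repr_self]
      fin_cases i <;> simp
    · show b.repr (ρ c (b 1)) i = _
      rw [hb1, map_neg, Module.Basis.repr_self]
      fin_cases i <;> simp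
  have h10 : ∃ s, A s 1 0 ≠ 0 := by
    by_contra hcon
    push Not at hcon
    obtain ⟨hst, hbot, htop⟩ := span_basis_stable hE b (fun s => ρ s) 0 (fun s i hi => by
      have hi1 : i = 1 := by
        fin_cases i
        · exact absurd rfl hi
        · rfl
      rw [hi1]
      exact hcon s)
    rcases hirr _ hst with h | h
    exacts [hbot h, htop h]
  have h01 : ∃ s, A s 0 1 ≠ 0 := by
    by_contra hcon
    push Not at hcon
    obtain ⟨hst, hbot, htop⟩ := span_basis_stable hE b (fun s => ρ s) 1 (fun s i hi => by
      have hi1 : i = 0 := by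
        fin_cases i
        · rfl
        · exact absurd rfl hi
      rw [hi1]
      exact hcon s)
    rcases hirr _ hst with h | h
    exacts [hbot h, htop h]
  obtain ⟨s, hs⟩ := h10
  obtain ⟨s', hs'⟩ := h01
  have htop := span_range_matrix_eq_top h2 A c hAc s s' hs hs'
  have hrange : Set.range A = (LinearMap.toMatrix b b) '' Set.range ρ := by
    ext X
    constructor
    · rintro ⟨g, rfl⟩
      exact ⟨ρ g, ⟨g, rfl⟩, rfl⟩
    · rintro ⟨_, ⟨g, rfl⟩, rfl⟩
      exact ⟨g, rfl⟩
  rw [eq_top_iff]
  intro f _
  have h1 : LinearMap.toMatrix b b f ∈ Submodule.span k (Set.range A) := by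
    rw [htop]
    exact Submodule.mem_top
  have h1' : LinearMap.toMatrix b b f ∈ Submodule.map (LinearMap.toMatrix b b).toLinearMap
      (Submodule.span k (Set.range ρ)) := by
    rw [Submodule.map_span]
    rw [hrange] at h1
    exact h1
  obtain ⟨g, hg, hgf⟩ := h1'
  have : g = f := (LinearMap.toMatrix b b).injective hgf
  exact this ▸ hg

end Span

end Fermat.Agent.S40.Top.QuadAlg
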