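/-
S40 (level lowering at `p`), block (E1) (helper29): **a simple Galois-stable submodule of the
`θ`-eigenspace of `J₀(L)[p]` is a copy of `W[p]`** — the instantiation of the quadratic-relation
isomorphism criterion `S40/E1/QuadIso.exists_equiv_of_quadratic_relation` (helper24), in the
vocabulary of `S40/Top/Eigen.lean` (helper15).

`W / ℤ` a Weierstrass model with `Δ ≠ 0`, `p` an odd prime, `θ(ℓ) = a_ℓ(W) mod p`.
For a `ZMod p`-submodule `U` of `Jtors L p` which is stable under the Galois group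
(`Eigen.IsGalStable`) and contained in the eigenspace `Eigen.WthetaL W p N L` (`L ∣ N ≠ 0`):

* `galSub U hst : Γ →* End (ZMod p) (SubT U)`, the Galois representation on `U`;
* `quad_frob` : a Frobenius element `φ` at a good prime `ℓ ∤ N p` satisfies
  `φ² - tr(φ | W[p]) φ + det(φ | W[p]) = 0` on `U` (Eichler–Shimura on torsion + the
  characteristic polynomial of Frobenius on `W[p]`, S58/EC);
* `quad_all` : the same for EVERY `g` of the Galois group (Frobenius density + the power lemma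
  `QuadIso.quadratic_relation_pow`);
* `span_rW_eq_top` : `W[p]` irreducible ⇒ the Galois group spans `End (W[p])` (oddness);
* `det_rW` : `det (g | W[p])` is the mod `p` cyclotomic character;
* `CopyOfE W p V` : there is a Galois-equivariant isomorphism `W[p] ≃ V`;
* ★ `copyOfE_of_simple` : `V` simple Galois-stable in the eigenspace, `W[p]` irreducible ⇒
  `CopyOfE W p V`;
* consumer forms: `CopyOfE.finrank_eq`, `CopyOfE.det_galOn` (= (H-det) of `Top/Final.lean`),
  `CopyOfE.fixes_of_fixes`, `fixes_zeta_of_fixes`.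
-/
import Mathlib
import Fermat.Agent.S40.Top.QuadAlg
import Fermat.Agent.S40.Top.Eigen
import Fermat.Agent.S40.Top.Final
import Fermat.Agent.S40.E1.QuadIso
import Fermat.Agent.S58.EC.Good.Final
import Fermat.Agent.S58.EC.DetCyclo
import Fermat.Agent.S58.Form.Hres
import Fermat.Agent.N4.FrobDensity.Dickson

set_option autoImplicit false
set_option linter.unusedSectionVars false
set_option linter.unusedVariables false
set_option linter.style.haveILetI false
set_option linter.dupNamespace false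

open ModularCurve AlgebraicCurve

noncomputable section

namespace Fermat.Agent.S40.Top.CopyOfE

open WeierstrassCurve WeierstrassCurve.Affine WeierstrassCurve.Affine.Point
open Fermat.Agent.N4F.Res Fermat.Agent.S58.Form.Hres Fermat.Agent.S58.EC.DetCyclo
open Fermat.Agent.S40.Top.QuadAlg Fermat.Agent.S40.Top.Eigen Fermat.Agent.S40.Top.Final
open Fermat.Agent.S40.E1.QuadIso ExtCitation
open Fermat.Agent.S14.GaloisModule (chi)

local notation "Qbar" => AlgebraicClosure ℚ
local notation "Γ" => (AlgebraicClosure ℚ ≃ₐ[ℚ] AlgebraicClosure ℚ)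

local instance isAlgebraicQbar_CE : Algebra.IsAlgebraic ℚ (AlgebraicClosure ℚ) :=
  AlgebraicClosure.isAlgebraic ℚ
local instance isAlgClosureQbar_CE : IsAlgClosure ℚ (AlgebraicClosure ℚ) :=
  ⟨inferInstance, inferInstance⟩
local instance normalQbar_CE : Normal ℚ (AlgebraicClosure ℚ) :=
  IsAlgClosure.normal ℚ (AlgebraicClosure ℚ)

/-! ### The `W`-side at level `p` -/

section WSide

variable (W : WeierstrassCurve ℤ) (p : ℕ) [hp : Fact p.Prime]

/-- Trace and determinant of the Frobenius elements at the good primes `ℓ ≠ p` on `W(ℚ̄)[n]`. -/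
def FrobTraceDet (n : ℕ) : Prop :=
  ∀ ℓ : ℕ, ℓ.Prime → ℓ ≠ p → ¬ (ℓ : ℤ) ∣ W.Δ →
    ∀ A : ValuationSubring Qbar, A.LiesOverPrime ℓ → ∀ φ : Γ, A.IsFrobeniusAt φ ℓ →
      LinearMap.trace (ZMod n) _
          (galoisRepModuleEnd (K := Qbar) ℚ (W.map (Int.castRingHom ℚ)) n φ)
        = ((W.apOfModel ℓ : ℤ) : ZMod n) ∧
      LinearMap.det (galoisRepModuleEnd (K := Qbar) ℚ (W.map (Int.castRingHom ℚ)) n φ)
        = ((ℓ : ℕ) : ZMod n)

theorem frobTraceDet_pow_one (hp2 : p ≠ 2) : FrobTraceDet W p (p ^ 1) :=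
  fun _ hℓ hℓp hgood A hA φ hφ =>
    Fermat.Agent.S58.EC.Good.Final.trace_det_frobenius W hℓ hgood A hA hp.out hp2
      (Ne.symm hℓp) 1 φ hφ

/-- **Trace and determinant of Frobenius on `W[p]`** (level `p`, not `p ^ 1`). -/
theorem frobTraceDet (hp2 : p ≠ 2) : FrobTraceDet W p p := by
  have h := frobTraceDet_pow_one W p hp2
  rwa [pow_one] at h

theorem trace_rW_frob (hp2 : p ≠ 2) {ℓ : ℕ} (hℓ : ℓ.Prime) (hℓp : ℓ ≠ p)
    (hgood : ¬ (ℓ : ℤ) ∣ W.Δ) (A : ValuationSubring Qbar) (hA : A.LiesOverPrime ℓ) (φ : Γ)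
    (hφ : A.IsFrobeniusAt φ ℓ) :
    LinearMap.trace (ZMod p) (Tp p W) (rW p W φ) = ((W.apOfModel ℓ : ℤ) : ZMod p) :=
  (frobTraceDet W p hp2 ℓ hℓ hℓp hgood A hA φ hφ).1

theorem det_rW_frob (hp2 : p ≠ 2) {ℓ : ℕ} (hℓ : ℓ.Prime) (hℓp : ℓ ≠ p)
    (hgood : ¬ (ℓ : ℤ) ∣ W.Δ) (A : ValuationSubring Qbar) (hA : A.LiesOverPrime ℓ) (φ : Γ)
    (hφ : A.IsFrobeniusAt φ ℓ) :
    LinearMap.det (rW p W φ) = ((ℓ : ℕ) : ZMod p) :=
  (frobTraceDet W p hp2 ℓ hℓ hℓp hgood A hA φ hφ).2

/-- **`det (g | W[p])` is the mod `p` cyclotomic character.** -/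
theorem det_rW (hΔ : W.Δ ≠ 0) (hp2 : p ≠ 2) (g : Γ) :
    LinearMap.det (rW p W g) = ((cycloChar p g : (ZMod p)ˣ) : ZMod p) :=
  det_eq_cycloChar_of_model W p hΔ hp2
    (fun l hl hlp hgood A hA φ hφ => det_rW_frob W p hp2 hl hlp hgood A hA φ hφ) g

/-- The complex conjugation has determinant `-1` on `W[p]`. -/
theorem det_rW_complexConjugation (hΔ : W.Δ ≠ 0) (hp2 : p ≠ 2) :
    LinearMap.det (rW p W complexConjugation) = -1 := by
  rw [det_rW W p hΔ hp2, cycloChar_of_involution p hp2 complexConjugation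
    complexConjugation_mul_self complexConjugation_ne_one, Units.val_neg, Units.val_one]

/-- **The Galois group spans `End (W[p])`** when `W[p]` is irreducible (`p` odd). -/
theorem span_rW_eq_top (hΔ : W.Δ ≠ 0) (hp2 : p ≠ 2) (hirr : W.ModRepIsIrreducible p) :
    Submodule.span (ZMod p) (Set.range (rW p W)) = ⊤ :=
  span_range_eq_top_of_odd (finrank_Tp p W hp2 hΔ) (two_ne_zero_zmod p hp2) (rW p W)
    (hirr_of_modRepIsIrreducible p W hirr) complexConjugation complexConjugation_mul_self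
    (det_rW_complexConjugation W p hΔ hp2)

/-- The representation on `W[p]` factors through a finite level. -/
theorem rW_factors (hΔ : W.Δ ≠ 0) (hp2 : p ≠ 2) : GaloisFactorsThroughFiniteLevel (rW p W) :=
  haveI := finite_Tp p W hp2 hΔ
  galoisRepModuleEnd_factors (W.map (Int.castRingHom ℚ)) p

end WSide

/-! ### The `J`-side: Galois-stable submodules of the eigenspace of `J₀(L)[p]` -/

section JSide

variable (W : WeierstrassCurve ℤ) {p : ℕ} [hp : Fact p.Prime] {L : ℕ} [NeZero L]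

/-- A submodule of `J₀(L)[p]` as a type of its own (instance search on `Module.End _ ↥U` is too
slow through the unfolding of `Jtors`). -/
def SubT (U : Submodule (ZMod p) (Jtors L p)) : Type := ↥U

instance instAddCommGroupSubT (U : Submodule (ZMod p) (Jtors L p)) : AddCommGroup (SubT U) :=
  inferInstanceAs (AddCommGroup ↥U)

instance instModuleSubT (U : Submodule (ZMod p) (Jtors L p)) : Module (ZMod p) (SubT U) :=
  inferInstanceAs (Module (ZMod p) ↥U)

/-- The inclusion of `U` into `J₀(L)[p]`. -/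
def SubT.incl (U : Submodule (ZMod p) (Jtors L p)) : SubT U →ₗ[ZMod p] Jtors L p := U.subtype

/-- The underlying point of `J₀(L)[p]`. -/
def SubT.val {U : Submodule (ZMod p) (Jtors L p)} (x : SubT U) : Jtors L p :=
  Subtype.val (p := fun y => y ∈ U) x

theorem SubT.incl_apply {U : Submodule (ZMod p) (Jtors L p)} (x : SubT U) :
    SubT.incl U x = x.val := rfl

theorem SubT.val_mem {U : Submodule (ZMod p) (Jtors L p)} (x : SubT U) : x.val ∈ U :=
  Subtype.property (p := fun y => y ∈ U) x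

theorem SubT.ext {U : Submodule (ZMod p) (Jtors L p)} {x y : SubT U} (h : x.val = y.val) :
    x = y := Subtype.ext h

theorem SubT.incl_injective (U : Submodule (ZMod p) (Jtors L p)) :
    Function.Injective (SubT.incl U) := fun _ _ h => SubT.ext h

/-- An element of `U` as an element of the wrapper. -/
def SubT.mk {U : Submodule (ZMod p) (Jtors L p)} (x : Jtors L p) (hx : x ∈ U) : SubT U :=
  (⟨x, hx⟩ : ↥U)

@[simp] theorem SubT.val_mk {U : Submodule (ZMod p) (Jtors L p)} (x : Jtors L p) (hx : x ∈ U) :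
    (SubT.mk x hx).val = x := rfl

/-- The Galois representation on a Galois-stable submodule of `J₀(L)[p]`, on the subtype. -/
def galSub0 (U : Submodule (ZMod p) (Jtors L p)) (hst : IsGalStable U) :
    Γ →* Module.End (ZMod p) U where
  toFun σ := (galTors L p σ).restrict (fun x hx => hst σ x hx)
  map_one' := by
    ext v
    simp [LinearMap.restrict_apply]
  map_mul' σ τ := by
    ext v
    simp [LinearMap.restrict_apply, map_mul]

/-- The Galois representation on a Galois-stable submodule of `J₀(L)[p]`. -/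
def galSub (U : Submodule (ZMod p) (Jtors L p)) (hst : IsGalStable U) :
    Γ →* Module.End (ZMod p) (SubT U) := galSub0 U hst

@[simp]
theorem val_galSub_apply (U : Submodule (ZMod p) (Jtors L p)) (hst : IsGalStable U) (σ : Γ)
    (x : SubT U) : (galSub U hst σ x).val = galTors L p σ x.val := rfl

theorem coe_val_galSub_apply (U : Submodule (ZMod p) (Jtors L p)) (hst : IsGalStable U) (σ : Γ)
    (x : SubT U) : ((galSub U hst σ x).val : JZero L) = σ • (x.val : JZero L) :=
  rfl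

/-- `galSub` is `Final.galOn`. -/
theorem galSub_eq_galOn (U : Submodule (ZMod p) (Jtors L p)) (hst : IsGalStable U) (σ : Γ) :
    galSub U hst σ = galOn U hst σ := rfl

/-- The representation on `U` factors through a finite level. -/
theorem galSub_factors (U : Submodule (ZMod p) (Jtors L p)) (hst : IsGalStable U) :
    GaloisFactorsThroughFiniteLevel (galSub U hst) := by
  obtain ⟨K, hK, hfix⟩ := exists_level_of_finite (openStabilizers L) p
    ((inputs L).torsionFinite p hp.out.pos)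
  refine ⟨K, hK, fun σ hσ => ?_⟩
  apply LinearMap.ext
  intro x
  apply SubT.ext
  apply Subtype.ext
  rw [coe_val_galSub_apply]
  exact hfix σ hσ _ x.val.2

variable (N : ℕ)

/-- **Eichler–Shimura on `U`**: a Frobenius element `φ` at a good prime `ℓ ∤ N p` satisfies
`φ² - a_ℓ(W) φ + ℓ = 0` on `U`. -/
theorem quad_frob_apply (hLN : L ∣ N) (U : Submodule (ZMod p) (Jtors L p)) (hst : IsGalStable U)
    (hle : U ≤ WthetaL W p N L) {ℓ : ℕ} (hℓ : ℓ.Prime) (hgood : W.IsGoodPrimeFor ℓ)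
    (hℓN : ¬ ℓ ∣ N) (hℓp : ℓ ≠ p) (A : ValuationSubring Qbar) (hA : A.LiesOverPrime ℓ) (φ : Γ)
    (hφ : A.IsFrobeniusAt φ ℓ) (x : SubT U) :
    galSub U hst φ (galSub U hst φ x) - ((W.apOfModel ℓ : ℤ) : ZMod p) • galSub U hst φ x
      + ((ℓ : ℕ) : ZMod p) • x = 0 := by
  have hℓL : ¬ ℓ ∣ L := fun h => hℓN (h.trans hLN)
  have h := congrArg (fun f : Module.End (ZMod p) (Jtors L p) => f x.val)
    (galTors_quadratic hℓ hℓp A ((inputs L).esOnTorsionAll ℓ hℓ hℓL A hA) φ hφ)
  simp only [LinearMap.add_apply, LinearMap.sub_apply, Module.End.mul_apply,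
    LinearMap.smul_apply, Module.End.one_apply, LinearMap.zero_apply] at h
  have hT : heckeTors L p ⟨ℓ, hℓ⟩ (galTors L p φ x.val)
      = ((W.apOfModel ℓ : ℤ) : ZMod p) • galTors L p φ x.val :=
    (mem_wthetaL_iff.mp (hle (hst φ _ x.val_mem))) ⟨⟨ℓ, hℓ⟩, hgood, hℓN, hℓp⟩
  rw [hT] at h
  apply SubT.ext
  exact h

/-- Operator form of `quad_frob_apply`, with the trace and determinant on `W[p]`. -/
theorem quad_frob (hp2 : p ≠ 2) (hLN : L ∣ N) (U : Submodule (ZMod p) (Jtors L p))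
    (hst : IsGalStable U) (hle : U ≤ WthetaL W p N L) {ℓ : ℕ} (hℓ : ℓ.Prime)
    (hgood : W.IsGoodPrimeFor ℓ) (hℓN : ¬ ℓ ∣ N) (hℓp : ℓ ≠ p) (A : ValuationSubring Qbar)
    (hA : A.LiesOverPrime ℓ) (φ : Γ) (hφ : A.IsFrobeniusAt φ ℓ) :
    galSub U hst φ * galSub U hst φ
      - LinearMap.trace (ZMod p) (Tp p W) (rW p W φ) • galSub U hst φ
      + LinearMap.det (rW p W φ) • (1 : Module.End (ZMod p) (SubT U)) = 0 := by
  rw [trace_rW_frob W p hp2 hℓ hℓp hgood A hA φ hφ, det_rW_frob W p hp2 hℓ hℓp hgood A hA φ hφ]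
  apply LinearMap.ext
  intro x
  exact quad_frob_apply W N hLN U hst hle hℓ hgood hℓN hℓp A hA φ hφ x

/-- **The quadratic relation for every element of the Galois group**: on a Galois-stable
submodule `U` of the eigenspace of `J₀(L)[p]`, every `g` is a root of its characteristic
polynomial on `W[p]`. -/
theorem quad_all (hΔ : W.Δ ≠ 0) (hp2 : p ≠ 2) (hN : N ≠ 0) (hLN : L ∣ N)
    (U : Submodule (ZMod p) (Jtors L p)) (hst : IsGalStable U) (hle : U ≤ WthetaL W p N L)
    (g : Γ) :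
    galSub U hst g * galSub U hst g
      - LinearMap.trace (ZMod p) (Tp p W) (rW p W g) • galSub U hst g
      + LinearMap.det (rW p W g) • (1 : Module.End (ZMod p) (SubT U)) = 0 := by
  obtain ⟨K, hKfin, hKn, hρE, hρU⟩ := Fermat.Agent.N4.FrobDensity.exists_normal_level
    (rW p W) (galSub U hst) (rW_factors W p hΔ hp2) (galSub_factors U hst)
  haveI := hKfin
  haveI := hKn
  obtain ⟨ℓ, hℓ, hℓT, A, hA, φ, hφ, m, hm⟩ :=
    Fermat.Agent.N4.FrobDensity.exists_isFrobeniusAt_pow_eq K g (badSet W p ∪ N.primeFactors)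
  rw [Finset.mem_union, not_or] at hℓT
  obtain ⟨hℓbad, hℓNf⟩ := hℓT
  obtain ⟨hℓp, hgood⟩ := not_dvd_of_notMem_badSet W p hΔ hℓ hℓbad
  have hℓN : ¬ ℓ ∣ N := fun h => hℓNf (Nat.mem_primeFactors.mpr ⟨hℓ, h, hN⟩)
  have hγ : AlgEquiv.restrictNormalHom K ((φ ^ m)⁻¹ * g) = 1 := by
    rw [map_mul, map_inv, hm, inv_mul_cancel]
  have e1 : rW p W g = rW p W φ ^ m := by
    have h3 : rW p W ((φ ^ m) * ((φ ^ m)⁻¹ * g)) = rW p W g := by rw [mul_inv_cancel_left]
    rw [map_mul, hρE _ hγ, mul_one, map_pow] at h3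
    exact h3.symm
  have e2 : galSub U hst g = galSub U hst φ ^ m := by
    have h3 : galSub U hst ((φ ^ m) * ((φ ^ m)⁻¹ * g)) = galSub U hst g := by
      rw [mul_inv_cancel_left]
    rw [map_mul, hρU _ hγ, mul_one, map_pow] at h3
    exact h3.symm
  haveI := moduleFinite_Tp p W hp2 hΔ
  rw [e1, e2]
  exact quadratic_relation_pow (finrank_Tp p W hp2 hΔ) (rW p W φ) (galSub U hst φ)
    (quad_frob W N hp2 hLN U hst hle hℓ hgood hℓN hℓp A hA φ hφ) m

end JSide

/-! ### Copies of `W[p]` -/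

section Copy

variable (W : WeierstrassCurve ℤ) (p : ℕ) [hp : Fact p.Prime] {L : ℕ} [NeZero L]

/-- **`V` is a copy of `W[p]`**: a Galois-stable submodule of `J₀(L)[p]` with a Galois-equivariant
isomorphism `W(ℚ̄)[p] ≃ V`. -/
def CopyOfE (V : Submodule (ZMod p) (Jtors L p)) : Prop :=
  ∃ (hst : IsGalStable V) (φ : Tp p W ≃ₗ[ZMod p] SubT V),
    ∀ g : Γ, φ.toLinearMap ∘ₗ rW p W g = galSub V hst g ∘ₗ φ.toLinearMap

variable {W p}

/-- ★ **A simple Galois-stable submodule of the `θ`-eigenspace of `J₀(L)[p]` is a copy of `W[p]`**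
(`W[p]` irreducible, `p` odd). -/
theorem copyOfE_of_simple (hΔ : W.Δ ≠ 0) (hp2 : p ≠ 2) (hirr : W.ModRepIsIrreducible p)
    {N : ℕ} (hN : N ≠ 0) (hLN : L ∣ N) (V : Submodule (ZMod p) (Jtors L p))
    (hV : IsSimpleGal V) (hle : V ≤ WthetaL W p N L) : CopyOfE W p V := by
  obtain ⟨hV0, hst, hmin⟩ := hV
  haveI := moduleFinite_Tp p W hp2 hΔ
  haveI : Finite (Jtors L p) := (inputs L).torsionFinite p hp.out.pos
  haveI : Finite (SubT V) := Finite.of_injective (SubT.incl V) (SubT.incl_injective V)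
  haveI : Module.Finite (ZMod p) (SubT V) := Module.Finite.of_finite
  haveI : Nontrivial (Tp p W) := Module.nontrivial_of_finrank_pos (R := ZMod p)
    (by rw [finrank_Tp p W hp2 hΔ]; norm_num)
  haveI : Nontrivial (SubT V) := by
    obtain ⟨x, hx, hx0⟩ := (Submodule.ne_bot_iff V).mp hV0
    exact ⟨⟨SubT.mk x hx, 0, fun h => hx0 (congrArg SubT.val h)⟩⟩
  have hirrV : ∀ W' : Submodule (ZMod p) (SubT V),
      (∀ g, ∀ x ∈ W', galSub V hst g x ∈ W') → W' = ⊥ ∨ W' = ⊤ := by
    intro W' hW'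
    have hle' : Submodule.map (SubT.incl V) W' ≤ V := by
      rintro _ ⟨x, -, rfl⟩
      exact x.val_mem
    have hst' : IsGalStable (Submodule.map (SubT.incl V) W') := by
      rintro σ _ ⟨x, hx, rfl⟩
      exact ⟨galSub V hst σ x, hW' σ x hx, rfl⟩
    rcases hmin _ hle' hst' with h | h
    · left
      rw [Submodule.eq_bot_iff]
      intro x hx
      have h1 : SubT.incl V x ∈ Submodule.map (SubT.incl V) W' := Submodule.mem_map_of_mem hx
      rw [h, Submodule.mem_bot] at h1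
      exact SubT.incl_injective V (h1.trans (_root_.map_zero _).symm)
    · right
      rw [Submodule.eq_top_iff']
      intro x
      have h1 : SubT.incl V x ∈ Submodule.map (SubT.incl V) W' := by
        rw [h]
        exact x.val_mem
      obtain ⟨y, hy, hyx⟩ := h1
      exact SubT.incl_injective V hyx ▸ hy
  obtain ⟨φ, hφ⟩ := exists_equiv_of_quadratic_relation (two_ne_zero_zmod p hp2) (rW p W)
    (galSub V hst) (span_rW_eq_top W p hΔ hp2 hirr) hirrV
    (quad_all W N hΔ hp2 hN hLN V hst hle)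
  exact ⟨hst, φ, hφ⟩

end Copy

/-! ### Consumer forms -/

section Consumers

variable {W : WeierstrassCurve ℤ} {p : ℕ} [hp : Fact p.Prime] {L : ℕ} [NeZero L]
  {V : Submodule (ZMod p) (Jtors L p)}

theorem CopyOfE.isGalStable (h : CopyOfE W p V) : IsGalStable V := h.1

/-- A copy of `W[p]` is two-dimensional. -/
theorem CopyOfE.finrank_eq (hΔ : W.Δ ≠ 0) (hp2 : p ≠ 2) (h : CopyOfE W p V) :
    Module.finrank (ZMod p) V = 2 := by
  obtain ⟨hst, φ, -⟩ := h
  have h1 : Module.finrank (ZMod p) (SubT V) = 2 := by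
    rw [← φ.finrank_eq, finrank_Tp p W hp2 hΔ]
  exact h1

/-- The mod `p` cyclotomic characters of `S14/GaloisModule` and of the prelude agree. -/
theorem coe_chi_eq_coe_cycloChar (σ : Γ) :
    ((chi p σ : (ZMod p)ˣ) : ZMod p) = ((cycloChar p σ : (ZMod p)ˣ) : ZMod p) := by
  rw [coe_cycloChar, Fermat.Agent.S14.GaloisModule.cast_cycloExp]

/-- On a copy of `W[p]` the determinant of the Galois action is the mod `p` cyclotomic character
(wrapper form). -/
theorem CopyOfE.det_galSub (hΔ : W.Δ ≠ 0) (hp2 : p ≠ 2) (h : CopyOfE W p V)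
    (hst : IsGalStable V) (σ : Γ) :
    LinearMap.det (galSub V hst σ) = ((chi p σ : (ZMod p)ˣ) : ZMod p) := by
  obtain ⟨hst', φ, hφ⟩ := h
  have h1 : galSub V hst' σ = φ.toLinearMap ∘ₗ rW p W σ ∘ₗ φ.symm.toLinearMap := by
    rw [← LinearMap.comp_assoc, hφ σ, LinearMap.comp_assoc]
    apply LinearMap.ext
    intro x
    simp
  have h2 : LinearMap.det (galSub V hst' σ) = LinearMap.det (rW p W σ) := by
    rw [h1]
    exact LinearMap.det_conj (rW p W σ) φ
  rw [coe_chi_eq_coe_cycloChar, ← det_rW W p hΔ hp2 σ, ← h2]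

/-- **(H-det)**: on a copy of `W[p]` the determinant of the Galois action is the mod `p`
cyclotomic character. -/
theorem CopyOfE.det_galOn (hΔ : W.Δ ≠ 0) (hp2 : p ≠ 2) (h : CopyOfE W p V)
    (hst : IsGalStable V) (σ : Γ) :
    LinearMap.det (galOn V hst σ) = ((chi p σ : (ZMod p)ˣ) : ZMod p) :=
  CopyOfE.det_galSub hΔ hp2 h hst σ

/-- The two consumer facts of `Top/Final.s40_of_blocks` (hypothesis `hdet`). -/
theorem hdet_of_copyOfE (hΔ : W.Δ ≠ 0) (hp2 : p ≠ 2) (V : Submodule (ZMod p) (Jtors L p))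
    (hV : IsSimpleGal V) (h : CopyOfE W p V) :
    Module.finrank (ZMod p) V = 2 ∧
      ∀ σ : Γ, LinearMap.det (galOn V hV.2.1 σ) = ((chi p σ : (ZMod p)ˣ) : ZMod p) :=
  ⟨h.finrank_eq hΔ hp2, fun σ => h.det_galOn hΔ hp2 hV.2.1 σ⟩

/-- The equivariant isomorphism as an additive map `W(ℚ̄)[p] → J₀(L)(ℚ̄)`: injective, with image
`V`, commuting with the Galois group. -/
theorem CopyOfE.exists_addMonoidHom (h : CopyOfE W p V) :
    ∃ ψ : Tp p W →+ JZero L, Function.Injective ψ ∧
      (∀ x : JZero L, (∃ hx : x ∈ Jtors L p, (⟨x, hx⟩ : Jtors L p) ∈ V) ↔ ∃ e, ψ e = x) ∧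
      ∀ (σ : Γ) (e : Tp p W), ψ (σ • e) = σ • ψ e := by
  obtain ⟨hst, φ, hφ⟩ := h
  let ψ : Tp p W →+ JZero L :=
    (Jtors L p).subtype.comp ((SubT.incl V).toAddMonoidHom.comp φ.toLinearMap.toAddMonoidHom)
  have hψ : ∀ e, ψ e = ((φ e).val : JZero L) := fun _ => rfl
  refine ⟨ψ, ?_, ?_, ?_⟩
  · intro e e' hee
    rw [hψ, hψ] at hee
    exact φ.injective (SubT.ext (Subtype.ext hee))
  · intro x
    constructor
    · rintro ⟨hx, hxV⟩
      refine ⟨φ.symm (SubT.mk ⟨x, hx⟩ hxV), ?_⟩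
      rw [hψ, LinearEquiv.apply_symm_apply]
      rfl
    · rintro ⟨e, rfl⟩
      exact ⟨(φ e).val.2, (φ e).val_mem⟩
  · intro σ e
    have h1 := congrArg (fun f : Tp p W →ₗ[ZMod p] SubT V => f e) (hφ σ)
    have h2 : φ (σ • e) = galSub V hst σ (φ e) := h1
    rw [hψ, hψ, h2]
    rfl

/-- An element of the Galois group acting trivially on `W[p]` acts trivially on a copy of it. -/
theorem CopyOfE.fixes_of_fixes (h : CopyOfE W p V) (σ : Γ) (hσ : ∀ e : Tp p W, σ • e = e)
    (x : Jtors L p) (hx : x ∈ V) : galTors L p σ x = x := by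
  obtain ⟨hst, φ, hφ⟩ := h
  have h1 := congrArg (fun f : Tp p W →ₗ[ZMod p] SubT V => f (φ.symm (SubT.mk x hx))) (hφ σ)
  have h2 : φ (σ • φ.symm (SubT.mk x hx)) = galSub V hst σ (φ (φ.symm (SubT.mk x hx))) := h1
  rw [hσ, LinearEquiv.apply_symm_apply] at h2
  have h3 := congrArg SubT.val h2
  rw [val_galSub_apply, SubT.val_mk] at h3
  exact h3.symm

/-- Conversely, an element acting trivially on a copy of `W[p]` acts trivially on `W[p]`. -/
theorem CopyOfE.fixes_of_fixes' (h : CopyOfE W p V) (σ : Γ)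
    (hσ : ∀ x : Jtors L p, x ∈ V → galTors L p σ x = x) (e : Tp p W) : σ • e = e := by
  obtain ⟨hst, φ, hφ⟩ := h
  have h1 := congrArg (fun f : Tp p W →ₗ[ZMod p] SubT V => f e) (hφ σ)
  have h2 : φ (σ • e) = galSub V hst σ (φ e) := h1
  have h3 : galSub V hst σ (φ e) = φ e := SubT.ext (hσ _ (φ e).val_mem)
  rw [h3] at h2
  exact φ.injective h2

/-- An element of the Galois group acting trivially on `W[p]` fixes the `p`-th roots of unity
(`det = χ_p`). -/
theorem fixes_zeta_of_fixes (hΔ : W.Δ ≠ 0) (hp2 : p ≠ 2) (σ : Γ)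
    (hσ : ∀ e : Tp p W, σ • e = e) {ζ : Qbar} (hζ : IsPrimitiveRoot ζ p) : σ ζ = ζ := by
  have h1 : rW p W σ = 1 := LinearMap.ext fun e => hσ e
  have h2 := det_rW W p hΔ hp2 σ
  rw [h1, map_one, ← coe_chi_eq_coe_cycloChar] at h2
  refine (Fermat.Agent.S14.GaloisModule.mem_ker_chi_iff p σ hζ).mp (MonoidHom.mem_ker.mpr ?_)
  apply Units.ext
  rw [Units.val_one]
  exact h2.symm

end Consumers

end Fermat.Agent.S40.Top.CopyOfE
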