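/-
S40 (level lowering at `p`), block [E1-d](α) (helper29): **the (PEU) package for a copy `V` of
`W[p]` inside `J₀(L)[p]`**, with hypotheses about `V` only.

`W / ℤ` with `Δ ≠ 0`, `p` odd of good reduction, `V ≤ Jtors L p` a copy of `W[p]` (`CopyOfE`).
If `U ∈ ℚ̄ˣ` is such that every `σ` in the inertia group at `padicPlace p` multiplies `U` by a
`p`-th root of unity, and fixes `U` whenever it fixes `V` pointwise, then the `p`-adic valuation of
`U` is an integer: `‖padicEmbedding p U‖ = p ^ m`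
(`S40/P/PeuPack.exists_norm_eq_zpow_of_goodReduction` of helper17 at `M = W(ℚ̄)[p]`; the transport
`σ` fixes `W[p]` ⇒ `σ` fixes `V` is `CopyOfE.fixes_of_fixes`, and `ζ_p` is fixed by the
automorphisms fixing `W[p]` because `det = χ_p`, `CopyOfE.fixes_zeta_of_fixes`).

* `integralAt_of_model`, `Δ_notMem_nonunits` : the good reduction hypotheses of (E-HOPF) from
  `W.IsGoodPrimeFor p`;
* `torsP W p` : `W(ℚ̄)[p]` as an additive subgroup of the points;
* ★ `exists_norm_eq_zpow_of_copyOfE`.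
-/
import Mathlib
import Fermat.Agent.S40.Top.CopyOfE
import Fermat.Agent.S40.P.PeuPack
import Fermat.Agent.S56.Places.Dict

set_option autoImplicit false
set_option linter.unusedSectionVars false
set_option linter.unusedVariables false
set_option linter.style.haveILetI false

open ModularCurve AlgebraicCurve

noncomputable section

namespace Fermat.Agent.S40.Top.PeuOfCopy

open WeierstrassCurve WeierstrassCurve.Affine WeierstrassCurve.Affine.Point
open Fermat.Agent.N4F.Res Fermat.Agent.S58.Form.Hres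
open Fermat.Agent.S40.Top.Eigen Fermat.Agent.S40.Top.CopyOfE
open Fermat.Agent.S05 Fermat.Agent.S40.E

local notation "Qbar" => AlgebraicClosure ℚ
local notation "Γ" => (AlgebraicClosure ℚ ≃ₐ[ℚ] AlgebraicClosure ℚ)

section Good

variable (W : WeierstrassCurve ℤ) (A : ValuationSubring Qbar)

/-- An integral model is integral at every valuation subring. -/
theorem integralAt_of_model : IntegralAt ((W.map (Int.castRingHom ℚ))⁄Qbar) A := by
  have hmem : ∀ a : ℤ, algebraMap ℚ Qbar ((Int.castRingHom ℚ) a) ∈ A := fun a => by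
    rw [eq_intCast, map_intCast]
    exact intCast_mem A a
  exact ⟨hmem _, hmem _, hmem _, hmem _, hmem _⟩

/-- At a prime of good reduction the discriminant is a unit. -/
theorem Δ_notMem_nonunits {p : ℕ} (hp : p.Prime) (hA : A.LiesOverPrime p)
    (hgood : W.IsGoodPrimeFor p) : ((W.map (Int.castRingHom ℚ))⁄Qbar).Δ ∉ A.nonunits := by
  have hΔeq : ((W.map (Int.castRingHom ℚ))⁄Qbar).Δ = ((W.Δ : ℤ) : Qbar) := by
    show ((W.map (Int.castRingHom ℚ)).map (algebraMap ℚ Qbar)).Δ = _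
    rw [WeierstrassCurve.map_Δ, WeierstrassCurve.map_Δ, eq_intCast, map_intCast]
  rw [hΔeq]
  intro hmem
  have hcop : IsCoprime (p : ℤ) W.Δ :=
    ((Nat.prime_iff_prime_int.mp hp).irreducible.coprime_iff_not_dvd).mpr hgood
  obtain ⟨a, b, hab⟩ := hcop
  have hpA : ((p : ℕ) : Qbar) ∈ A.nonunits := hA
  have hmul : ∀ x y : Qbar, x ∈ A → y ∈ A.nonunits → x * y ∈ A.nonunits := by
    intro x y hx hy
    rw [ValuationSubring.mem_nonunits_iff] at hy ⊢
    rw [map_mul]
    exact Right.mul_lt_one_of_le_of_lt ((A.valuation_le_one_iff x).mpr hx) hy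
  have h1 : ((a : ℤ) : Qbar) * ((p : ℕ) : Qbar) ∈ A.nonunits := hmul _ _ (intCast_mem A a) hpA
  have h2 : ((b : ℤ) : Qbar) * ((W.Δ : ℤ) : Qbar) ∈ A.nonunits := hmul _ _ (intCast_mem A b) hmem
  have h3 : (1 : Qbar) ∈ A.nonunits := by
    have h4 : (1 : Qbar)
        = ((a : ℤ) : Qbar) * ((p : ℕ) : Qbar) + ((b : ℤ) : Qbar) * ((W.Δ : ℤ) : Qbar) := by
      have := congrArg (Int.cast : ℤ → Qbar) hab
      push_cast at this
      exact this.symm
    rw [h4]
    rw [ValuationSubring.mem_nonunits_iff] at h1 h2 ⊢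
    exact Valuation.map_add_lt A.valuation h1 h2
  rw [ValuationSubring.mem_nonunits_iff, map_one] at h3
  exact lt_irrefl _ h3

end Good

/-! ### The `p`-torsion as a subgroup of the points, and the (PEU) package for a copy of it -/

section Peu

open Fermat.Agent.S56.Places.Dict

variable (W : WeierstrassCurve ℤ) (p : ℕ) [hp : Fact p.Prime]

/-- `W(ℚ̄)[p]` as an additive subgroup of the group of points. -/
def torsP : AddSubgroup ((W.map (Int.castRingHom ℚ))⁄Qbar).Point :=
  (Submodule.torsionBy ℤ ((W.map (Int.castRingHom ℚ))⁄Qbar).Point p).toAddSubgroup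

variable {W p}

theorem mem_torsP_iff_mem_torsionBy {y : ((W.map (Int.castRingHom ℚ))⁄Qbar).Point} :
    y ∈ torsP W p ↔ y ∈ Submodule.torsionBy ℤ ((W.map (Int.castRingHom ℚ))⁄Qbar).Point p :=
  Iff.rfl

theorem mem_torsP_iff {y : ((W.map (Int.castRingHom ℚ))⁄Qbar).Point} :
    y ∈ torsP W p ↔ p • y = 0 := by
  rw [mem_torsP_iff_mem_torsionBy, Submodule.mem_torsionBy_iff, natCast_zsmul]

/-- A point of `torsP` as an element of `Tp p W`. -/
def toTp (y : ((W.map (Int.castRingHom ℚ))⁄Qbar).Point) (hy : y ∈ torsP W p) : Tp p W :=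
  ⟨y, mem_torsP_iff_mem_torsionBy.mp hy⟩

theorem coe_smul_Tp (σ : Γ) (e : Tp p W) :
    ((σ • e : Tp p W) : ((W.map (Int.castRingHom ℚ))⁄Qbar).Point)
      = σ • (e : ((W.map (Int.castRingHom ℚ))⁄Qbar).Point) := rfl

theorem finite_torsP (hΔ : W.Δ ≠ 0) (hp2 : p ≠ 2) : Finite (torsP W p) := by
  haveI := finite_Tp p W hp2 hΔ
  refine Finite.of_injective (fun y : torsP W p => toTp y.1 y.2) ?_
  intro y y' h
  exact Subtype.ext (congrArg Subtype.val h)

/-- An automorphism fixing `torsP` pointwise acts trivially on `Tp p W`. -/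
theorem smul_Tp_eq_of_fixes_torsP (σ : Γ)
    (hσ : ∀ y ∈ torsP W p, Stab.actE (W.map (Int.castRingHom ℚ)) σ y = y) (e : Tp p W) :
    σ • e = e :=
  Subtype.ext (hσ e.1 (mem_torsP_iff_mem_torsionBy.mpr e.2))

/-- ★ **(PEU) for a copy `V` of `W[p]`.**  `p` odd of good reduction for `W`; `U ∈ ℚ̄ˣ` such that
the inertia group at `padicPlace p` multiplies `U` by `p`-th roots of unity, trivially for the
elements fixing `V` pointwise.  Then the `p`-adic valuation of `U` is an integer. -/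
theorem exists_norm_eq_zpow_of_copyOfE (hΔ : W.Δ ≠ 0) (hp2 : p ≠ 2) (hgood : W.IsGoodPrimeFor p)
    {L : ℕ} [NeZero L] (V : Submodule (ZMod p) (Jtors L p)) (hC : CopyOfE W p V)
    {U : Qbar} (hU : U ≠ 0)
    (h1 : ∀ σ ∈ (padicPlace p).inertiaSubgroupIn ℚ, (σ U / U) ^ p = 1)
    (h2 : ∀ σ ∈ (padicPlace p).inertiaSubgroupIn ℚ,
      (∀ x : Jtors L p, x ∈ V → galTors L p σ x = x) → σ U = U) :
    ∃ m : ℤ, ‖padicEmbedding p U‖ = (p : ℝ) ^ m := by
  obtain ⟨ζ, hζ⟩ := Fermat.Agent.N4F.Res.exists_isPrimitiveRoot_Qbar p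
  have hA := liesOverPrime_padicPlace p
  refine Fermat.Agent.S40.P.PeuPack.exists_norm_eq_zpow_of_goodReduction
    (W.map (Int.castRingHom ℚ)) hp2 (padicPlace p) hA (integralAt_of_model W _)
    (Δ_notMem_nonunits W _ hp.out hA hgood) (torsP W p) (finite_torsP hΔ hp2) ?_ ?_ hζ ?_ hU h1 ?_
  · intro σ y hy
    exact mem_torsP_iff_mem_torsionBy.mpr
      (smul_mem_torsionBy σ (mem_torsP_iff_mem_torsionBy.mp hy))
  · intro y hy
    exact mem_torsP_iff.mp hy
  · intro σ hσ
    exact fixes_zeta_of_fixes hΔ hp2 σ (smul_Tp_eq_of_fixes_torsP σ hσ) hζ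
  · intro σ hσI hσ
    exact h2 σ hσI (fun x hx => hC.fixes_of_fixes σ (smul_Tp_eq_of_fixes_torsP σ hσ) x hx)

end Peu

end Fermat.Agent.S40.Top.PeuOfCopy
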