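/-
S40, top level, [M3-tors]: DELIGNE–SERRE FROM A TORSION EIGENVECTOR TO THE EXACT FROZEN SHAPE.

A nonzero `z ∈ J₀(M')(Q̄)[p]` with `T_ℓ z = a_ℓ(W) z` for the good primes `ℓ ∤ M'`, `ℓ ≠ p`, gives
`W.IsResiduallyModularOfLevel p M'`: a normalized weight-2 eigenform of level `M'` whose
eigenvalues are congruent to the `a_ℓ(W)` modulo a maximal ideal of `ℤ̄` over `p`.

Chain (the tail of `P3LR/Assembly.exists_eigenform_of_ker_eigenvector` without `ker i†` / newness):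
`S40.J.Rho4.exists_lift_kappa` (`ψ ∈ Λ = parHomAdd M' ℤ` with `κ z = red ψ`; `ψ ∉ pΛ` by
`kappa_injective`; `T_ℓ ψ - a_ℓ ψ ∈ pΛ` by `torsRel_hecke`) → `DS0.exists_lift` on `Λ` (as `⊤ ≤ Λ`)
→ `LatticeC.JJ` → `P4S35.OccursOfEigenvector.exists_isNormalizedEigenform_of_eigenvector_parHomAdd`
→ the frozen shape.
-/
import Mathlib
import Fermat.Agent.S40.J.Rho4
import Fermat.Agent.P3LR.Occ
import Fermat.Agent.P3LR.PolyLin
import Fermat.Agent.P3LR.PolyIdeal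
import Fermat.Agent.P3LR.DS0
import Fermat.Agent.P3LR.LatticeC
import Fermat.Agent.P4S35.OccursOfEigenvector
import Fermat.Agent.N4F.Tors.OutputsFinal

set_option autoImplicit false
set_option linter.unusedSectionVars false

open CongruenceSubgroup MvPolynomial
open scoped TensorProduct MatrixGroups

noncomputable section

namespace Fermat.Agent.S40.Top.OfTors

open Fermat.Agent.N4F.Res Fermat.Agent.N4F.Tors.HeckeHom Fermat.Agent.N4F.Tors.Outputs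
  Fermat.Agent.P3LR.Poly Fermat.Agent.P3LR.PolyLin Fermat.Agent.P3LR.PolyIdeal
  Fermat.Agent.S40.J.KummerParEll Fermat.Agent.S40.J.Rho4

/-! ### The index set and the Hecke family on the lattice -/

section Families

variable (W : WeierstrassCurve ℤ) (p M' : ℕ)

/-- the index set of the Hecke operators used: good primes `ℓ ∤ M'`, `ℓ ≠ p` -/
def Idx : Type :=
  {ℓ : Nat.Primes // W.IsGoodPrimeFor ℓ ∧ ¬ (ℓ : ℕ) ∣ M' ∧ (ℓ : ℕ) ≠ p}

variable {W p M'}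

/-- the integer eigenvalues `a_ℓ(W)` -/
def aW (j : Idx W p M') : ℤ := W.apOfModel (j.1 : ℕ)

/-- `T_ℓ` on `Λ = parHomAdd M' ℤ` -/
def tL (j : Idx W p M') : Module.End ℤ (parHomAdd M' ℤ) := heckeLattice M' j.1 j.2.2.1

theorem tL_comm [NeZero M'] (j k : Idx W p M') : Commute (tL j) (tL k) :=
  Fermat.Agent.N4F.Tors.OutputsFinal.heckeLattice_commute M' j.1 k.1 _ _

/-- `T_ℓ` on `⊤ ≤ Λ` -/
def tTop (j : Idx W p M') : Module.End ℤ (⊤ : Submodule ℤ (parHomAdd M' ℤ)) :=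
  (tL j).restrict (fun _ _ => Submodule.mem_top)

theorem tTop_coe (j : Idx W p M') (y : (⊤ : Submodule ℤ (parHomAdd M' ℤ))) :
    ((tTop j y : (⊤ : Submodule ℤ (parHomAdd M' ℤ))) : parHomAdd M' ℤ) =
      tL j (y : parHomAdd M' ℤ) := rfl

theorem tTop_comm [NeZero M'] (j k : Idx W p M') : Commute (tTop j) (tTop k) := by
  refine LinearMap.ext fun y => Subtype.ext ?_
  exact LinearMap.congr_fun (tL_comm j k).eq y.1

end Families

/-! ### Step 1: from the torsion eigenvector to a lattice eigenvector mod `p` -/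

section Lattice

variable {W : WeierstrassCurve ℤ} {p M' : ℕ} [NeZero M']

theorem red_eq_redPar (ψ : parHomAdd M' ℤ) : red M' p ψ = (redPar M' p ψ).1 := rfl

/-- **Step 1.**  A nonzero `z ∈ J₀(M')[p]` with `T_ℓ z = a_ℓ(W) z` lifts to `ψ ∈ Λ ∖ pΛ` with
`T_ℓ ψ - a_ℓ(W) ψ ∈ pΛ`. -/
theorem exists_lattice_eigenvector_of_tors (hp : p.Prime) (z : Jtors M' p) (hz : z ≠ 0)
    (heig : ∀ j : Idx W p M', heckeTors M' p j.1 z = ((aW j : ℤ) : ZMod p) • z) :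
    ∃ ψ : parHomAdd M' ℤ, (¬ ∃ y, ψ = (p : ℤ) • y) ∧
      ∀ j : Idx W p M', ∃ y, tL j ψ - aW j • ψ = (p : ℤ) • y := by
  obtain ⟨ψ, hψ⟩ := exists_lift_kappa M' p hp.pos z
  have hpz : ∀ φ : Additive ↥(Gamma0 M') →+ ZMod p, (p : ℤ) • φ = 0 := by
    intro φ
    refine AddMonoidHom.ext fun g => ?_
    rw [AddMonoidHom.smul_apply, AddMonoidHom.zero_apply, zsmul_eq_mul, Int.cast_natCast,
      ZMod.natCast_self, zero_mul]
  refine ⟨ψ, ?_, fun j => ?_⟩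
  · rintro ⟨y, hy⟩
    apply hz
    apply kappa_injective M' p hp.pos
    rw [hψ, hy, red_zsmul, hpz, map_zero]
  · apply redPar_eq_zero M' p hp
    apply Subtype.ext
    rw [← red_eq_redPar]
    have h1 : kappa M' p (heckeTorsAdd M' p j.1 z) = red M' p (tL j ψ) :=
      torsRel_hecke p hp.pos j.1 j.2.2.1 ψ z hψ
    have h2 : heckeTorsAdd M' p j.1 z = aW j • z := by
      have := heig j
      rw [Int.cast_smul_eq_zsmul] at this
      exact this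
    rw [h2, map_zsmul, hψ, ← red_zsmul] at h1
    have h3 : tL j ψ - aW j • ψ = tL j ψ + (-1 : ℤ) • (aW j • ψ) := by
      rw [neg_smul, one_smul, sub_eq_add_neg]
    rw [h3, red_add, red_zsmul, ← h1, neg_smul, one_smul, add_neg_cancel]
    rfl

end Lattice

/-! ### Step 2: [DS0] on the lattice -/

section DS

variable {W : WeierstrassCurve ℤ} {p M' : ℕ} [NeZero M']

set_option maxHeartbeats 1600000 in
/-- [DS0] on `Λ` (as the submodule `⊤`) -/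
theorem exists_lift_top [Fact p.Prime]
    (ψ : parHomAdd M' ℤ) (hψ : ¬ ∃ y, ψ = (p : ℤ) • y)
    (hgen : ∀ j : Idx W p M', ∃ y, tL j ψ - aW j • ψ = (p : ℤ) • y) :
    ∃ (χ : MvPolynomial (Idx W p M') ℤ →+* ℂ) (𝔪' : Ideal (integralClosure ℤ ℂ))
      (v : ℂ ⊗[ℤ] (⊤ : Submodule ℤ (parHomAdd M' ℤ))), 𝔪'.IsMaximal ∧ v ≠ 0 ∧
      (∀ j : Idx W p M', (tTop j).baseChange ℂ v = χ (X j) • v) ∧
      ∀ r ∈ eigIdeal p (aW (W := W) (p := p) (M' := M')),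
        ∃ c : integralClosure ℤ ℂ, (c : ℂ) = χ r ∧ c ∈ 𝔪' := by
  classical
  have hfreeM : Module.Free ℤ (parHomAdd M' ℤ) := Fermat.Agent.P3LR.Occ.free_parHomAdd M'
  have hfinM : Module.Finite ℤ (parHomAdd M' ℤ) := Fermat.Agent.P3LR.Occ.finite_parHomAdd M'
  let mod₀ : Module (MvPolynomial (Idx W p M') ℤ) (⊤ : Submodule ℤ (parHomAdd M' ℤ)) :=
    polyModule (tTop (W := W) (p := p) (M' := M')) tTop_comm
  have hmax𝔞 : (eigIdeal p (aW (W := W) (p := p) (M' := M'))).IsMaximal :=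
    Fermat.Agent.P3LR.PolyIdeal.isMaximal p aW
  have hgen₀ : ∀ (j : Idx W p M') (y : (⊤ : Submodule ℤ (parHomAdd M' ℤ))),
      ((X j : MvPolynomial (Idx W p M') ℤ) - C (aW j)) • y = tTop j y - aW j • y := by
    intro j y
    rw [sub_smul, polyModule_X_smul, polyModule_C_smul]
  let y₀ : (⊤ : Submodule ℤ (parHomAdd M' ℤ)) := ⟨ψ, Submodule.mem_top⟩
  have hy₀ : ¬ ∃ z : (⊤ : Submodule ℤ (parHomAdd M' ℤ)), y₀ = (p : ℤ) • z := by
    rintro ⟨z, hz⟩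
    exact hψ ⟨z.1, congrArg Subtype.val hz⟩
  have hyeig₀ : ∀ r ∈ eigIdeal p (aW (W := W) (p := p) (M' := M')),
      ∃ z : (⊤ : Submodule ℤ (parHomAdd M' ℤ)), r • y₀ = (p : ℤ) • z := by
    refine smul_mem_pL_of_gens p aW y₀ (fun j => ?_)
    obtain ⟨z, hz⟩ := hgen j
    refine ⟨⟨z, Submodule.mem_top⟩, ?_⟩
    rw [hgen₀]
    exact Subtype.ext hz
  obtain ⟨χ, 𝔪', v, hmax', hv0, hχ, hχ𝔞⟩ :=
    Fermat.Agent.P3LR.DS0.exists_lift (eigIdeal p (aW (W := W) (p := p) (M' := M'))) p y₀ hy₀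
      hyeig₀
  refine ⟨χ, 𝔪', v, hmax', hv0, fun j => ?_, hχ𝔞⟩
  have h2 : Module.toModuleEnd ℤ (S := MvPolynomial (Idx W p M') ℤ)
      (⊤ : Submodule ℤ (parHomAdd M' ℤ)) (X j) = tTop j := by
    refine LinearMap.ext fun y => ?_
    exact polyModule_X_smul (tTop (W := W) (p := p) (M' := M')) tTop_comm j y
  have h3 := hχ (X j)
  rw [h2] at h3
  exact h3

end DS

/-! ### Step 3: the eigenform and the frozen shape -/

section Final

variable {W : WeierstrassCurve ℤ} {p M' : ℕ} [NeZero M']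

set_option maxHeartbeats 1600000 in
/-- **From a lattice eigenvector mod `p` to the frozen shape.** -/
theorem isResiduallyModularOfLevel_of_lattice [Fact p.Prime]
    (ψ : parHomAdd M' ℤ) (hψ : ¬ ∃ y, ψ = (p : ℤ) • y)
    (hgen : ∀ j : Idx W p M', ∃ y, tL j ψ - aW j • ψ = (p : ℤ) • y) :
    W.IsResiduallyModularOfLevel p M' := by
  classical
  obtain ⟨χ, 𝔪', v, hmax', hv0, hχ, hχ𝔞⟩ := exists_lift_top ψ hψ hgen
  -- transport to `Hom(Γ₀(M'), ℂ)`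
  set w : Additive ↥(Gamma0 M') →+ ℂ :=
    Fermat.Agent.P3LR.LatticeC.JJ M' (⊤ : Submodule ℤ (parHomAdd M' ℤ)) v with hw
  have hwmem : w ∈ parHomAdd M' ℂ := Fermat.Agent.P3LR.LatticeC.JJ_mem M' _ v
  have hw0 : w ≠ 0 := by
    intro h
    apply hv0
    apply Fermat.Agent.P3LR.LatticeC.JJ_injective M' (⊤ : Submodule ℤ (parHomAdd M' ℤ))
    rw [← hw, h, map_zero]
  have hweig : ∀ j : Idx W p M', heckeAddP M' j.1 j.2.2.1 w = χ (X j) • w := by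
    intro j
    have h1 := Fermat.Agent.P3LR.LatticeC.JJ_hecke M' (⊤ : Submodule ℤ (parHomAdd M' ℤ))
      j.1 j.2.2.1 (tTop j) (fun ψ => rfl) v
    rw [hw, ← h1, hχ j, map_smul]
  -- the eigenform
  let I : Set ℕ := {ℓ | ℓ.Prime ∧ W.IsGoodPrimeFor ℓ ∧ ¬ ℓ ∣ M' ∧ ℓ ≠ p}
  let b : ℕ → ℂ := fun ℓ =>
    if h : ℓ.Prime ∧ W.IsGoodPrimeFor ℓ ∧ ¬ ℓ ∣ M' ∧ ℓ ≠ p then
      χ (X (⟨⟨ℓ, h.1⟩, h.2⟩ : Idx W p M')) else 0
  have hb : ∀ j : Idx W p M', b (j.1 : ℕ) = χ (X j) := by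
    intro j
    have h : (j.1 : ℕ).Prime ∧ W.IsGoodPrimeFor (j.1 : ℕ) ∧ ¬ (j.1 : ℕ) ∣ M' ∧ (j.1 : ℕ) ≠ p :=
      ⟨j.1.2, j.2⟩
    simp only [b, dif_pos h]
    rfl
  obtain ⟨g, hg, hcoef⟩ :=
    Fermat.Agent.P4S35.OccursOfEigenvector.exists_isNormalizedEigenform_of_eigenvector_parHomAdd
      I b w hwmem hw0 (by
        intro ℓ hℓ hℓN hI
        let j : Idx W p M' := ⟨⟨ℓ, hI.1⟩, hI.2⟩
        have h1 := hweig j
        rw [← hb j] at h1
        exact h1)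
  refine ⟨g, 𝔪', hg, hmax', ?_, ?_⟩
  · obtain ⟨c, hc1, hc2⟩ := hχ𝔞 _ (C_p_mem p aW)
    have hc3 : c = (p : integralClosure ℤ ℂ) := by
      apply Subtype.ext
      rw [hc1]
      have : (C (p : ℤ) : MvPolynomial (Idx W p M') ℤ) = ((p : ℤ) : MvPolynomial _ ℤ) := by
        simp
      rw [this, map_intCast]
      simp
    rwa [hc3] at hc2
  · intro ℓ hℓ hgood hnd hℓp
    let j : Idx W p M' := ⟨⟨ℓ, hℓ⟩, hgood, hnd, hℓp⟩
    obtain ⟨c, hc1, hc2⟩ := hχ𝔞 _ (X_sub_C_mem p aW j)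
    refine ⟨c + ((W.apOfModel ℓ : ℤ) : integralClosure ℤ ℂ), ?_, ?_⟩
    · have h1 : ModularFormClass.qCoeff g ℓ = χ (X j) := by
        rw [← hb j]
        exact hcoef ℓ hℓ hnd ⟨hℓ, hgood, hnd, hℓp⟩
      rw [h1]
      push_cast
      rw [hc1, map_sub]
      have : (C (aW j) : MvPolynomial (Idx W p M') ℤ) = ((aW j : ℤ) : MvPolynomial _ ℤ) := by
        simp
      rw [this, map_intCast]
      show χ (X j) - ((aW j : ℤ) : ℂ) + ((W.apOfModel ℓ : ℤ) : ℂ) = χ (X j)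
      have : aW j = W.apOfModel ℓ := rfl
      rw [this]
      ring
    · rw [add_sub_cancel_right]
      exact hc2

/-- ★ **[M3-tors]**, bundled index.  A nonzero `z ∈ J₀(M')(Q̄)[p]` with
`T_ℓ z = a_ℓ(W) z` for all good `ℓ ∤ M'`, `ℓ ≠ p` gives `W.IsResiduallyModularOfLevel p M'`. -/
theorem isResiduallyModularOfLevel_of_tors_idx (hp : p.Prime) (z : Jtors M' p) (hz : z ≠ 0)
    (heig : ∀ j : Idx W p M', heckeTors M' p j.1 z = ((aW j : ℤ) : ZMod p) • z) :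
    W.IsResiduallyModularOfLevel p M' := by
  have : Fact p.Prime := ⟨hp⟩
  obtain ⟨ψ, hψ, hgen⟩ := exists_lattice_eigenvector_of_tors hp z hz heig
  exact isResiduallyModularOfLevel_of_lattice ψ hψ hgen

/-- ★ **[M3-tors]**, unbundled.  A nonzero `z ∈ J₀(M')(Q̄)[p]` with `T_ℓ z = a_ℓ(W) z` for all
good primes `ℓ ∤ M'`, `ℓ ≠ p` gives `W.IsResiduallyModularOfLevel p M'`. -/
theorem isResiduallyModularOfLevel_of_tors (hp : p.Prime) (z : Jtors M' p) (hz : z ≠ 0)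
    (heig : ∀ ℓ : Nat.Primes, W.IsGoodPrimeFor ℓ → ¬ (ℓ : ℕ) ∣ M' → (ℓ : ℕ) ≠ p →
      heckeTors M' p ℓ z = ((W.apOfModel (ℓ : ℕ) : ℤ) : ZMod p) • z) :
    W.IsResiduallyModularOfLevel p M' :=
  isResiduallyModularOfLevel_of_tors_idx hp z hz (fun j => heig j.1 j.2.1 j.2.2.1 j.2.2.2)

/-- ★ **[M3-tors]**, in the index convention of the level `M' * p` (the consumer's
`Idx W p (M' * p)`): the hypothesis is only asked at good primes `ℓ ∤ M' * p`, `ℓ ≠ p`. -/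
theorem isResiduallyModularOfLevel_of_tors_mul (hp : p.Prime) (z : Jtors M' p) (hz : z ≠ 0)
    (heig : ∀ ℓ : Nat.Primes, W.IsGoodPrimeFor ℓ → ¬ (ℓ : ℕ) ∣ M' * p → (ℓ : ℕ) ≠ p →
      heckeTors M' p ℓ z = ((W.apOfModel (ℓ : ℕ) : ℤ) : ZMod p) • z) :
    W.IsResiduallyModularOfLevel p M' := by
  refine isResiduallyModularOfLevel_of_tors hp z hz (fun ℓ hgood hnd hℓp => ?_)
  refine heig ℓ hgood (fun h => ?_) hℓp
  rcases (Nat.Prime.dvd_mul ℓ.2).1 h with h1 | h1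
  · exact hnd h1
  · exact hℓp ((Nat.prime_dvd_prime_iff_eq ℓ.2 hp).1 h1)

end Final

end Fermat.Agent.S40.Top.OfTors
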