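/-
S40, top level, [M3-series]: DELIGNE–SERRE FROM A MOD `p` EIGEN-SERIES TO THE EXACT FROZEN SHAPE.

`Λ := CuspForm.intLattice M' 2` is the lattice of weight-2 cusp forms of level `M'` with integral
`q`-expansion (prelude; `coeffZ G n : ℤ` the coefficients, `S16/DualityCore`).

* `isResiduallyModularOfLevel_of_series` : a nonzero sequence `b : ℕ → 𝔽` (`𝔽` ANY field of
  characteristic `p`) which is a finite `𝔽`-linear combination of reductions of elements of `Λ` and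
  satisfies `b (nℓ) + ℓ b (n/ℓ) = a_ℓ(W) b n` for all good `ℓ ∤ M'`, `ℓ ≠ p`, gives
  `W.IsResiduallyModularOfLevel p M'`;
* `isResiduallyModularOfLevel_of_laurent` : the same for a Laurent series, with the eigen-relation in
  the shape of `S40/W/HeckeDlog.hecke_coeff`;
* `isResiduallyModularOfLevel_of_intLattice` : `G ∈ Λ ∖ pΛ` with `T_ℓ G - a_ℓ(W) G ∈ pΛ`;
* `linearIndependent_complex`, `muC_injective` : `ℂ ⊗[ℤ] Λ → S₂(Γ₀(M'))` is injective;
* `linearIndependent_reduction` : the reductions of a `ℤ`-basis of `Λ` are `𝔽`-linearly independent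
  (`q`-expansion principle mod `p`).

Proof of the series form: an `𝔽_p`-linear functional `lam` on `𝔽` with `lam (b n₀) ≠ 0` turns `b` into
the reduction of ONE `G₀ ∈ Λ ∖ pΛ`; `lam` of the eigen-relations + saturation of `Λ` give
`T_ℓ G₀ - a_ℓ G₀ ∈ pΛ`; then [DS0] on `Λ`, `ℂ ⊗ Λ ↪ S₂`, and
`P4S35.OccursOfEigenvector.exists_isNormalizedEigenform_of_mem_eigSub`.
-/
import Mathlib
import Fermat.Agent.S40.Top.OfTors
import Fermat.Agent.S16.DualityCore
import Fermat.Prelude.Def_CuspForm_HeckeLocal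

set_option autoImplicit false
set_option linter.unusedSectionVars false
set_option linter.style.haveILetI false

open CongruenceSubgroup MvPolynomial CuspForm ModularFormClass
open scoped TensorProduct

noncomputable section

namespace Fermat.Agent.S40.Top.OfSeries

open Fermat.Agent.P3LR.Poly Fermat.Agent.P3LR.PolyLin Fermat.Agent.P3LR.PolyIdeal
  Fermat.Agent.S16.DualityCore Fermat.Agent.S40.Top.OfTors

/-! ### The Hecke operators on the integral lattice -/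

section Lattice

variable {M' : ℕ}

/-- `T_ℓ` (`ℓ ∤ M'`) on the lattice of integral cusp forms -/
def tInt {ℓ : ℕ} (hℓ : ℓ.Prime) (hℓN : ¬ ℓ ∣ M') : Module.End ℤ ↥(intLattice M' 2) :=
  LinearMap.restrict ((heckeTLin 2 hℓ hℓN).restrictScalars ℤ)
    (fun f hf => mem_intLattice_of_coe_eq_heckeT one_le_two hℓ.ne_zero
      (coe_heckeTLin_apply 2 hℓ hℓN f) hf)

theorem coe_tInt {ℓ : ℕ} (hℓ : ℓ.Prime) (hℓN : ¬ ℓ ∣ M') (G : ↥(intLattice M' 2)) :
    ((tInt hℓ hℓN G : ↥(intLattice M' 2)) : CuspForm (Gamma0 M') 2) =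
      heckeTLin 2 hℓ hℓN (G : CuspForm (Gamma0 M') 2) := rfl

theorem coeffZ_tInt {ℓ : ℕ} (hℓ : ℓ.Prime) (hℓN : ¬ ℓ ∣ M') (G : ↥(intLattice M' 2)) (n : ℕ) :
    coeffZ (tInt hℓ hℓN G) n =
      coeffZ G (n * ℓ) + if ℓ ∣ n then (ℓ : ℤ) * coeffZ G (n / ℓ) else 0 := by
  rw [coeffZ_eq_iff, coe_tInt, Fermat.Agent.S49.qCoeff_heckeTLin, coeffZ_spec]
  have h2 : ((2 : ℤ) - 1) = 1 := by norm_num
  rw [h2, zpow_one]
  split_ifs with hd
  · rw [coeffZ_spec]; push_cast; rfl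
  · push_cast; rfl

theorem tInt_comm {ℓ ℓ' : ℕ} (hℓ : ℓ.Prime) (hℓN : ¬ ℓ ∣ M') (hℓ' : ℓ'.Prime) (hℓ'N : ¬ ℓ' ∣ M') :
    Commute (tInt hℓ hℓN) (tInt hℓ' hℓ'N) := by
  refine LinearMap.ext fun G => Subtype.ext ?_
  exact LinearMap.congr_fun (heckeTLin_comm 2 hℓ hℓN hℓ' hℓ'N).eq (G : CuspForm (Gamma0 M') 2)

theorem coeffZ_sub (f g : ↥(intLattice M' 2)) (n : ℕ) :
    coeffZ (f - g) n = coeffZ f n - coeffZ g n := by
  have h : f - g = f + (-1 : ℤ) • g := by rw [neg_smul, one_smul, sub_eq_add_neg]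
  rw [h, coeffZ_add, coeffZ_zsmul]; ring

theorem coeffZ_sum {ι : Type*} (s : Finset ι) (f : ι → ↥(intLattice M' 2)) (n : ℕ) :
    coeffZ (∑ i ∈ s, f i) n = ∑ i ∈ s, coeffZ (f i) n := by
  classical
  induction s using Finset.induction_on with
  | empty => simp [coeffZ_zero]
  | insert a s ha ih => rw [Finset.sum_insert ha, Finset.sum_insert ha, coeffZ_add, ih]

end Lattice

/-! ### `ℂ ⊗[ℤ] Λ → S₂` is injective -/

section Complex

variable {M' : ℕ}

theorem qCoeff_sum {ι : Type*} (s : Finset ι) (f : ι → CuspForm (Gamma0 M') 2) (n : ℕ) :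
    qCoeff ⇑(∑ i ∈ s, f i) n = ∑ i ∈ s, qCoeff ⇑(f i) n := by
  classical
  induction s using Finset.induction_on with
  | empty =>
    rw [Finset.sum_empty, Finset.sum_empty]
    exact Fermat.Agent.S49.qCoeff_zero_form n
  | insert a s ha ih =>
    rw [Finset.sum_insert ha, Finset.sum_insert ha, Fermat.Agent.S49.qCoeff_add, ih]

/-- **Integral forms which are `ℤ`-linearly independent are `ℂ`-linearly independent.** -/
theorem linearIndependent_complex {ι : Type*} [Fintype ι] (G : ι → ↥(intLattice M' 2))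
    (hG : LinearIndependent ℤ G) :
    LinearIndependent ℂ (fun i => ((G i : ↥(intLattice M' 2)) : CuspForm (Gamma0 M') 2)) := by
  classical
  rw [Fintype.linearIndependent_iff]
  intro g hg
  -- coefficientwise
  have hcoef : ∀ n : ℕ, ∑ i, g i * ((coeffZ (G i) n : ℤ) : ℂ) = 0 := by
    intro n
    have h1 := congrArg (fun F : CuspForm (Gamma0 M') 2 => qCoeff ⇑F n) hg
    simp only [qCoeff_sum, Fermat.Agent.S49.qCoeff_smul, coeffZ_spec,
      Fermat.Agent.S49.qCoeff_zero_form] at h1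
    exact h1
  -- every `ℚ`-linear functional kills the `g i`
  have hlam : ∀ (lam : ℂ →ₗ[ℚ] ℚ) (i : ι), lam (g i) = 0 := by
    intro lam
    have h2 : ∀ n : ℕ, ∑ i, lam (g i) * ((coeffZ (G i) n : ℤ) : ℚ) = 0 := by
      intro n
      have h3 := congrArg lam (hcoef n)
      rw [map_sum, map_zero] at h3
      rw [← h3]
      refine Finset.sum_congr rfl fun i _ => ?_
      have h4 : g i * ((coeffZ (G i) n : ℤ) : ℂ) = ((coeffZ (G i) n : ℤ) : ℚ) • g i := by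
        rw [Rat.smul_def]; push_cast; ring
      rw [h4, map_smul, smul_eq_mul, mul_comm]
    obtain ⟨d, hd⟩ := IsLocalization.exist_integer_multiples (nonZeroDivisors ℤ) Finset.univ
      (fun i => lam (g i))
    have hd0 : ((d : ℤ) : ℚ) ≠ 0 := by
      have := nonZeroDivisors.coe_ne_zero d
      exact_mod_cast this
    choose m hm using fun i => hd i (Finset.mem_univ i)
    have hm' : ∀ i, ((m i : ℤ) : ℚ) = (d : ℤ) * lam (g i) := by
      intro i
      have := hm i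
      rw [eq_intCast, Algebra.smul_def, eq_intCast] at this
      exact this
    have hsum : ∑ i, m i • G i = 0 := by
      apply ext_coeffZ
      intro n
      rw [coeffZ_sum, coeffZ_zero]
      have h5 : ((∑ i, coeffZ (m i • G i) n : ℤ) : ℚ) = 0 := by
        push_cast
        have h6 : ∀ i, ((coeffZ (m i • G i) n : ℤ) : ℚ) =
            (d : ℤ) * (lam (g i) * ((coeffZ (G i) n : ℤ) : ℚ)) := by
          intro i
          rw [coeffZ_zsmul]; push_cast; rw [hm' i]; ring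
        simp only [h6]
        rw [← Finset.mul_sum, h2 n, mul_zero]
      exact_mod_cast h5
    have hm0 := Fintype.linearIndependent_iff.1 hG m hsum
    intro i
    have h7 := hm' i
    rw [hm0 i, Int.cast_zero] at h7
    exact (mul_eq_zero.1 h7.symm).resolve_left hd0
  intro i
  exact (Module.forall_dual_apply_eq_zero_iff ℚ (g i)).1 (fun lam => hlam lam i)

/-- `c ⊗ G ↦ c • G` -/
def muC : ℂ ⊗[ℤ] ↥(intLattice M' 2) →ₗ[ℂ] CuspForm (Gamma0 M') 2 :=
  LinearMap.liftBaseChange ℂ (intLattice M' 2).subtype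

theorem muC_tmul (c : ℂ) (G : ↥(intLattice M' 2)) :
    muC (c ⊗ₜ[ℤ] G) = c • (G : CuspForm (Gamma0 M') 2) := by
  rw [muC, LinearMap.liftBaseChange_tmul]
  rfl

theorem muC_injective [NeZero M'] : Function.Injective (muC (M' := M')) := by
  classical
  have := intLattice.moduleFinite M'
  have := intLattice.moduleFree M'
  let b := Module.Free.chooseBasis ℤ ↥(intLattice M' 2)
  let B := Algebra.TensorProduct.basis ℂ b
  have hli := linearIndependent_complex (fun i => b i) b.linearIndependent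
  rw [← LinearMap.ker_eq_bot, LinearMap.ker_eq_bot']
  intro v hv
  have hv' : ∑ i, B.repr v i • ((b i : ↥(intLattice M' 2)) : CuspForm (Gamma0 M') 2) = 0 := by
    rw [← hv]
    conv_rhs => rw [← B.sum_repr v]
    rw [map_sum]
    refine Finset.sum_congr rfl fun i _ => ?_
    rw [map_smul, Algebra.TensorProduct.basis_apply, muC_tmul, one_smul]
  have h0 := Fintype.linearIndependent_iff.1 hli (fun i => B.repr v i) hv'
  rw [← B.sum_repr v]
  exact Finset.sum_eq_zero fun i _ => by rw [h0 i, zero_smul]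

end Complex

/-! ### [DS0] on the lattice and the eigenform -/

section DS

variable {M' : ℕ} {W : WeierstrassCurve ℤ} {p : ℕ}

/-- `T_ℓ` on the lattice, for the index set of `OfTors` -/
def tF (j : Idx W p M') : Module.End ℤ ↥(intLattice M' 2) := tInt j.1.2 j.2.2.1

theorem tF_comm (j k : Idx W p M') : Commute (tF j) (tF k) := tInt_comm _ _ _ _

theorem muC_tF (j : Idx W p M') (v : ℂ ⊗[ℤ] ↥(intLattice M' 2)) :
    muC ((tF j).baseChange ℂ v) = heckeTLin 2 j.1.2 j.2.2.1 (muC v) := by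
  induction v with
  | zero => simp
  | tmul c G =>
    rw [LinearMap.baseChange_tmul, muC_tmul, muC_tmul, map_smul]
    rfl
  | add y z hy hz => rw [map_add, map_add, hy, hz, map_add, map_add]

set_option maxHeartbeats 1600000 in
/-- [DS0] on the lattice of integral cusp forms -/
theorem exists_lift_int [NeZero M'] [Fact p.Prime]
    (G : ↥(intLattice M' 2)) (hG : ¬ ∃ H, G = (p : ℤ) • H)
    (hgen : ∀ j : Idx W p M', ∃ H, tF j G - aW j • G = (p : ℤ) • H) :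
    ∃ (χ : MvPolynomial (Idx W p M') ℤ →+* ℂ) (𝔪' : Ideal (integralClosure ℤ ℂ))
      (v : ℂ ⊗[ℤ] ↥(intLattice M' 2)), 𝔪'.IsMaximal ∧ v ≠ 0 ∧
      (∀ j : Idx W p M', (tF j).baseChange ℂ v = χ (X j) • v) ∧
      ∀ r ∈ eigIdeal p (aW (W := W) (p := p) (M' := M')),
        ∃ c : integralClosure ℤ ℂ, (c : ℂ) = χ r ∧ c ∈ 𝔪' := by
  classical
  have hfin : Module.Finite ℤ ↥(intLattice M' 2) := intLattice.moduleFinite M'
  have hfree : Module.Free ℤ ↥(intLattice M' 2) := intLattice.moduleFree M'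
  let mod₀ : Module (MvPolynomial (Idx W p M') ℤ) ↥(intLattice M' 2) :=
    polyModule (tF (W := W) (p := p) (M' := M')) tF_comm
  have hmax𝔞 : (eigIdeal p (aW (W := W) (p := p) (M' := M'))).IsMaximal :=
    Fermat.Agent.P3LR.PolyIdeal.isMaximal p aW
  have hgen₀ : ∀ (j : Idx W p M') (y : ↥(intLattice M' 2)),
      ((X j : MvPolynomial (Idx W p M') ℤ) - C (aW j)) • y = tF j y - aW j • y := by
    intro j y
    rw [sub_smul, polyModule_X_smul, polyModule_C_smul]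
  have hyeig₀ : ∀ r ∈ eigIdeal p (aW (W := W) (p := p) (M' := M')),
      ∃ z : ↥(intLattice M' 2), r • G = (p : ℤ) • z := by
    refine smul_mem_pL_of_gens p aW G (fun j => ?_)
    obtain ⟨z, hz⟩ := hgen j
    exact ⟨z, by rw [hgen₀, hz]⟩
  obtain ⟨χ, 𝔪', v, hmax', hv0, hχ, hχ𝔞⟩ :=
    Fermat.Agent.P3LR.DS0.exists_lift (eigIdeal p (aW (W := W) (p := p) (M' := M'))) p G hG
      hyeig₀
  refine ⟨χ, 𝔪', v, hmax', hv0, fun j => ?_, hχ𝔞⟩
  have h2 : Module.toModuleEnd ℤ (S := MvPolynomial (Idx W p M') ℤ)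
      ↥(intLattice M' 2) (X j) = tF j := by
    refine LinearMap.ext fun y => ?_
    exact polyModule_X_smul (tF (W := W) (p := p) (M' := M')) tF_comm j y
  have h3 := hχ (X j)
  rw [h2] at h3
  exact h3

set_option maxHeartbeats 1600000 in
/-- ★ **(M3-series), lattice form.**  `G ∈ Λ ∖ pΛ` (`Λ` the lattice of cusp forms of level `M'` with
integral `q`-expansion) with `T_ℓ G - a_ℓ(W) G ∈ pΛ` for all good `ℓ ∤ M'`, `ℓ ≠ p` gives
`W.IsResiduallyModularOfLevel p M'`. -/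
theorem isResiduallyModularOfLevel_of_intLattice_idx [NeZero M'] [Fact p.Prime]
    (G : ↥(intLattice M' 2)) (hG : ¬ ∃ H, G = (p : ℤ) • H)
    (hgen : ∀ j : Idx W p M', ∃ H, tF j G - aW j • G = (p : ℤ) • H) :
    W.IsResiduallyModularOfLevel p M' := by
  classical
  obtain ⟨χ, 𝔪', v, hmax', hv0, hχ, hχ𝔞⟩ := exists_lift_int G hG hgen
  set w : CuspForm (Gamma0 M') 2 := muC v with hw
  have hw0 : w ≠ 0 := by
    intro h
    apply hv0
    apply muC_injective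
    rw [← hw, h, map_zero]
  have hweig : ∀ j : Idx W p M', heckeTLin 2 j.1.2 j.2.2.1 w = χ (X j) • w := by
    intro j
    rw [hw, ← muC_tF, hχ j, map_smul]
  let I : Set ℕ := {ℓ | ℓ.Prime ∧ W.IsGoodPrimeFor ℓ ∧ ¬ ℓ ∣ M' ∧ ℓ ≠ p}
  let b : ℕ → ℂ := fun ℓ =>
    if h : ℓ.Prime ∧ W.IsGoodPrimeFor ℓ ∧ ¬ ℓ ∣ M' ∧ ℓ ≠ p then
      χ (X (⟨⟨ℓ, h.1⟩, h.2⟩ : Idx W p M')) else 0
  have hb : ∀ j : Idx W p M', b (j.1 : ℕ) = χ (X j) := by
    intro j
    have h : (j.1 : ℕ).Prime ∧ W.IsGoodPrimeFor (j.1 : ℕ) ∧ ¬ (j.1 : ℕ) ∣ M' ∧ (j.1 : ℕ) ≠ p :=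
      ⟨j.1.2, j.2⟩
    simp only [b, dif_pos h]
    rfl
  have hmem : w ∈ Fermat.Agent.P4S35.OccursOfEigenvector.eigSub M' I b := by
    intro ℓ hℓ hℓN hI
    let j : Idx W p M' := ⟨⟨ℓ, hI.1⟩, hI.2⟩
    have h1 := hweig j
    rw [← hb j] at h1
    exact h1
  obtain ⟨g, hg, hcoef⟩ :=
    Fermat.Agent.P4S35.OccursOfEigenvector.exists_isNormalizedEigenform_of_mem_eigSub I b hmem hw0
  refine ⟨g, 𝔪', hg, hmax', ?_, ?_⟩
  · obtain ⟨c, hc1, hc2⟩ := hχ𝔞 _ (C_p_mem p aW)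
    have hc3 : c = (p : integralClosure ℤ ℂ) := by
      apply Subtype.ext
      rw [hc1]
      have : (C (p : ℤ) : MvPolynomial (Idx W p M') ℤ) = ((p : ℤ) : MvPolynomial _ ℤ) := by
        simp
      rw [this, map_intCast]
      simp
    rwa [hc3] at hc2
  · intro ℓ hℓ hgood hnd hℓp
    let j : Idx W p M' := ⟨⟨ℓ, hℓ⟩, hgood, hnd, hℓp⟩
    obtain ⟨c, hc1, hc2⟩ := hχ𝔞 _ (X_sub_C_mem p aW j)
    refine ⟨c + ((W.apOfModel ℓ : ℤ) : integralClosure ℤ ℂ), ?_, ?_⟩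
    · have h1 : ModularFormClass.qCoeff g ℓ = χ (X j) := by
        rw [← hb j]
        exact hcoef ℓ hℓ hnd ⟨hℓ, hgood, hnd, hℓp⟩
      rw [h1]
      push_cast
      rw [hc1, map_sub]
      have : (C (aW j) : MvPolynomial (Idx W p M') ℤ) = ((aW j : ℤ) : MvPolynomial _ ℤ) := by
        simp
      rw [this, map_intCast]
      show χ (X j) - ((aW j : ℤ) : ℂ) + ((W.apOfModel ℓ : ℤ) : ℂ) = χ (X j)
      have : aW j = W.apOfModel ℓ := rfl
      rw [this]
      ring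
    · rw [add_sub_cancel_right]
      exact hc2

end DS

/-! ### The series form -/

section Series

variable {M' : ℕ} {W : WeierstrassCurve ℤ} {p : ℕ} [NeZero M']

/-- ★ **(M3-series).**  A nonzero sequence `b : ℕ → 𝔽` (`𝔽` any field of characteristic `p`) which is
a finite `𝔽`-linear combination of reductions of cusp forms of level `M'` with integral
`q`-expansion and satisfies the Hecke eigen-relations `b (nℓ) + ℓ b (n/ℓ) = a_ℓ(W) b n` for all good
`ℓ ∤ M'`, `ℓ ≠ p`, gives `W.IsResiduallyModularOfLevel p M'`. -/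
theorem isResiduallyModularOfLevel_of_series (hp : p.Prime) {𝔽 : Type*} [Field 𝔽] [CharP 𝔽 p]
    (b : ℕ → 𝔽) (hb : ∃ n, b n ≠ 0)
    (hspan : ∃ (s : Finset ↥(intLattice M' 2)) (c : ↥(intLattice M' 2) → 𝔽),
      ∀ n, b n = ∑ G ∈ s, c G * ((coeffZ G n : ℤ) : 𝔽))
    (heig : ∀ ℓ : Nat.Primes, W.IsGoodPrimeFor ℓ → ¬ (ℓ : ℕ) ∣ M' → (ℓ : ℕ) ≠ p → ∀ n : ℕ,
      b (n * ℓ) + (if (ℓ : ℕ) ∣ n then (ℓ : 𝔽) * b (n / ℓ) else 0) =
        ((W.apOfModel (ℓ : ℕ) : ℤ) : 𝔽) * b n) :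
    W.IsResiduallyModularOfLevel p M' := by
  classical
  haveI : Fact p.Prime := ⟨hp⟩
  letI : Algebra (ZMod p) 𝔽 := ZMod.algebra 𝔽 p
  obtain ⟨n₀, hn₀⟩ := hb
  obtain ⟨s, c, hs⟩ := hspan
  -- a functional detecting `b n₀`
  obtain ⟨lam, hlam⟩ : ∃ lam : 𝔽 →ₗ[ZMod p] ZMod p, lam (b n₀) ≠ 0 := by
    by_contra h
    push Not at h
    exact hn₀ ((Module.forall_dual_apply_eq_zero_iff (ZMod p) (b n₀)).1 h)
  have hcastZ : ∀ (m : ℤ) (x : 𝔽), lam (x * (m : 𝔽)) = (m : ZMod p) * lam x := by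
    intro m x
    have h1 : x * (m : 𝔽) = (m : ZMod p) • x := by
      rw [Algebra.smul_def, map_intCast, mul_comm]
    rw [h1, map_smul, smul_eq_mul]
  -- integer lifts of the contracted coefficients
  choose d hd using fun G : ↥(intLattice M' 2) => ZMod.intCast_surjective (lam (c G))
  let G₀ : ↥(intLattice M' 2) := ∑ G ∈ s, d G • G
  have hG₀ : ∀ n, ((coeffZ G₀ n : ℤ) : ZMod p) = lam (b n) := by
    intro n
    rw [coeffZ_sum, hs n, map_sum, Int.cast_sum]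
    refine Finset.sum_congr rfl fun G _ => ?_
    rw [coeffZ_zsmul, hcastZ, Int.cast_mul, hd G, mul_comm]
  -- `G₀ ∉ pΛ`
  have hnot : ¬ ∃ H, G₀ = (p : ℤ) • H := by
    rintro ⟨H, hH⟩
    apply hlam
    rw [← hG₀ n₀, hH, coeffZ_zsmul, Int.cast_mul, Int.cast_natCast, ZMod.natCast_self, zero_mul]
  -- the eigen-relations mod `p`
  have hgen : ∀ j : Idx W p M', ∃ H, tF j G₀ - aW j • G₀ = (p : ℤ) • H := by
    intro j
    apply exists_eq_zsmul_of_forall_dvd (p : ℤ) (by exact_mod_cast hp.ne_zero)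
    intro n
    rw [← ZMod.intCast_zmod_eq_zero_iff_dvd, coeffZ_sub, coeffZ_zsmul, tF, coeffZ_tInt,
      Int.cast_sub, Int.cast_add, Int.cast_mul, hG₀, hG₀]
    have h1 := congrArg lam (heig j.1 j.2.1 j.2.2.1 j.2.2.2 n)
    have h2 : ((W.apOfModel ((j.1 : Nat.Primes) : ℕ) : ℤ) : 𝔽) * b n =
        b n * ((aW j : ℤ) : 𝔽) := by rw [mul_comm]; rfl
    rw [h2, hcastZ, map_add] at h1
    rw [← h1]
    split_ifs with hdvd
    · have h3 : ((j.1 : Nat.Primes) : 𝔽) * b (n / (j.1 : Nat.Primes)) =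
          b (n / (j.1 : Nat.Primes)) * (((j.1 : Nat.Primes) : ℤ) : 𝔽) := by
        rw [mul_comm]; push_cast; rfl
      rw [h3, hcastZ, Int.cast_mul, hG₀]
      push_cast
      ring
    · rw [map_zero, Int.cast_zero]
      ring
  exact isResiduallyModularOfLevel_of_intLattice_idx G₀ hnot hgen

end Series

/-! ### Unbundled and Laurent-series forms -/

section Forms

variable {M' : ℕ} {W : WeierstrassCurve ℤ} {p : ℕ} [NeZero M']

/-- ★ **(M3-series), lattice form, unbundled.** -/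
theorem isResiduallyModularOfLevel_of_intLattice (hp : p.Prime)
    (G : ↥(intLattice M' 2)) (hG : ¬ ∃ H, G = (p : ℤ) • H)
    (hgen : ∀ (ℓ : Nat.Primes), W.IsGoodPrimeFor ℓ → ∀ hnd : ¬ (ℓ : ℕ) ∣ M', (ℓ : ℕ) ≠ p →
      ∃ H, tInt ℓ.2 hnd G - (W.apOfModel (ℓ : ℕ) : ℤ) • G = (p : ℤ) • H) :
    W.IsResiduallyModularOfLevel p M' := by
  have : Fact p.Prime := ⟨hp⟩
  exact isResiduallyModularOfLevel_of_intLattice_idx G hG
    (fun j => hgen j.1 j.2.1 j.2.2.1 j.2.2.2)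

/-- ★ **(M3-series), Laurent-series form**: the eigen-relation is in the shape of the conclusion of
`S40/W/HeckeDlog.hecke_coeff` (with `(m : 𝔽) = a_ℓ(W)`). -/
theorem isResiduallyModularOfLevel_of_laurent (hp : p.Prime) {𝔽 : Type*} [Field 𝔽] [CharP 𝔽 p]
    (b : LaurentSeries 𝔽) (hb : ∃ n : ℕ, b.coeff (n : ℤ) ≠ 0)
    (hspan : ∃ (s : Finset ↥(intLattice M' 2)) (c : ↥(intLattice M' 2) → 𝔽),
      ∀ n : ℕ, b.coeff (n : ℤ) = ∑ G ∈ s, c G * ((coeffZ G n : ℤ) : 𝔽))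
    (heig : ∀ ℓ : Nat.Primes, W.IsGoodPrimeFor ℓ → ¬ (ℓ : ℕ) ∣ M' → (ℓ : ℕ) ≠ p → ∀ n : ℤ,
      b.coeff (((ℓ : ℕ) : ℤ) * n) +
          ((ℓ : ℕ) : 𝔽) * (if (((ℓ : ℕ) : ℤ)) ∣ n then b.coeff (n / ((ℓ : ℕ) : ℤ)) else 0) =
        ((W.apOfModel (ℓ : ℕ) : ℤ) : 𝔽) * b.coeff n) :
    W.IsResiduallyModularOfLevel p M' := by
  refine isResiduallyModularOfLevel_of_series hp (fun n : ℕ => b.coeff (n : ℤ)) hb hspan
    (fun ℓ hgood hnd hℓp n => ?_)
  have h1 := heig ℓ hgood hnd hℓp (n : ℤ)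
  have h2 : (((n * (ℓ : ℕ) : ℕ)) : ℤ) = ((ℓ : ℕ) : ℤ) * (n : ℤ) := by push_cast; ring
  show b.coeff ((n * (ℓ : ℕ) : ℕ) : ℤ) +
      (if (ℓ : ℕ) ∣ n then ((ℓ : ℕ) : 𝔽) * b.coeff ((n / (ℓ : ℕ) : ℕ) : ℤ) else 0) = _
  rw [h2, ← h1]
  congr 1
  by_cases hd : (ℓ : ℕ) ∣ n
  · have hd' : (((ℓ : ℕ)) : ℤ) ∣ (n : ℤ) := Int.natCast_dvd_natCast.2 hd
    rw [if_pos hd, if_pos hd', Int.natCast_div]
  · have hd' : ¬ (((ℓ : ℕ)) : ℤ) ∣ (n : ℤ) := fun h => hd (Int.natCast_dvd_natCast.1 h)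
    rw [if_neg hd, if_neg hd', mul_zero]

/-- ★ **(M3-series), Laurent-series form with natural-number multipliers**: LITERALLY the output of
`S40/W/HeckeStar.hecke_coeff_of_normBeta` (`(U_ℓ + ℓ V_ℓ) b = m b` coefficientwise, `m : ℕ`) for a
multiplier `m ≡ a_ℓ(W) mod p`. -/
theorem isResiduallyModularOfLevel_of_laurent_nat (hp : p.Prime) {𝔽 : Type*} [Field 𝔽]
    [CharP 𝔽 p] (b : LaurentSeries 𝔽) (hb : ∃ n : ℕ, b.coeff (n : ℤ) ≠ 0)
    (hspan : ∃ (s : Finset ↥(intLattice M' 2)) (c : ↥(intLattice M' 2) → 𝔽),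
      ∀ n : ℕ, b.coeff (n : ℤ) = ∑ G ∈ s, c G * ((coeffZ G n : ℤ) : 𝔽))
    (heig : ∀ ℓ : Nat.Primes, W.IsGoodPrimeFor ℓ → ¬ (ℓ : ℕ) ∣ M' → (ℓ : ℕ) ≠ p →
      ∃ m : ℕ, (m : ZMod p) = ((W.apOfModel (ℓ : ℕ) : ℤ) : ZMod p) ∧ ∀ n : ℤ,
        b.coeff (((ℓ : ℕ) : ℤ) * n) +
            ((ℓ : ℕ) : 𝔽) * (if (((ℓ : ℕ) : ℤ)) ∣ n then b.coeff (n / ((ℓ : ℕ) : ℤ)) else 0) =
          (m : 𝔽) * b.coeff n) :
    W.IsResiduallyModularOfLevel p M' := by
  have : Fact p.Prime := ⟨hp⟩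
  letI : Algebra (ZMod p) 𝔽 := ZMod.algebra 𝔽 p
  refine isResiduallyModularOfLevel_of_laurent hp b hb hspan (fun ℓ hgood hnd hℓp n => ?_)
  obtain ⟨m, hm, h⟩ := heig ℓ hgood hnd hℓp
  rw [h n]
  congr 1
  have h1 := congrArg (algebraMap (ZMod p) 𝔽) hm
  rwa [map_natCast, map_intCast] at h1

end Forms

/-! ### The `q`-expansion principle mod `p` -/

section QExp

variable {M' : ℕ}

/-- **The reductions of a `ℤ`-basis of `Λ` are linearly independent over any field of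
characteristic `p`.** -/
theorem linearIndependent_reduction {p : ℕ} (hp : p.Prime) {𝔽 : Type*} [Field 𝔽] [CharP 𝔽 p]
    {ι : Type*} [Fintype ι] (B : Module.Basis ι ℤ ↥(intLattice M' 2)) :
    LinearIndependent 𝔽 (fun (i : ι) (n : ℕ) => ((coeffZ (B i) n : ℤ) : 𝔽)) := by
  classical
  have : Fact p.Prime := ⟨hp⟩
  letI : Algebra (ZMod p) 𝔽 := ZMod.algebra 𝔽 p
  rw [Fintype.linearIndependent_iff]
  intro g hg
  have hcoef : ∀ n : ℕ, ∑ i, g i * ((coeffZ (B i) n : ℤ) : 𝔽) = 0 := by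
    intro n
    have h1 := congrFun hg n
    simpa [Finset.sum_apply, Pi.smul_apply, smul_eq_mul] using h1
  have hlam : ∀ (lam : 𝔽 →ₗ[ZMod p] ZMod p) (i : ι), lam (g i) = 0 := by
    intro lam
    have hcastZ : ∀ (m : ℤ) (x : 𝔽), lam (x * (m : 𝔽)) = (m : ZMod p) * lam x := by
      intro m x
      have h1 : x * (m : 𝔽) = (m : ZMod p) • x := by
        rw [Algebra.smul_def, map_intCast, mul_comm]
      rw [h1, map_smul, smul_eq_mul]
    choose d hd using fun i : ι => ZMod.intCast_surjective (lam (g i))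
    have hdiv : ∀ n, (p : ℤ) ∣ coeffZ (∑ i, d i • B i) n := by
      intro n
      rw [← ZMod.intCast_zmod_eq_zero_iff_dvd, coeffZ_sum, Int.cast_sum]
      have h3 := congrArg lam (hcoef n)
      rw [map_sum, map_zero] at h3
      rw [← h3]
      refine Finset.sum_congr rfl fun i _ => ?_
      rw [coeffZ_zsmul, hcastZ, Int.cast_mul, hd i, mul_comm]
    obtain ⟨H, hH⟩ := exists_eq_zsmul_of_forall_dvd (p : ℤ) (by exact_mod_cast hp.ne_zero)
      (∑ i, d i • B i) hdiv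
    intro i
    have h4 : B.repr (∑ i, d i • B i) i = d i := by
      rw [map_sum]
      simp [Finsupp.single_apply]
    rw [hH, map_smul, Finsupp.smul_apply, smul_eq_mul] at h4
    rw [← hd i, ← h4, Int.cast_mul, Int.cast_natCast, ZMod.natCast_self, zero_mul]
  intro i
  exact (Module.forall_dual_apply_eq_zero_iff (ZMod p) (g i)).1 (fun lam => hlam lam i)

end QExp

end Fermat.Agent.S40.Top.OfSeries
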