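/-
S40, top level, [M3-series] in the vocabulary of `S40/W/CuspSpan.lean` (helper28's `cuspSpan`):
a nonzero `b ∈ cuspSpan M' κ` (`κ` a field of characteristic `p`) satisfying the coefficientwise
Hecke eigen-relations `(U_ℓ + ℓ V_ℓ) b = m_ℓ b` with `m_ℓ ≡ a_ℓ(W) mod p` for all good `ℓ ∤ M'`,
`ℓ ≠ p`, gives `W.IsResiduallyModularOfLevel p M'`.  Adapter of `S40/Top/OfSeries.lean`.
-/
import Mathlib
import Fermat.Agent.S40.Top.OfSeries
import Fermat.Agent.S40.W.CuspSpan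

set_option autoImplicit false
set_option linter.unusedSectionVars false

open CuspForm

noncomputable section

namespace Fermat.Agent.S40.Top.OfCuspSpan

open Fermat.Agent.S16.DualityCore Fermat.Agent.S16.Duality Fermat.Agent.S40.W.CuspSpan
  Fermat.Agent.S40.Top.OfSeries

variable {M' : ℕ} [NeZero M']

/-- the two integer coefficient functions on the lattice agree -/
theorem aInt_eq_coeffZ (f : ↥(intLattice M' 2)) (n : ℕ) : aInt M' n f = coeffZ f n := by
  rw [aInt_eq_iff, coeffZ_spec]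

/-- the coefficients of an element of `cuspSpan` at negative indices vanish -/
theorem coeff_eq_zero_of_mem_cuspSpan {R : Type*} [CommRing R] {b : LaurentSeries R}
    (hb : b ∈ cuspSpan M' R) {n : ℤ} (hn : n < 0) : b.coeff n = 0 := by
  induction hb using Submodule.span_induction with
  | mem x hx =>
    obtain ⟨f, rfl⟩ := hx
    exact redHom_coeff_of_neg M' R f hn
  | zero => rfl
  | add x y _ _ hx hy => rw [HahnSeries.coeff_add, hx, hy, add_zero]
  | smul c x _ hx => rw [HahnSeries.coeff_smul, hx, smul_zero]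

/-- a nonzero element of `cuspSpan` has a nonzero coefficient of index `n ≥ 0` -/
theorem exists_coeff_ne_zero_of_mem_cuspSpan {R : Type*} [CommRing R] {b : LaurentSeries R}
    (hb : b ∈ cuspSpan M' R) (hb0 : b ≠ 0) : ∃ n : ℕ, b.coeff (n : ℤ) ≠ 0 := by
  by_contra h
  push Not at h
  apply hb0
  ext n
  rw [HahnSeries.coeff_zero]
  rcases lt_or_ge n 0 with hn | hn
  · exact coeff_eq_zero_of_mem_cuspSpan hb hn
  · obtain ⟨m, rfl⟩ := Int.eq_ofNat_of_zero_le hn
    exact h m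

/-- an element of `cuspSpan` is a finite combination of reductions of integral forms -/
theorem exists_span_of_mem_cuspSpan {R : Type*} [CommRing R] {b : LaurentSeries R}
    (hb : b ∈ cuspSpan M' R) :
    ∃ (s : Finset ↥(intLattice M' 2)) (c : ↥(intLattice M' 2) → R),
      ∀ n : ℕ, b.coeff (n : ℤ) = ∑ G ∈ s, c G * ((coeffZ G n : ℤ) : R) := by
  classical
  obtain ⟨c, rfl⟩ := (Finsupp.mem_span_range_iff_exists_finsupp).1 hb
  refine ⟨c.support, ⇑c, fun n => ?_⟩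
  rw [Finsupp.sum, HahnSeries.coeff_sum]
  refine Finset.sum_congr rfl fun G _ => ?_
  rw [HahnSeries.coeff_smul, smul_eq_mul, redHom_coeff_natCast, aInt_eq_coeffZ]

variable {W : WeierstrassCurve ℤ} {p : ℕ}

/-- ★ **(M3-series) for `cuspSpan`**, multipliers `m : ℕ` with `m ≡ a_ℓ(W) mod p` (the output shape
of `S40/W/HeckeStar.hecke_coeff_of_normBeta`). -/
theorem isResiduallyModularOfLevel_of_mem_cuspSpan (hp : p.Prime) {κ : Type*} [Field κ]
    [CharP κ p] (b : LaurentSeries κ) (hb : b ∈ cuspSpan M' κ) (hb0 : b ≠ 0)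
    (heig : ∀ ℓ : Nat.Primes, W.IsGoodPrimeFor ℓ → ¬ (ℓ : ℕ) ∣ M' → (ℓ : ℕ) ≠ p →
      ∃ m : ℕ, (m : ZMod p) = ((W.apOfModel (ℓ : ℕ) : ℤ) : ZMod p) ∧ ∀ n : ℤ,
        b.coeff (((ℓ : ℕ) : ℤ) * n) +
            ((ℓ : ℕ) : κ) * (if (((ℓ : ℕ) : ℤ)) ∣ n then b.coeff (n / ((ℓ : ℕ) : ℤ)) else 0) =
          (m : κ) * b.coeff n) :
    W.IsResiduallyModularOfLevel p M' :=
  isResiduallyModularOfLevel_of_laurent_nat hp b (exists_coeff_ne_zero_of_mem_cuspSpan hb hb0)
    (exists_span_of_mem_cuspSpan hb) heig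

/-- ★ **(M3-series) for `cuspSpan`**, with the eigenvalue `a_ℓ(W)` itself on the right. -/
theorem isResiduallyModularOfLevel_of_mem_cuspSpan' (hp : p.Prime) {κ : Type*} [Field κ]
    [CharP κ p] (b : LaurentSeries κ) (hb : b ∈ cuspSpan M' κ) (hb0 : b ≠ 0)
    (heig : ∀ ℓ : Nat.Primes, W.IsGoodPrimeFor ℓ → ¬ (ℓ : ℕ) ∣ M' → (ℓ : ℕ) ≠ p → ∀ n : ℤ,
      b.coeff (((ℓ : ℕ) : ℤ) * n) +
          ((ℓ : ℕ) : κ) * (if (((ℓ : ℕ) : ℤ)) ∣ n then b.coeff (n / ((ℓ : ℕ) : ℤ)) else 0) =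
        ((W.apOfModel (ℓ : ℕ) : ℤ) : κ) * b.coeff n) :
    W.IsResiduallyModularOfLevel p M' :=
  isResiduallyModularOfLevel_of_laurent hp b (exists_coeff_ne_zero_of_mem_cuspSpan hb hb0)
    (exists_span_of_mem_cuspSpan hb) heig

end Fermat.Agent.S40.Top.OfCuspSpan
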