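/-
S40, top level, glue [W9 Gauss form] → [M3-series] (helper7):
a class `x ∈ Wθ ≤ J₀(M' p)[p]` with a representative `f_K` at a level `K` lying in the Gauss ring,
with nonzero Gauss reduction `ḡ = theta f_K`, whose logarithmic derivative `b = θ ḡ / ḡ` is a
nonzero element of `cuspSpan M' κ_K` (the reductions of the integral weight-2 cusp forms of level `M'`)
gives `W.IsResiduallyModularOfLevel p M'`.

= `S40/W/HeckeGauss.hecke_coeff_of_mem_wthetaL_level` (helper4) fed into
`S40/Top/OfCuspSpan.isResiduallyModularOfLevel_of_mem_cuspSpan'` (helper7).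
The two remaining inputs of T5′ are exactly `hbspan` (W10: the squeeze) and `hb0` (`Λ_∞ ≠ 0`).
-/
import Mathlib
import Fermat.Agent.S40.W.HeckeGauss
import Fermat.Agent.S40.Top.OfCuspSpan

set_option autoImplicit false
set_option linter.unusedSectionVars false
set_option linter.style.haveILetI false

open HahnSeries ModularCurve AlgebraicCurve

noncomputable section

namespace Fermat.Agent.S40.Top.OfGauss

open Fermat.Agent.N4F.Tors Fermat.Agent.N4F.Res Fermat.Agent.N4F.C Fermat.Agent.N4F.C.Levels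
open Fermat.Agent.N4F.C.LevelCharts Fermat.Agent.N4F.C.LevelTheta
open Fermat.Agent.N4.FibreEmbedding Fermat.Agent.N4.Setting Fermat.Agent.P3G.GammaDict
open Fermat.Agent.S40.Top.Eigen Fermat.Agent.S40.W.HeckeDlog Fermat.Agent.S40.W.HeckeGauss
open Fermat.Agent.S40.W.CuspSpan Fermat.Agent.S40.W.ThetaLog

local notation "Qb" => AlgebraicClosure ℚ

/-- ★ **T5′ core, general module level `L`**: `x ∈ WthetaL W p N' L` (index set of the level `N'`,
`L ∣ N'`), represented at a level `K` by `f_K` in the Gauss ring with nonzero reduction; `b` a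
logarithmic derivative of the reduction, `0 ≠ b ∈ cuspSpan M' κ_K`, and every prime `ℓ ∤ M'`, `ℓ ≠ p`
is prime to `N'` ⟹ `W.IsResiduallyModularOfLevel p M'`. -/
theorem isResiduallyModularOfLevel_of_hasDlog (W : WeierstrassCurve ℤ) {p N' L M' : ℕ} [NeZero L]
    [NeZero p] [NeZero M'] (A : ValuationSubring Qb) (hp : p.Prime) (hA : A.LiesOverPrime p)
    (hLN : L ∣ N')
    (hN : ∀ ℓ : Nat.Primes, ¬ (ℓ : ℕ) ∣ M' → (ℓ : ℕ) ≠ p → ¬ (ℓ : ℕ) ∣ N')
    (x : Jtors L p) (hx : x ∈ WthetaL W p N' L)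
    (D : Divisor.degZero (K := Qb) (F := modularFunctionFieldBar L))
    (hxD : (x : JZero L) = Pic0.mk D)
    (K : IntermediateField ℚ Qb) [IsDiscreteValuationRing ↥(baseRing A K)]
    (fK : FF (Lvl K) L)
    (hD : IsDivOf (levK L K fK) (p • (D : Divisor Qb (modularFunctionFieldBar L))))
    (hfK : fK ∈ gaussSubalgebra (Lvl K) L (baseRing A K))
    (hf0 : theta (Lvl K) L (baseRing A K) ⟨fK, hfK⟩ ≠ 0)
    (b : LaurentSeries (IsLocalRing.ResidueField ↥(baseRing A K)))
    (hb : HasDlog (theta (Lvl K) L (baseRing A K) ⟨fK, hfK⟩) b)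
    (hbspan : b ∈ cuspSpan M' (IsLocalRing.ResidueField ↥(baseRing A K))) (hb0 : b ≠ 0) :
    W.IsResiduallyModularOfLevel p M' := by
  haveI := charP_residue_level p A hp hA K
  refine Fermat.Agent.S40.Top.OfCuspSpan.isResiduallyModularOfLevel_of_mem_cuspSpan' hp b hbspan hb0
    (fun ℓ hgood hnd hℓp n => ?_)
  exact hecke_coeff_of_mem_wthetaL_level W A hp hA hLN x hx ⟨ℓ, hgood, hN ℓ hnd hℓp, hℓp⟩ D hxD K fK
    hD hfK hf0 b hb n

/-- ★ **T5′ core in the shape of `New/Pack.T5Out`**: `x ∈ Wtheta W p (M' * p)`. -/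
theorem isResiduallyModularOfLevel_of_hasDlog_wtheta (W : WeierstrassCurve ℤ) {p M' : ℕ}
    [NeZero p] [NeZero M'] (A : ValuationSubring Qb) (hp : p.Prime) (hA : A.LiesOverPrime p)
    (x : Jtors (M' * p) p) (hx : x ∈ Wtheta W p (M' * p))
    (D : Divisor.degZero (K := Qb) (F := modularFunctionFieldBar (M' * p)))
    (hxD : (x : JZero (M' * p)) = Pic0.mk D)
    (K : IntermediateField ℚ Qb) [IsDiscreteValuationRing ↥(baseRing A K)]
    (fK : FF (Lvl K) (M' * p))
    (hD : IsDivOf (levK (M' * p) K fK) (p • (D : Divisor Qb (modularFunctionFieldBar (M' * p)))))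
    (hfK : fK ∈ gaussSubalgebra (Lvl K) (M' * p) (baseRing A K))
    (hf0 : theta (Lvl K) (M' * p) (baseRing A K) ⟨fK, hfK⟩ ≠ 0)
    (b : LaurentSeries (IsLocalRing.ResidueField ↥(baseRing A K)))
    (hb : HasDlog (theta (Lvl K) (M' * p) (baseRing A K) ⟨fK, hfK⟩) b)
    (hbspan : b ∈ cuspSpan M' (IsLocalRing.ResidueField ↥(baseRing A K))) (hb0 : b ≠ 0) :
    W.IsResiduallyModularOfLevel p M' := by
  refine isResiduallyModularOfLevel_of_hasDlog W A hp hA (dvd_refl _) (fun ℓ hnd hℓp h => ?_) x hx D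
    hxD K fK hD hfK hf0 b hb hbspan hb0
  rcases (Nat.Prime.dvd_mul ℓ.2).1 h with h1 | h1
  · exact hnd h1
  · exact hℓp ((Nat.prime_dvd_prime_iff_eq ℓ.2 hp).1 h1)

/-- ★ the same with `b := dlog (theta f_K)` (helper3's `ThetaLog.dlog`). -/
theorem isResiduallyModularOfLevel_of_dlog (W : WeierstrassCurve ℤ) {p M' : ℕ}
    [NeZero p] [NeZero M'] (A : ValuationSubring Qb) (hp : p.Prime) (hA : A.LiesOverPrime p)
    (x : Jtors (M' * p) p) (hx : x ∈ Wtheta W p (M' * p))
    (D : Divisor.degZero (K := Qb) (F := modularFunctionFieldBar (M' * p)))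
    (hxD : (x : JZero (M' * p)) = Pic0.mk D)
    (K : IntermediateField ℚ Qb) [IsDiscreteValuationRing ↥(baseRing A K)]
    (fK : FF (Lvl K) (M' * p))
    (hD : IsDivOf (levK (M' * p) K fK) (p • (D : Divisor Qb (modularFunctionFieldBar (M' * p)))))
    (hfK : fK ∈ gaussSubalgebra (Lvl K) (M' * p) (baseRing A K))
    (hf0 : theta (Lvl K) (M' * p) (baseRing A K) ⟨fK, hfK⟩ ≠ 0)
    (hbspan : dlog (IsLocalRing.ResidueField ↥(baseRing A K))
        (theta (Lvl K) (M' * p) (baseRing A K) ⟨fK, hfK⟩) ∈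
      cuspSpan M' (IsLocalRing.ResidueField ↥(baseRing A K)))
    (hb0 : dlog (IsLocalRing.ResidueField ↥(baseRing A K))
        (theta (Lvl K) (M' * p) (baseRing A K) ⟨fK, hfK⟩) ≠ 0) :
    W.IsResiduallyModularOfLevel p M' :=
  isResiduallyModularOfLevel_of_hasDlog_wtheta W A hp hA x hx D hxD K fK hD hfK hf0 _
    (hasDlog_dlog hf0) hbspan hb0

end Fermat.Agent.S40.Top.OfGauss
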