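/-
S40 (level lowering at `p`), Case (i) of the top level (helper29): **the old case.**

If `V ≤ J₀(M′ p)[p]` is a copy of `W[p]` (`CopyOfE`) and one of the two degeneracy push-forwards
`α_*, β_* : J₀(M′ p) → J₀(M′)` does not kill `V`, then `J₀(M′)[p]` contains a nonzero common
eigenvector of the `T_ℓ` (good `ℓ ∤ M′ p`) with the eigenvalues `a_ℓ(W) mod p`.

No commutation of `α_*, β_*` with the Hecke operators is used, only their Galois-equivariance
(`P3G.AuxPrime.alphaPush_smul`, `P4.Push.betaPush_smul`):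

* `hecke_eq_of_equivariant` : for a Galois-equivariant additive map `ψ : W(ℚ̄)[p] → J₀(L)(ℚ̄)` and a
  good prime `ℓ ∤ L`, `ℓ ≠ p`: `T_ℓ (ψ e) = a_ℓ(W) • ψ e`.  (Take a Frobenius element `φ` at `ℓ`:
  Eichler–Shimura on torsion at level `L` gives `φ² y - T_ℓ (φ y) + ℓ y = 0`, Cayley–Hamilton on
  `W[p]` gives `φ² y - a_ℓ φ y + ℓ y = 0` for `y = ψ e`; subtract, and `φ` is bijective.)
* ★ `hold_of_copyOfE` : the hypothesis `hold` of `Top/Final.s40_of_blocks`.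
-/
import Mathlib
import Fermat.Agent.S40.Top.CopyOfE
import Fermat.Agent.S54.Frobenius

set_option autoImplicit false
set_option linter.unusedSectionVars false
set_option linter.unusedVariables false
set_option linter.style.haveILetI false

open ModularCurve AlgebraicCurve

noncomputable section

namespace Fermat.Agent.S40.Top.CaseOld

open WeierstrassCurve WeierstrassCurve.Affine WeierstrassCurve.Affine.Point
open Fermat.Agent.N4F.Res Fermat.Agent.S58.Form.Hres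
open Fermat.Agent.S40.Top.Eigen Fermat.Agent.S40.Top.Final Fermat.Agent.S40.Top.CopyOfE
open Fermat.Agent.S40.E1.QuadIso
open Fermat.Agent.P3G.AuxPrime Fermat.Agent.P4.Push

local notation "Qbar" => AlgebraicClosure ℚ
local notation "Γ" => (AlgebraicClosure ℚ ≃ₐ[ℚ] AlgebraicClosure ℚ)

section Key

variable {W : WeierstrassCurve ℤ} {p : ℕ} [hp : Fact p.Prime] {L : ℕ} [NeZero L]

/-- Cayley–Hamilton for a Frobenius element on `W[p]`, pointwise, with integer scalars. -/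
theorem frob_quad_Tp (hΔ : W.Δ ≠ 0) (hp2 : p ≠ 2) {ℓ : ℕ} (hℓ : ℓ.Prime)
    (hgood : W.IsGoodPrimeFor ℓ) (hℓp : ℓ ≠ p) (A : ValuationSubring Qbar)
    (hA : A.LiesOverPrime ℓ) (φ : Γ) (hφ : A.IsFrobeniusAt φ ℓ) (e : Tp p W) :
    φ • φ • e - (W.apOfModel ℓ : ℤ) • φ • e + ℓ • e = 0 := by
  haveI := moduleFinite_Tp p W hp2 hΔ
  have h := congrArg (fun f : Module.End (ZMod p) (Tp p W) => f e)
    (cayley_hamilton_two (finrank_Tp p W hp2 hΔ) (rW p W φ))
  rw [trace_rW_frob W p hp2 hℓ hℓp hgood A hA φ hφ, det_rW_frob W p hp2 hℓ hℓp hgood A hA φ hφ]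
    at h
  simp only [LinearMap.add_apply, LinearMap.sub_apply, Module.End.mul_apply,
    LinearMap.smul_apply, Module.End.one_apply, LinearMap.zero_apply, rW_apply] at h
  rw [Int.cast_smul_eq_zsmul, Nat.cast_smul_eq_nsmul] at h
  exact h

/-- **The Hecke operators act through `a_ℓ(W)` on the image of a Galois-equivariant map
`W(ℚ̄)[p] → J₀(L)(ℚ̄)`.** -/
theorem hecke_eq_of_equivariant (hΔ : W.Δ ≠ 0) (hp2 : p ≠ 2) (ψ : Tp p W →+ JZero L)
    (hψ : ∀ (σ : Γ) (e : Tp p W), ψ (σ • e) = σ • ψ e) {ℓ : ℕ} (hℓ : ℓ.Prime)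
    (hgood : W.IsGoodPrimeFor ℓ) (hℓL : ¬ ℓ ∣ L) (hℓp : ℓ ≠ p) (e : Tp p W) :
    heckeOperatorBar L ⟨ℓ, hℓ⟩ (ψ e) = (W.apOfModel ℓ : ℤ) • ψ e := by
  obtain ⟨A, φ, hA, hφ⟩ := Fermat.Agent.S54.exists_isFrobeniusAt ℓ hℓ
  have hndvd : ¬ ℓ ∣ p := fun h => hℓp ((Nat.prime_dvd_prime_iff_eq hℓ hp.out).mp h)
  -- the point `y = ψ (φ⁻¹ e)`
  set e₀ : Tp p W := φ⁻¹ • e with he₀
  have hφe₀ : φ • e₀ = e := by rw [he₀, smul_inv_smul]
  have hpe₀ : p • e₀ = 0 := by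
    rw [← Nat.cast_smul_eq_nsmul (ZMod p), ZMod.natCast_self, zero_smul]
  have hpy : p • ψ e₀ = 0 := by rw [← map_nsmul, hpe₀, _root_.map_zero]
  have hES := ((inputs L).esOnTorsionAll ℓ hℓ hℓL A hA p hndvd (ψ e₀) hpy).2 φ hφ
  have hCH := congrArg ψ (frob_quad_Tp hΔ hp2 hℓ hgood hℓp A hA φ hφ e₀)
  rw [map_add, map_sub, map_zsmul, map_nsmul, hψ, hψ, _root_.map_zero] at hCH
  rw [← hψ, hφe₀] at hES hCH
  -- subtract
  have h1 : heckeOperatorBar L ⟨ℓ, hℓ⟩ (ψ e) - (W.apOfModel ℓ : ℤ) • ψ e = 0 := by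
    have h2 := congrArg₂ (· - ·) hCH hES
    simp only [sub_zero] at h2
    rw [← h2]
    abel
  exact sub_eq_zero.mp h1

end Key

/-! ### Push-forward of a copy of `W[p]` along a Galois-equivariant map -/

section Push

variable {W : WeierstrassCurve ℤ} {p : ℕ} [hp : Fact p.Prime] {L₁ L : ℕ} [NeZero L₁] [NeZero L]

/-- **Generic old case.**  `V ≤ J₀(L₁)[p]` a copy of `W[p]`, `π : J₀(L₁) → J₀(L)` additive and
Galois-equivariant, `π x ≠ 0` for some `x ∈ V`: then `π x` is a nonzero point of `J₀(L)[p]` in the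
`θ`-eigenspace (for the index set of any multiple `N` of `L`). -/
theorem exists_eigen_of_push (hΔ : W.Δ ≠ 0) (hp2 : p ≠ 2) (N : ℕ) (hLN : L ∣ N)
    (V : Submodule (ZMod p) (Jtors L₁ p)) (hC : CopyOfE W p V) (π : JZero L₁ →+ JZero L)
    (hπ : ∀ (σ : Γ) (y : JZero L₁), π (σ • y) = σ • π y)
    (x : Jtors L₁ p) (hx : x ∈ V) (hπx : π (x : JZero L₁) ≠ 0) :
    ∃ z : Jtors L p, z ≠ 0 ∧ z ∈ WthetaL W p N L := by
  obtain ⟨ψ, -, hψV, hψeq⟩ := hC.exists_addMonoidHom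
  obtain ⟨e, he⟩ := (hψV (x : JZero L₁)).mp ⟨x.2, hx⟩
  have hpe : p • e = 0 := by
    rw [← Nat.cast_smul_eq_nsmul (ZMod p), ZMod.natCast_self, zero_smul]
  have hmem : π (x : JZero L₁) ∈ Jtors L p := by
    rw [mem_Jtors_iff, ← he, ← map_nsmul, ← map_nsmul, hpe, _root_.map_zero, _root_.map_zero]
  refine ⟨⟨π (x : JZero L₁), hmem⟩, fun h => hπx (congrArg Subtype.val h), ?_⟩
  rw [mem_wthetaL_iff]
  intro j
  apply Subtype.ext
  have h1 := hecke_eq_of_equivariant hΔ hp2 (π.comp ψ)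
    (fun σ e' => by
      rw [AddMonoidHom.comp_apply, AddMonoidHom.comp_apply, hψeq, hπ])
    j.1.2 j.good (j.not_dvd_of_dvd hLN) j.ne e
  rw [AddMonoidHom.comp_apply, he] at h1
  rw [coe_heckeTors_apply]
  refine h1.trans ?_
  rw [theta, Int.cast_smul_eq_zsmul]
  rfl

end Push

/-! ### The hypothesis `hold` of `Top/Final.s40_of_blocks` -/

section Hold

variable {W : WeierstrassCurve ℤ} {p M' : ℕ} [NeZero M'] [NeZero p] [hp : Fact p.Prime]

/-- ★ **Case (i), the old case**: if `α_*` or `β_*` does not kill the copy `V` of `W[p]`, the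
`θ`-eigenspace of `J₀(M′)[p]` is nonzero. -/
theorem hold_of_copyOfE (hΔ : W.Δ ≠ 0) (hp2 : p ≠ 2)
    (V : Submodule (ZMod p) (Jtors (M' * p) p)) (hC : CopyOfE W p V)
    (h : ∃ x ∈ V, alphaPush M' p ((x : Jtors (M' * p) p) : JZero (M' * p)) ≠ 0 ∨
      betaPush M' p ((x : Jtors (M' * p) p) : JZero (M' * p)) ≠ 0) :
    ∃ z : Jtors M' p, z ≠ 0 ∧ z ∈ WthetaL W p (M' * p) M' := by
  obtain ⟨x, hx, hα | hβ⟩ := h
  · exact exists_eigen_of_push hΔ hp2 (M' * p) (dvd_mul_right M' p) V hC (alphaPush M' p)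
      (fun σ y => alphaPush_smul M' p σ y) x hx hα
  · exact exists_eigen_of_push hΔ hp2 (M' * p) (dvd_mul_right M' p) V hC (betaPush M' p)
      (fun σ y => betaPush_smul M' p σ y) x hx hβ

end Hold

end Fermat.Agent.S40.Top.CaseOld
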