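/-
S40, top level, [M3-tors] in the vocabulary of record (`S40/Top/Eigen.lean`):
a nonzero `z` in the `θ`-eigenspace `WthetaL W p (M' * p) M' ≤ J₀(M')[p]` (index set of the big level
`M' * p`, module at the small level `M'`) gives `W.IsResiduallyModularOfLevel p M'`.
Wrapper of `S40/Top/OfTors.lean`.
-/
import Mathlib
import Fermat.Agent.S40.Top.Eigen
import Fermat.Agent.S40.Top.OfTors

set_option autoImplicit false
set_option linter.unusedSectionVars false

noncomputable section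

namespace Fermat.Agent.S40.Top.OfTorsEigen

open Fermat.Agent.N4F.Res Fermat.Agent.S40.Top.Eigen

variable {W : WeierstrassCurve ℤ} {p M' : ℕ} [NeZero M']

/-- ★ **[M3-tors]**, general big level `N`: it is enough that every prime `ℓ ∤ M'`, `ℓ ≠ p` does
not divide `N`. -/
theorem isResiduallyModularOfLevel_of_mem_wthetaL_of_level {N : ℕ} (hp : p.Prime)
    (hN : ∀ ℓ : Nat.Primes, ¬ (ℓ : ℕ) ∣ M' → (ℓ : ℕ) ≠ p → ¬ (ℓ : ℕ) ∣ N)
    (z : Jtors M' p) (hz : z ≠ 0) (hz' : z ∈ WthetaL W p N M') :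
    W.IsResiduallyModularOfLevel p M' := by
  refine Fermat.Agent.S40.Top.OfTors.isResiduallyModularOfLevel_of_tors hp z hz
    (fun ℓ hgood hnd hℓp => ?_)
  exact mem_wthetaL_iff.1 hz' ⟨ℓ, hgood, hN ℓ hnd hℓp, hℓp⟩

/-- ★ **[M3-tors]**, the consumer shape of `S40/Top/Final.lean`: `0 ≠ z ∈ WthetaL W p (M' * p) M'`
⇒ `W.IsResiduallyModularOfLevel p M'`. -/
theorem isResiduallyModularOfLevel_of_mem_wthetaL (hp : p.Prime)
    (z : Jtors M' p) (hz : z ≠ 0) (hz' : z ∈ WthetaL W p (M' * p) M') :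
    W.IsResiduallyModularOfLevel p M' := by
  refine isResiduallyModularOfLevel_of_mem_wthetaL_of_level hp (fun ℓ hnd hℓp h => ?_) z hz hz'
  rcases (Nat.Prime.dvd_mul ℓ.2).1 h with h1 | h1
  · exact hnd h1
  · exact hℓp ((Nat.prime_dvd_prime_iff_eq ℓ.2 hp).1 h1)

/-- the same with the existential packaged (the output shape of CASE-OLD) -/
theorem isResiduallyModularOfLevel_of_exists (hp : p.Prime)
    (h : ∃ z : Jtors M' p, z ≠ 0 ∧ z ∈ WthetaL W p (M' * p) M') :
    W.IsResiduallyModularOfLevel p M' := by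
  obtain ⟨z, hz, hz'⟩ := h
  exact isResiduallyModularOfLevel_of_mem_wthetaL hp z hz hz'

end Fermat.Agent.S40.Top.OfTorsEigen
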