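/-
S44 (row 38, Frey-curve form of level lowering at `p`), TOP-LEVEL GLUE (helper29): **the frozen
statement S44 from the blocks of `S40/Top/Final.s40_of_blocks`.**

`P : FreyPackage` (`5 ≤ P.p`), `N` a conductor level (squarefree, supported on `abc`), `P.p ∣ N`,
`P.ModularRepOfLevel N` = there are an INTEGRAL MODEL `W` of the Frey curve and a normalized
eigenform of level `N` congruent to `W` mod a prime over `p`; the conclusion is the same at the
level `N / p`, with the SAME model `W`.  Hence S44 is `Top/Final.frozen_of_level` ∘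
`Top/Final.s40_of_blocks` for `W`, and only the block (H-new) is not closed here:

* `isResiduallyModularOfLevel_of_modularRepOfLevel`, `modularRepOfLevel_of_isResiduallyModularOfLevel`
  : the two definitions agree;
* `Δ_ne_zero_of_model`, `modRepIsIrreducible_of_model` : `W.Δ ≠ 0` and irreducibility of `W[p]` for
  every integral model `W` of the Frey curve (transport along the change of variables);
* `s44_of_models` : S44 from "level `N → N / p` for every integral model";
* ★ `s44_of_hnew` : S44 from the block (H-new) alone (`HNew P`, which may use `p ∣ abc`) — (H-E1),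
  (H-det) = `Top/CopyOfE`, (H-old) = `Top/CaseOld`, (H-M3) = `Top/OfTorsEigen` are plugged in;
* ★ `s44_of_contracts` : S44 from the three leaf contracts T6′ / T5′ / T4′ of `New/Pack`
  (`Contracts P`).
-/
import Mathlib
import Fermat.Prelude.Def_FreyPackage_IsConductorLevel
import Fermat.Agent.S40.Top.CaseOld
import Fermat.Agent.S40.Top.OfTorsEigen
import Fermat.Agent.S40.New.Pack
import Fermat.Agent.S41.NE.NotEisenstein
import Fermat.Agent.S13.FreyDisc

set_option autoImplicit false
set_option linter.unusedSectionVars false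
set_option linter.unusedVariables false
set_option linter.style.haveILetI false

open ModularCurve AlgebraicCurve

noncomputable section

namespace Fermat.Agent.S40.Top.FreyGlue

open WeierstrassCurve WeierstrassCurve.Affine WeierstrassCurve.Affine.Point
open Fermat.Agent.N4F.Res Fermat.Agent.S40.Top.Eigen Fermat.Agent.S40.Top.Final
open Fermat.Agent.S40.Top.CopyOfE Fermat.Agent.S40.Top.CaseOld
open Fermat.Agent.S14.GaloisModule (chi)
open Fermat.Agent.P3G.AuxPrime Fermat.Agent.P4.Push

local notation "Qbar" => AlgebraicClosure ℚ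
local notation "Γ" => (AlgebraicClosure ℚ ≃ₐ[ℚ] AlgebraicClosure ℚ)

section Defs

variable (P : FreyPackage)

/-- `P.ModularRepOfLevel N` gives an integral model of the Frey curve which is residually modular
of level `N`. -/
theorem exists_model_of_modularRepOfLevel {N : ℕ} (h : P.ModularRepOfLevel N) :
    ∃ W : WeierstrassCurve ℤ, W.IsIntegralModelOf P.freyCurve ∧
      W.IsResiduallyModularOfLevel P.p N := by
  obtain ⟨f, W, 𝔪, hf, hW, hmax, hpm, hcong⟩ := h
  exact ⟨W, hW, f, 𝔪, hf, hmax, hpm, hcong⟩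

/-- Conversely. -/
theorem modularRepOfLevel_of_model {N : ℕ} {W : WeierstrassCurve ℤ}
    (hW : W.IsIntegralModelOf P.freyCurve) (h : W.IsResiduallyModularOfLevel P.p N) :
    P.ModularRepOfLevel N := by
  obtain ⟨f, 𝔪, hf, hmax, hpm, hcong⟩ := h
  exact ⟨f, W, 𝔪, hf, hW, hmax, hpm, hcong⟩

/-- The Frey curve is an elliptic curve. -/
theorem isElliptic_freyCurve : P.freyCurve.IsElliptic :=
  ⟨isUnit_iff_ne_zero.mpr (Fermat.Agent.S13.FreyDisc.Δ_ne_zero P)⟩

/-- Every integral model of the Frey curve has nonzero discriminant. -/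
theorem Δ_ne_zero_of_model {W : WeierstrassCurve ℤ} (hW : W.IsIntegralModelOf P.freyCurve) :
    W.Δ ≠ 0 :=
  haveI := isElliptic_freyCurve P
  Fermat.Agent.S41.NE.Δ_ne_zero_of_isIntegralModelOf P.freyCurve hW

/-- Irreducibility of the mod `p` representation passes to every integral model. -/
theorem modRepIsIrreducible_of_model {W : WeierstrassCurve ℤ}
    (hW : W.IsIntegralModelOf P.freyCurve)
    (hirr : GaloisRepIsIrreducible (K := AlgebraicClosure ℚ) ℚ P.freyCurve P.p) :
    W.ModRepIsIrreducible P.p := by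
  obtain ⟨C, hC⟩ := hW
  have h1 := Fermat.Agent.S41.NE.irreducible_variableChange P.freyCurve C P.p hirr
  rw [hC] at h1
  exact h1

end Defs

/-! ### S44 from the statement for integral models -/

section Models

variable (P : FreyPackage) {N : ℕ}

/-- **S44 from level lowering `N → N / p` for the integral models of the Frey curve.** -/
theorem s44_of_models (hcond : P.IsConductorLevel N) (hpN : P.p ∣ N)
    (hmod : P.ModularRepOfLevel N)
    (H : ∀ W : WeierstrassCurve ℤ, W.IsIntegralModelOf P.freyCurve →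
      W.IsResiduallyModularOfLevel P.p N → W.IsResiduallyModularOfLevel P.p (N / P.p)) :
    ∃ M : ℕ, M ∣ N ∧ ¬ P.p ∣ M ∧ P.ModularRepOfLevel M := by
  obtain ⟨W, hW, hres⟩ := exists_model_of_modularRepOfLevel P hmod
  refine ⟨N / P.p, Nat.div_dvd_of_dvd hpN, ?_, modularRepOfLevel_of_model P hW (H W hW hres)⟩
  intro hdvd
  apply hcond.sq_not_dvd P.pp
  obtain ⟨d, hd⟩ := hdvd
  refine ⟨d, ?_⟩
  have h1 : N = P.p * (N / P.p) := (Nat.mul_div_cancel' hpN).symm
  rw [h1, hd]
  ring

end Models

/-! ### S44 from the block (H-new) -/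

section HNew

variable (P : FreyPackage) {N : ℕ}

/-- The block **(H-new)** for the Frey package `P`: for every integral model `W` of the Frey curve,
every level `M'` prime to `p = P.p` and every simple Galois submodule `V ≤ W_θ ⊆ J₀(M' p)[p]` which
is a copy of `W[p]` and lies in the `p`-new part, either `W` is already residually modular of level
`M'`, or the inertia group at some place over `p` acts on `V` through the scalar `χ_p`. -/
def HNew : Prop :=
  ∀ (W : WeierstrassCurve ℤ), W.IsIntegralModelOf P.freyCurve →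
    ∀ (M' : ℕ) [NeZero M'], ¬ P.p ∣ M' → W.IsResiduallyModularOfLevel P.p (M' * P.p) →
    haveI : Fact P.p.Prime := ⟨P.pp⟩
    ∀ V : Submodule (ZMod P.p) (Jtors (M' * P.p) P.p), IsSimpleGal V →
      V ≤ Wtheta W P.p (M' * P.p) → CopyOfE W P.p V →
      (∀ x ∈ V, ((x : Jtors (M' * P.p) P.p) : JZero (M' * P.p)) ∈ newPart M' P.p) →
      W.IsResiduallyModularOfLevel P.p M' ∨
        ∃ A : ValuationSubring Qbar, A.LiesOverPrime P.p ∧
          ∀ τ ∈ A.inertiaSubgroupIn ℚ, ∀ x ∈ V,
            galTors (M' * P.p) P.p τ x = ((chi P.p τ : (ZMod P.p)ˣ) : ZMod P.p) • x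

/-- ★ **S44 (frozen statement, Frey form of level lowering at `p`) from the block (H-new).**
The blocks (H-E1), (H-det) (`Top/CopyOfE`), (H-old) (`Top/CaseOld`) and (H-M3) (`Top/OfTorsEigen`)
of `Top/Final.s40_of_blocks` are plugged in. -/
theorem s44_of_hnew (hcond : P.IsConductorLevel N) (hpN : P.p ∣ N)
    (hirr : GaloisRepIsIrreducible (K := AlgebraicClosure ℚ) ℚ P.freyCurve P.p)
    (hmod : P.ModularRepOfLevel N) (hnew : (P.p : ℤ) ∣ P.a * P.b * P.c → HNew P) :
    ∃ M : ℕ, M ∣ N ∧ ¬ P.p ∣ M ∧ P.ModularRepOfLevel M := by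
  have hnew : HNew P := hnew (hcond.p_dvd_abc hpN)
  haveI : Fact P.p.Prime := ⟨P.pp⟩
  haveI : NeZero P.p := ⟨P.pp.ne_zero⟩
  have hp2 : P.p ≠ 2 := by
    have := P.hp5
    omega
  refine s44_of_models P hcond hpN hmod (fun W hW hres => ?_)
  refine frozen_of_level P.pp hcond.pos hpN (hcond.sq_not_dvd P.pp) hres
    (fun M' _ hpM' hmod' => ?_)
  have hΔ : W.Δ ≠ 0 := Δ_ne_zero_of_model P hW
  have hirrW : W.ModRepIsIrreducible P.p := modRepIsIrreducible_of_model P hW hirr
  exact s40_of_blocks hp2 hmod' (CopyOfE W P.p)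
    (fun V hV hle => copyOfE_of_simple hΔ hp2 hirrW (NeZero.ne (M' * P.p)) (dvd_refl _) V hV hle)
    (fun V hV hC => hdet_of_copyOfE hΔ hp2 V hV hC)
    (fun V _ _ hC h => hold_of_copyOfE hΔ hp2 V hC h)
    (fun z hz hz' =>
      Fermat.Agent.S40.Top.OfTorsEigen.isResiduallyModularOfLevel_of_mem_wthetaL P.pp z hz hz')
    (fun V hV hle hC hnewV => hnew W hW M' hpM' hmod' V hV hle hC hnewV)

/-- The three leaf contracts T6′ / T5′ / T4′ of `S40/New/Pack` for the Frey package `P`
(`p = P.p ≥ 5`, `p ∣ abc`): for every integral model `W`, every level `M'` prime to `p`, there are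
level predicates `Norm`, `LamZ` such that the three contracts hold at every place `A ∣ p`.
The producer of `T6Out` is the only one which sees `V` (a copy of `W[p]` in the `p`-new part). -/
def Contracts : Prop :=
  ∀ (W : WeierstrassCurve ℤ), W.IsIntegralModelOf P.freyCurve →
    ∀ (M' : ℕ) [NeZero M'], ¬ P.p ∣ M' → W.IsResiduallyModularOfLevel P.p (M' * P.p) →
    haveI : Fact P.p.Prime := ⟨P.pp⟩
    haveI : NeZero P.p := ⟨P.pp.ne_zero⟩
    ∃ Norm LamZ : ∀ A : ValuationSubring Qbar, Fermat.Agent.S40.New.Pack.LevelPred M' P.p A,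
      (∀ A : ValuationSubring Qbar, A.LiesOverPrime P.p →
        ∀ V : Submodule (ZMod P.p) (Jtors (M' * P.p) P.p), IsSimpleGal V →
          V ≤ Wtheta W P.p (M' * P.p) → CopyOfE W P.p V →
          (∀ x ∈ V, ((x : Jtors (M' * P.p) P.p) : JZero (M' * P.p)) ∈ newPart M' P.p) →
          Fermat.Agent.S40.New.Pack.T6Out (Norm A) V) ∧
      (∀ A : ValuationSubring Qbar, A.LiesOverPrime P.p →
        Fermat.Agent.S40.New.Pack.T5Out (Norm A) (LamZ A) W) ∧
      (∀ A : ValuationSubring Qbar, A.LiesOverPrime P.p →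
        Fermat.Agent.S40.New.Pack.T4Out (Norm A) (LamZ A))

/-- (H-new) for `P` from the three contracts (`New/Pack.hnew_of_contracts`). -/
theorem hNew_of_contracts (h : Contracts P) : HNew P := by
  intro W hW M' _ hpM' hmod'
  haveI : Fact P.p.Prime := ⟨P.pp⟩
  haveI : NeZero P.p := ⟨P.pp.ne_zero⟩
  obtain ⟨Norm, LamZ, h6, h5, h4⟩ := h W hW M' hpM' hmod'
  exact Fermat.Agent.S40.New.Pack.hnew_of_contracts hpM' (CopyOfE W P.p) Norm LamZ h6 h5 h4

/-- ★ **S44 from the three leaf contracts T6′ / T5′ / T4′** (which may use `p ∣ abc`). -/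
theorem s44_of_contracts (hcond : P.IsConductorLevel N) (hpN : P.p ∣ N)
    (hirr : GaloisRepIsIrreducible (K := AlgebraicClosure ℚ) ℚ P.freyCurve P.p)
    (hmod : P.ModularRepOfLevel N) (h : (P.p : ℤ) ∣ P.a * P.b * P.c → Contracts P) :
    ∃ M : ℕ, M ∣ N ∧ ¬ P.p ∣ M ∧ P.ModularRepOfLevel M :=
  s44_of_hnew P hcond hpN hirr hmod (fun habc => hNew_of_contracts P (h habc))

end HNew

end Fermat.Agent.S40.Top.FreyGlue
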