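/-
S44 (row 38), TOP-LEVEL GLUE at ONE place (helper29): **the frozen S44 from the three leaf contracts
T6′ / T5′ / T4′ at the single place `A = padicPlace p` of `ℚ̄` over `p`.**

`New/Pack.hnew_of_contracts` asks for the contracts at EVERY place `A ∣ p` although it uses only one
(an arbitrary one).  The E-side inputs ((E-MULT) `EM/Frey`, (R5) `P/Peu*`) are formulated at
`padicPlace p` (through `padicEmbedding p`, `localGaloisToGlobal p`); so it is convenient to ask for
the contracts at `padicPlace p` only — no transport between places over `p` is needed.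

* `hnew_of_contracts_padic` : (H-new) of `Top/Final.s40_of_blocks` from the contracts at
  `padicPlace p`;
* `ContractsPadic P`, `hNew_of_contractsPadic`, ★ `s44_of_contractsPadic`.
-/
import Mathlib
import Fermat.Agent.S40.Top.FreyGlue

set_option autoImplicit false
set_option linter.unusedSectionVars false
set_option linter.unusedVariables false
set_option linter.style.haveILetI false

open ModularCurve AlgebraicCurve

noncomputable section

namespace Fermat.Agent.S40.Top.FreyGluePadic

open WeierstrassCurve WeierstrassCurve.Affine WeierstrassCurve.Affine.Point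
open Fermat.Agent.N4F.Res Fermat.Agent.S40.Top.Eigen Fermat.Agent.S40.Top.Final
open Fermat.Agent.S40.Top.CopyOfE Fermat.Agent.S40.Top.FreyGlue
open Fermat.Agent.S40.New.Pack
open Fermat.Agent.S14.GaloisModule (chi)
open Fermat.Agent.P3G.AuxPrime Fermat.Agent.P4.Push
open Fermat.Agent.S56.Places.Dict

local notation "Qbar" => AlgebraicClosure ℚ
local notation "Γ" => (AlgebraicClosure ℚ ≃ₐ[ℚ] AlgebraicClosure ℚ)

section Pack

variable {M p : ℕ} [NeZero M] [NeZero p] [Fact p.Prime]

/-- **(H-new) in the exact shape of `Top/Final.s40_of_blocks`, from the three contracts at the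
single place `padicPlace p`.** -/
theorem hnew_of_contracts_padic {W : WeierstrassCurve ℤ} (hpM : ¬ p ∣ M)
    (C : Submodule (ZMod p) (Jtors (M * p) p) → Prop)
    (Norm LamZ : LevelPred M p (padicPlace p))
    (h6 : ∀ V : Submodule (ZMod p) (Jtors (M * p) p), IsSimpleGal V →
      V ≤ Wtheta W p (M * p) → C V →
      (∀ x ∈ V, ((x : Jtors (M * p) p) : JZero (M * p)) ∈ newPart M p) → T6Out Norm V)
    (h5 : T5Out Norm LamZ W) (h4 : T4Out Norm LamZ) :
    ∀ V : Submodule (ZMod p) (Jtors (M * p) p), IsSimpleGal V → V ≤ Wtheta W p (M * p) → C V →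
      (∀ x ∈ V, ((x : Jtors (M * p) p) : JZero (M * p)) ∈ newPart M p) →
      W.IsResiduallyModularOfLevel p M ∨
        ∃ A : ValuationSubring Qbar, A.LiesOverPrime p ∧
          ∀ τ ∈ A.inertiaSubgroupIn ℚ, ∀ x ∈ V,
            galTors (M * p) p τ x = ((chi p τ : (ZMod p)ˣ) : ZMod p) • x := by
  intro V hV hle hC hnew
  have hp : p.Prime := Fact.out
  have hA := liesOverPrime_padicPlace p
  haveI : Finite (Jtors (M * p) p) := (inputs (M * p)).torsionFinite p hp.pos
  haveI : Finite V := Finite.of_injective (fun x : V => (x : Jtors (M * p) p)) Subtype.val_injective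
  rcases hnew_of_outs hpM hA V hle hnew (h6 V hV hle hC hnew) h5 h4 with h | h
  · exact Or.inl h
  · exact Or.inr ⟨padicPlace p, hA, h⟩

end Pack

section Frey

variable (P : FreyPackage) {N : ℕ}

/-- The three leaf contracts for the Frey package `P` at the single place `padicPlace P.p`. -/
def ContractsPadic : Prop :=
  ∀ (W : WeierstrassCurve ℤ), W.IsIntegralModelOf P.freyCurve →
    ∀ (M' : ℕ) [NeZero M'], ¬ P.p ∣ M' → W.IsResiduallyModularOfLevel P.p (M' * P.p) →
    haveI : Fact P.p.Prime := ⟨P.pp⟩
    haveI : NeZero P.p := ⟨P.pp.ne_zero⟩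
    ∃ Norm LamZ : LevelPred M' P.p (padicPlace P.p),
      (∀ V : Submodule (ZMod P.p) (Jtors (M' * P.p) P.p), IsSimpleGal V →
          V ≤ Wtheta W P.p (M' * P.p) → CopyOfE W P.p V →
          (∀ x ∈ V, ((x : Jtors (M' * P.p) P.p) : JZero (M' * P.p)) ∈ newPart M' P.p) →
          T6Out Norm V) ∧
      T5Out Norm LamZ W ∧ T4Out Norm LamZ

/-- (H-new) for `P` from the contracts at `padicPlace P.p`. -/
theorem hNew_of_contractsPadic (h : ContractsPadic P) : HNew P := by
  intro W hW M' _ hpM' hmod'
  haveI : Fact P.p.Prime := ⟨P.pp⟩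
  haveI : NeZero P.p := ⟨P.pp.ne_zero⟩
  obtain ⟨Norm, LamZ, h6, h5, h4⟩ := h W hW M' hpM' hmod'
  exact hnew_of_contracts_padic hpM' (CopyOfE W P.p) Norm LamZ h6 h5 h4

/-- ★ **S44 from the three leaf contracts at the single place `padicPlace P.p`** (the contracts may
use `p ∣ abc`). -/
theorem s44_of_contractsPadic (hcond : P.IsConductorLevel N) (hpN : P.p ∣ N)
    (hirr : GaloisRepIsIrreducible (K := AlgebraicClosure ℚ) ℚ P.freyCurve P.p)
    (hmod : P.ModularRepOfLevel N) (h : (P.p : ℤ) ∣ P.a * P.b * P.c → ContractsPadic P) :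
    ∃ M : ℕ, M ∣ N ∧ ¬ P.p ∣ M ∧ P.ModularRepOfLevel M :=
  s44_of_hnew P hcond hpN hirr hmod (fun habc => hNew_of_contractsPadic P (h habc))

end Frey

end Fermat.Agent.S40.Top.FreyGluePadic
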