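/-
S44 (row 38), TOP (helper29; dispatch #3174 (10)): **the frozen S44 from the two NAMED leaves T5′ and
T6′** — T4′ = [M4] (`S40/M4/Final.t4Out_final_lam`) is plugged in.

Everything at the single place `A = padicPlace p` (`Top/FreyGluePadic`).  The pair of level
predicates of record is

* `Norm := M4NormF ∧ SS` : (n1) `ζ_p ∈ O_K`, (n2) bi-unit, (n3) exact level norms, (n4) `K`-rational
  zeros and poles (`M4/Final.M4NormF`), and an extra conjunct `SS` (the vanishing mod `p` of the
  orders at the supersingular points, (n6′) of row 67) which is ABSTRACT here: [M4] does not use it,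
  T6′ produces it, T5′ consumes it;
* `LamZ := lamInfZ` : `Λ_∞ = 0` (`W/Lambda.lamInf`, `M4/Final.lamInfZ`).

* `normOf SS`, `t4Out_normOf` : `T4Out (normOf SS) lamInfZ` for every `SS`;
* `T5Leaf P SS`, `T6Leaf P SS` : the two named leaves for the Frey package `P`;
* ★ `contractsPadic_of_leaves`, ★ `s44_of_leaves` : S44 from `∃ SS, T5Leaf ∧ T6Leaf`
  (the leaves may use `p ∣ abc`).
-/
import Mathlib
import Fermat.Agent.S40.Top.FreyGluePadic
import Fermat.Agent.S40.M4.Final

set_option autoImplicit false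
set_option linter.unusedSectionVars false
set_option linter.unusedVariables false
set_option linter.style.haveILetI false

open ModularCurve AlgebraicCurve

noncomputable section

namespace Fermat.Agent.S40.Top.ContractsOfLeaves

open WeierstrassCurve WeierstrassCurve.Affine WeierstrassCurve.Affine.Point
open Fermat.Agent.N4F.Res Fermat.Agent.S40.Top.Eigen Fermat.Agent.S40.Top.Final
open Fermat.Agent.S40.Top.CopyOfE Fermat.Agent.S40.Top.FreyGlue Fermat.Agent.S40.Top.FreyGluePadic
open Fermat.Agent.S40.New.Pack Fermat.Agent.S40.M4.Final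
open Fermat.Agent.P3G.AuxPrime Fermat.Agent.P4.Push
open Fermat.Agent.S56.Places.Dict

local notation "Qbar" => AlgebraicClosure ℚ
local notation "Γ" => (AlgebraicClosure ℚ ≃ₐ[ℚ] AlgebraicClosure ℚ)

section Pred

variable {M p : ℕ} [NeZero M] [NeZero p] [Fact p.Prime] {A : ValuationSubring Qbar}

/-- The normalisation of record: `M4NormF` and an extra conjunct `SS`. -/
def normOf (SS : LevelPred M p A) : LevelPred M p A :=
  fun K hK _ S₂ ϖ fK => M4NormF M p A K S₂ fK ∧ SS K hK S₂ ϖ fK

/-- **T4′ for `(normOf SS, lamInfZ)`**, any `SS`. -/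
theorem t4Out_normOf (hpM : ¬ p ∣ M) (hA : A.LiesOverPrime p) (SS : LevelPred M p A) :
    T4Out (normOf SS) (lamInfZ M p A) :=
  t4Out_final_lam hpM hA (fun _ _ _ _ _ _ _ hN => hN.1)
    (fun _ _ _ _ _ hϖ inst _ _ hL => hL hϖ inst)

end Pred

section Frey

variable (P : FreyPackage) {N : ℕ}

/-- The type of the extra conjunct (n6′): a level predicate at `padicPlace P.p` for every level. -/
abbrev SSPred : Type :=
  haveI : Fact P.p.Prime := ⟨P.pp⟩
  ∀ (M' : ℕ) [NeZero M'], LevelPred M' P.p (padicPlace P.p)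

/-- **The named leaf T5′** for the Frey package `P`: a normalised representative with `Λ_∞ ≠ 0` of a
class in `Wθ` gives the conclusion. -/
def T5Leaf (SS : SSPred P) : Prop :=
  ∀ (W : WeierstrassCurve ℤ), W.IsIntegralModelOf P.freyCurve →
    ∀ (M' : ℕ) [NeZero M'], ¬ P.p ∣ M' → W.IsResiduallyModularOfLevel P.p (M' * P.p) →
    haveI : Fact P.p.Prime := ⟨P.pp⟩
    haveI : NeZero P.p := ⟨P.pp.ne_zero⟩
    T5Out (normOf (SS M')) (lamInfZ M' P.p (padicPlace P.p)) W

/-- **The named leaf T6′** for the Frey package `P`: every element of a `p`-new simple copy `V` of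
`W[p]` inside `Wθ` has a normalised representative at every big good level. -/
def T6Leaf (SS : SSPred P) : Prop :=
  ∀ (W : WeierstrassCurve ℤ), W.IsIntegralModelOf P.freyCurve →
    ∀ (M' : ℕ) [NeZero M'], ¬ P.p ∣ M' → W.IsResiduallyModularOfLevel P.p (M' * P.p) →
    haveI : Fact P.p.Prime := ⟨P.pp⟩
    haveI : NeZero P.p := ⟨P.pp.ne_zero⟩
    ∀ V : Submodule (ZMod P.p) (Jtors (M' * P.p) P.p), IsSimpleGal V →
      V ≤ Wtheta W P.p (M' * P.p) → CopyOfE W P.p V →
      (∀ x ∈ V, ((x : Jtors (M' * P.p) P.p) : JZero (M' * P.p)) ∈ newPart M' P.p) →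
      T6Out (normOf (SS M')) V

/-- ★ The contracts at `padicPlace P.p` from the two named leaves ([M4] plugged). -/
theorem contractsPadic_of_leaves (SS : SSPred P) (h5 : T5Leaf P SS) (h6 : T6Leaf P SS) :
    ContractsPadic P := by
  intro W hW M' _ hpM' hmod'
  haveI : Fact P.p.Prime := ⟨P.pp⟩
  haveI : NeZero P.p := ⟨P.pp.ne_zero⟩
  exact ⟨normOf (SS M'), lamInfZ M' P.p (padicPlace P.p), h6 W hW M' hpM' hmod',
    h5 W hW M' hpM' hmod', t4Out_normOf hpM' (liesOverPrime_padicPlace P.p) (SS M')⟩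

/-- ★★ **The frozen S44 from the two named leaves T5′ and T6′** (which may use `p ∣ abc`). -/
theorem s44_of_leaves (hcond : P.IsConductorLevel N) (hpN : P.p ∣ N)
    (hirr : GaloisRepIsIrreducible (K := AlgebraicClosure ℚ) ℚ P.freyCurve P.p)
    (hmod : P.ModularRepOfLevel N)
    (h : (P.p : ℤ) ∣ P.a * P.b * P.c → ∃ SS : SSPred P, T5Leaf P SS ∧ T6Leaf P SS) :
    ∃ M : ℕ, M ∣ N ∧ ¬ P.p ∣ M ∧ P.ModularRepOfLevel M :=
  s44_of_contractsPadic P hcond hpN hirr hmod (fun habc => by
    obtain ⟨SS, h5, h6⟩ := h habc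
    exact contractsPadic_of_leaves P SS h5 h6)

end Frey

end Fermat.Agent.S40.Top.ContractsOfLeaves
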