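/-
S44 (row 38), TOP (helper15): **the frozen S44 from the single NAMED leaf T6′**, for the pair
`(Norm, LamZ)` of record (`New/Norm`): T4′ = [M4] (`Norm.t4Out`) and T5′ (`New/T5.t5Out`) are
plugged in.

Everything at the single place `A = padicPlace p` (`Top/FreyGluePadic`, `Top/ContractsOfLeaves`).

* `ssOfRecord P` : the conjunct (n6′) of record as a `ContractsOfLeaves.SSPred`;
* `t5Leaf` : `ContractsOfLeaves.T5Leaf P (ssOfRecord P)` (no hypothesis);
* `T6Statement P` : the named leaf T6′ in the vocabulary of `New/Norm`: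
  every element of a `p`-new simple copy `V ≤ Wθ` of `W[p]` has, at every big good level, a
  representative satisfying `Norm.norm` (= `M4NormF ∧ SSVanish`);
* ★ `s44_of_t6` : the frozen S44 conclusion from `p ∣ abc → T6Statement P`.
-/
import Mathlib
import Fermat.Agent.S40.Top.ContractsOfLeaves
import Fermat.Agent.S40.New.T5

set_option autoImplicit false
set_option linter.unusedSectionVars false
set_option linter.unusedVariables false
set_option linter.style.haveILetI false

open ModularCurve AlgebraicCurve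

noncomputable section

namespace Fermat.Agent.S40.Top.OfT6

open WeierstrassCurve WeierstrassCurve.Affine WeierstrassCurve.Affine.Point
open Fermat.Agent.N4F.Res Fermat.Agent.S40.Top.Eigen Fermat.Agent.S40.Top.Final
open Fermat.Agent.S40.Top.CopyOfE Fermat.Agent.S40.Top.FreyGlue Fermat.Agent.S40.Top.FreyGluePadic
open Fermat.Agent.S40.Top.ContractsOfLeaves
open Fermat.Agent.S40.New.Pack Fermat.Agent.S40.M4.Final
open Fermat.Agent.P3G.AuxPrime Fermat.Agent.P4.Push
open Fermat.Agent.S56.Places.Dict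

local notation "Qbar" => AlgebraicClosure ℚ

variable (P : FreyPackage) {N : ℕ}

/-- The conjunct (n6′) of record (`New/Norm.ssVanish`) at `padicPlace P.p`, for every level. -/
def ssOfRecord : SSPred P :=
  haveI : Fact P.p.Prime := ⟨P.pp⟩
  fun M' _ => Fermat.Agent.S40.New.Norm.ssVanish M' P.p (padicPlace P.p)

/-- **The leaf T5′ of `ContractsOfLeaves` is a theorem** (`New/T5.t5Out`). -/
theorem t5Leaf : T5Leaf P (ssOfRecord P) := by
  intro W hW M' _ hpM' hmod'
  haveI : Fact P.p.Prime := ⟨P.pp⟩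
  haveI : NeZero P.p := ⟨P.pp.ne_zero⟩
  exact Fermat.Agent.S40.New.T5.t5Out hpM' (liesOverPrime_padicPlace P.p)

/-- **The named leaf T6′** for the Frey package `P`, in the vocabulary of `New/Norm`. -/
def T6Statement : Prop :=
  ∀ (W : WeierstrassCurve ℤ), W.IsIntegralModelOf P.freyCurve →
    ∀ (M' : ℕ) [NeZero M'], ¬ P.p ∣ M' → W.IsResiduallyModularOfLevel P.p (M' * P.p) →
    haveI : Fact P.p.Prime := ⟨P.pp⟩
    haveI : NeZero P.p := ⟨P.pp.ne_zero⟩
    ∀ V : Submodule (ZMod P.p) (Jtors (M' * P.p) P.p), IsSimpleGal V →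
      V ≤ Wtheta W P.p (M' * P.p) → CopyOfE W P.p V →
      (∀ x ∈ V, ((x : Jtors (M' * P.p) P.p) : JZero (M' * P.p)) ∈ newPart M' P.p) →
      T6Out (Fermat.Agent.S40.New.Norm.norm M' P.p (padicPlace P.p)) V

/-- `T6Statement` is the leaf `T6Leaf` of `ContractsOfLeaves` for `ssOfRecord`. -/
theorem t6Leaf_of_t6Statement (h : T6Statement P) : T6Leaf P (ssOfRecord P) :=
  fun W hW M' _ hpM' hmod' V hV hle hC hnew => h W hW M' hpM' hmod' V hV hle hC hnew

/-- ★★ **The frozen S44 from the single named leaf T6′** (which may use `p ∣ abc`; `hirr`, `hcond`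
are available to its producer as hypotheses of the frozen statement). -/
theorem s44_of_t6 (hcond : P.IsConductorLevel N) (hpN : P.p ∣ N)
    (hirr : GaloisRepIsIrreducible (K := AlgebraicClosure ℚ) ℚ P.freyCurve P.p)
    (hmod : P.ModularRepOfLevel N)
    (h6 : (P.p : ℤ) ∣ P.a * P.b * P.c → T6Statement P) :
    ∃ M : ℕ, M ∣ N ∧ ¬ P.p ∣ M ∧ P.ModularRepOfLevel M :=
  s44_of_leaves P hcond hpN hirr hmod
    (fun habc => ⟨ssOfRecord P, t5Leaf P, t6Leaf_of_t6Statement P (h6 habc)⟩)

end Fermat.Agent.S40.Top.OfT6
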