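/-
S44 (row 38), TOP (helper15): **the frozen S44 from the single NAMED leaf (SS) = (R4) ∘ (AUX) ∘ (R5′)**
(`M1/MainNorm.SSLeafV`, helper23), everything else plugged in:

* T4′ = [M4] (`New/Norm.t4Out`), T5′ (`New/T5.t5Out`) — `Top/OfT6.s44_of_t6`;
* T6′ = `M1/MainNorm.t6Out_norm_of_ssLeafV` ((R-DESC), (R3), (NRM) discharged inside) with
  `hΔ`, `hirr` for the integral model from `Top/FreyGlue`, `p ≠ 2` from `5 ≤ p`.

* `SSStatement P` : the named leaf for the Frey package `P` (at `padicPlace P.p`; small level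
  `L₀ = bigLevel (padicPlace p) (smallField V)`);
* ★ `s44_of_ss` : the frozen S44 conclusion from `p ∣ abc → SSStatement P`.
-/
import Mathlib
import Fermat.Agent.S40.Top.OfT6
import Fermat.Agent.S40.M1.MainNorm

set_option autoImplicit false
set_option linter.unusedSectionVars false
set_option linter.unusedVariables false
set_option linter.style.haveILetI false

open ModularCurve AlgebraicCurve

noncomputable section

namespace Fermat.Agent.S40.Top.OfSS

open WeierstrassCurve WeierstrassCurve.Affine WeierstrassCurve.Affine.Point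
open Fermat.Agent.N4.BigDVR Fermat.Agent.P3G.Gamma
open Fermat.Agent.N4F.Res Fermat.Agent.S40.Top.Eigen Fermat.Agent.S40.Top.Final
open Fermat.Agent.S40.Top.CopyOfE Fermat.Agent.S40.Top.FreyGlue Fermat.Agent.S40.Top.FreyGluePadic
open Fermat.Agent.S40.Top.OfT6
open Fermat.Agent.S40.New.Pack
open Fermat.Agent.S40.M1.SmallField Fermat.Agent.S40.M1.MainNorm
open Fermat.Agent.P3G.AuxPrime Fermat.Agent.P4.Push
open Fermat.Agent.S56.Places.Dict

local notation "Qbar" => AlgebraicClosure ℚ

variable (P : FreyPackage) {N : ℕ}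

/-- **The named leaf (SS)** for the Frey package `P`: for every integral model `W`, every level `M'`
prime to `p = P.p` and every `p`-new simple copy `V ≤ Wθ` of `W[p]`, the statement
`MainNorm.SSLeafV` at the place `padicPlace p` and the small good level
`L₀ = bigLevel (padicPlace p) (smallField V)`. -/
def SSStatement : Prop :=
  ∀ (W : WeierstrassCurve ℤ), W.IsIntegralModelOf P.freyCurve →
    ∀ (M' : ℕ) [NeZero M'], ¬ P.p ∣ M' → W.IsResiduallyModularOfLevel P.p (M' * P.p) →
    haveI : Fact P.p.Prime := ⟨P.pp⟩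
    haveI : NeZero P.p := ⟨P.pp.ne_zero⟩
    ∀ V : Submodule (ZMod P.p) (Jtors (M' * P.p) P.p), IsSimpleGal V →
      V ≤ Wtheta W P.p (M' * P.p) → CopyOfE W P.p V →
      (∀ x ∈ V, ((x : Jtors (M' * P.p) P.p) : JZero (M' * P.p)) ∈ newPart M' P.p) →
      SSLeafV M' P.p (padicPlace P.p) (bigLevel (padicPlace P.p) (smallField V)) V

/-- (SS) gives the leaf T6′ of `Top/OfT6`. -/
theorem t6Statement_of_ss
    (hirr : GaloisRepIsIrreducible (K := AlgebraicClosure ℚ) ℚ P.freyCurve P.p)
    (h : SSStatement P) : T6Statement P := by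
  intro W hW M' _ hpM' hmod'
  haveI : Fact P.p.Prime := ⟨P.pp⟩
  haveI : NeZero P.p := ⟨P.pp.ne_zero⟩
  intro V hV hle hC hnew
  have hp2 : P.p ≠ 2 := by
    have := P.hp5
    omega
  exact t6Out_norm_of_ssLeafV hpM' (liesOverPrime_padicPlace P.p) (Δ_ne_zero_of_model P hW) hp2
    (modRepIsIrreducible_of_model P hW hirr) hle hC hnew (h W hW M' hpM' hmod' V hV hle hC hnew)

/-- ★★ **The frozen S44 from the single named leaf (SS)** (which may use `p ∣ abc`). -/
theorem s44_of_ss (hcond : P.IsConductorLevel N) (hpN : P.p ∣ N)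
    (hirr : GaloisRepIsIrreducible (K := AlgebraicClosure ℚ) ℚ P.freyCurve P.p)
    (hmod : P.ModularRepOfLevel N)
    (hSS : (P.p : ℤ) ∣ P.a * P.b * P.c → SSStatement P) :
    ∃ M : ℕ, M ∣ N ∧ ¬ P.p ∣ M ∧ P.ModularRepOfLevel M :=
  s44_of_t6 P hcond hpN hirr hmod (fun habc => t6Statement_of_ss P hirr (hSS habc))

end Fermat.Agent.S40.Top.OfSS
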