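/-
S44 (row 38), TOP (helper20): **the frozen S44 conclusion from the single NAMED leaf (R4)**
(`M1/SSLeafAsm.R4Leaf` = the static node identity at the auxiliary level `lcm(4, M')`, level form),
everything else plugged in:

* (SS) = (R4) ∘ (AUX) ∘ (R5′): `M1/SSLeafAsm.ssLeaf_bigLevel` with (R5′) :=
  helper19's `M1/R4PadicFrey.dvd_of_approxRoot_fixV` (hypothesis-free, at `padicPlace p`);
* T6′ = helper23's `M1/MainNorm.t6Out_norm` ((R-DESC), (R3), (NRM) discharged inside), `hΔ`, `hirr`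
  of the integral model from `Top/FreyGlue`, `p ≠ 2` from `5 ≤ p`;
* T4′, T5′, top glue: helper15's `Top/OfT6.s44_of_t6`.

* `R4Statement P` : the named leaf for the Frey package `P` (place `padicPlace P.p`, auxiliary level
  `lcm(4, M')`, small level `L₀ = bigLevel (padicPlace p) (smallField V)`); its producer may use all
  the hypotheses of T6′ (`hW`, `hC`, `hle`, `hnew`, …);
* `t6Statement_of_r4` : `R4Statement P → OfT6.T6Statement P` (needs `p ∣ abc`, `hirr`);
* ★ `s44_of_r4` : the frozen S44 conclusion from `p ∣ abc → R4Statement P`.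
-/
import Mathlib
import Fermat.Agent.S40.Top.OfT6
import Fermat.Agent.S40.M1.MainNorm
import Fermat.Agent.S40.M1.SSLeafAsm
import Fermat.Agent.S40.M1.R4PadicFrey

set_option autoImplicit false
set_option linter.unusedSectionVars false
set_option linter.unusedVariables false
set_option linter.style.haveILetI false

open ModularCurve AlgebraicCurve

noncomputable section

namespace Fermat.Agent.S40.Top.OfR4

open WeierstrassCurve WeierstrassCurve.Affine WeierstrassCurve.Affine.Point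
open Fermat.Agent.N4.BigDVR Fermat.Agent.P3G.Gamma
open Fermat.Agent.N4F.Res Fermat.Agent.S40.Top.Eigen Fermat.Agent.S40.Top.Final
open Fermat.Agent.S40.Top.CopyOfE Fermat.Agent.S40.Top.FreyGlue Fermat.Agent.S40.Top.FreyGluePadic
open Fermat.Agent.S40.Top.OfT6
open Fermat.Agent.S40.New.Pack
open Fermat.Agent.S40.M1.SmallField Fermat.Agent.S40.M1.MainNorm
open Fermat.Agent.S40.M1.SSLeafAsm
open Fermat.Agent.P3G.AuxPrime Fermat.Agent.P4.Push
open Fermat.Agent.S56.Places.Dict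

local notation "Qbar" => AlgebraicClosure ℚ

/-- `lcm(4, M) ≠ 0`. -/
theorem neZero_lcm4 (M : ℕ) [NeZero M] : NeZero (Nat.lcm 4 M) :=
  ⟨Nat.lcm_ne_zero (by norm_num) (NeZero.ne M)⟩

/-- `p ≥ 5` prime, `p ∤ M` ⇒ `p ∤ lcm(4, M)`. -/
theorem not_dvd_lcm4 {p M : ℕ} (hp : p.Prime) (hp5 : 5 ≤ p) (hpM : ¬ p ∣ M) :
    ¬ p ∣ Nat.lcm 4 M := by
  intro h
  have h1 : p ∣ 4 * M := h.trans (Nat.lcm_dvd_mul 4 M)
  rcases (Nat.Prime.dvd_mul hp).1 h1 with h4 | hM
  · have : p ≤ 4 := Nat.le_of_dvd (by norm_num) h4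
    omega
  · exact hpM hM

variable (P : FreyPackage) {N : ℕ}

/-- **The named leaf (R4)** for the Frey package `P`: for every integral model `W`, every level `M'`
prime to `p = P.p` and every `p`-new simple copy `V ≤ Wθ` of `W[p]`, the static node identity
`SSLeafAsm.R4Leaf` at the auxiliary level `lcm(4, M')`, the place `padicPlace p` and the small good
level `L₀ = bigLevel (padicPlace p) (smallField V)`. -/
def R4Statement : Prop :=
  ∀ (W : WeierstrassCurve ℤ), W.IsIntegralModelOf P.freyCurve →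
    ∀ (M' : ℕ) [NeZero M'] (hpM' : ¬ P.p ∣ M'),
    W.IsResiduallyModularOfLevel P.p (M' * P.p) →
    haveI : Fact P.p.Prime := ⟨P.pp⟩
    haveI : NeZero P.p := ⟨P.pp.ne_zero⟩
    haveI : NeZero (Nat.lcm 4 M') := neZero_lcm4 M'
    ∀ V : Submodule (ZMod P.p) (Jtors (M' * P.p) P.p), IsSimpleGal V →
      V ≤ Wtheta W P.p (M' * P.p) → CopyOfE W P.p V →
      (∀ x ∈ V, ((x : Jtors (M' * P.p) P.p) : JZero (M' * P.p)) ∈ newPart M' P.p) →
      R4Leaf (Nat.lcm 4 M') P.p (not_dvd_lcm4 P.pp P.hp5 hpM') (padicPlace P.p)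
        (bigLevel (padicPlace P.p) (smallField V))

/-- (R4) gives the leaf T6′ of `Top/OfT6`. -/
theorem t6Statement_of_r4 (habc : (P.p : ℤ) ∣ P.a * P.b * P.c)
    (hirr : GaloisRepIsIrreducible (K := AlgebraicClosure ℚ) ℚ P.freyCurve P.p)
    (h : R4Statement P) : T6Statement P := by
  intro W hW M' _ hpM' hmod'
  haveI : Fact P.p.Prime := ⟨P.pp⟩
  haveI : NeZero P.p := ⟨P.pp.ne_zero⟩
  haveI : NeZero (Nat.lcm 4 M') := neZero_lcm4 M'
  intro V hV hle hC hnew
  have hp2 : P.p ≠ 2 := by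
    have := P.hp5
    omega
  obtain ⟨c, hc6, hψ⟩ :=
    Fermat.Agent.S40.M1.AuxOrd.exists_dedekindPsi_lcm_four M' (NeZero.ne M')
  have hΔ : W.Δ ≠ 0 := Δ_ne_zero_of_model P hW
  refine t6Out_norm hpM' (liesOverPrime_padicPlace P.p) hΔ hp2
    (modRepIsIrreducible_of_model P hW hirr) hle hC hnew ?_
  exact ssLeaf_bigLevel P.hp5 hpM' (not_dvd_lcm4 P.pp P.hp5 hpM') (Nat.dvd_lcm_right 4 M') hc6 hψ
    (liesOverPrime_padicPlace P.p) V (h W hW M' hpM' hmod' V hV hle hC hnew)
    (fun n hn => Fermat.Agent.S40.M1.R4PadicFrey.dvd_of_approxRoot_fixV P habc hW hΔ V hC n hn)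

/-- ★★ **The frozen S44 from the single named leaf (R4)** (which may use `p ∣ abc`). -/
theorem s44_of_r4 (hcond : P.IsConductorLevel N) (hpN : P.p ∣ N)
    (hirr : GaloisRepIsIrreducible (K := AlgebraicClosure ℚ) ℚ P.freyCurve P.p)
    (hmod : P.ModularRepOfLevel N)
    (hR4 : (P.p : ℤ) ∣ P.a * P.b * P.c → R4Statement P) :
    ∃ M : ℕ, M ∣ N ∧ ¬ P.p ∣ M ∧ P.ModularRepOfLevel M :=
  s44_of_t6 P hcond hpN hirr hmod (fun habc => t6Statement_of_r4 P habc hirr (hR4 habc))

end Fermat.Agent.S40.Top.OfR4
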