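/-
S44 (row 38), TOP, final wiring (helper3): **the frozen S44 conclusion from the two NAMED inputs of (R4)**
of helper25's `M1/R4Aux` — `NodeData` (test places, (R4a), (R4b), invariance) and `H3Data` (honest
(Loc-P) for the node coordinate) — at the auxiliary levels `N = lcm(4, M')`, the place `padicPlace p`
and the unramified level `K₀ := K0 A` (the base unramified level, contained in every good level):

* `isUnramLevel_K0` : `K0 A` is an unramified level (`UnramLevel.isUnramLevel_of_le`);
* `DataStatement P` : `∀ N, 4 ∣ N → p ∤ N → NodeData N p A (K0 A) ∧ H3Data N p A (K0 A)`, `A = padicPlace p`;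
* `r4Statement_of_data : DataStatement P → OfR4.R4Statement P` (`R4Aux.r4Leaf`, `K0_le_bigLevel`);
* ★ `s44_of_data` : the frozen S44 conclusion from `DataStatement P` (`OfR4.s44_of_r4`).
-/
import Mathlib
import Fermat.Agent.S40.Top.OfR4
import Fermat.Agent.S40.M1.R4Aux

set_option autoImplicit false
set_option linter.unusedSectionVars false
set_option linter.unusedVariables false
set_option linter.style.haveILetI false
set_option linter.style.longLine false

open ModularCurve AlgebraicCurve
open WeierstrassCurve WeierstrassCurve.Affine WeierstrassCurve.Affine.Point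

noncomputable section

namespace Fermat.Agent.S40.Top.OfData

open Fermat.Agent.N4.BigDVR Fermat.Agent.P3G.Gamma
open Fermat.Agent.S36.Descent.UnramLevel
open Fermat.Agent.S40.Top.OfR4 Fermat.Agent.S40.M1.R4Aux
open Fermat.Agent.S56.Places.Dict

local notation "Qbar" => AlgebraicClosure ℚ

/-- **The base unramified level `K0 A` is an unramified level.** -/
theorem isUnramLevel_K0 {A : ValuationSubring Qbar} {q : ℕ} (hq : q.Prime)
    (hA : A.LiesOverPrime q) : IsUnramLevel A q (K0 A) :=
  isUnramLevel_of_le hq hA le_rfl (K0_le_Kmax hq hA)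

variable (P : FreyPackage) {N : ℕ}

/-- **The two named inputs of (R4)** for the Frey package `P`, at every auxiliary level `N` (`4 ∣ N`,
`p ∤ N`), the place `padicPlace p` and the unramified level `K0 (padicPlace p)`. -/
def DataStatement : Prop :=
  haveI : Fact P.p.Prime := ⟨P.pp⟩
  ∀ (N : ℕ) [NeZero N], 4 ∣ N → ¬ P.p ∣ N →
    NodeData N P.p (padicPlace P.p) (K0 (padicPlace P.p)) ∧
      H3Data N P.p (padicPlace P.p) (K0 (padicPlace P.p))

/-- The named leaf (R4) of `Top/OfR4` from the two named inputs. -/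
theorem r4Statement_of_data (h : DataStatement P) : R4Statement P := by
  intro W hW M' _ hpM' hmod'
  haveI : Fact P.p.Prime := ⟨P.pp⟩
  haveI : NeZero P.p := ⟨P.pp.ne_zero⟩
  haveI : NeZero (Nat.lcm 4 M') := neZero_lcm4 M'
  intro V hV hle hC hnew
  have hA := liesOverPrime_padicPlace P.p
  obtain ⟨hnode, hH3⟩ := h (Nat.lcm 4 M') (Nat.dvd_lcm_left 4 M')
    (not_dvd_lcm4 P.pp P.hp5 hpM')
  exact r4Leaf P.hp5 (Nat.dvd_lcm_left 4 M') (not_dvd_lcm4 P.pp P.hp5 hpM') hA
    (isUnramLevel_K0 P.pp hA) (K0_le_bigLevel (padicPlace P.p) _) hnode hH3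

/-- ★★ **The frozen S44 conclusion from the two named inputs of (R4).** -/
theorem s44_of_data (hcond : P.IsConductorLevel N) (hpN : P.p ∣ N)
    (hirr : GaloisRepIsIrreducible (K := AlgebraicClosure ℚ) ℚ P.freyCurve P.p)
    (hmod : P.ModularRepOfLevel N)
    (h : (P.p : ℤ) ∣ P.a * P.b * P.c → DataStatement P) :
    ∃ M : ℕ, M ∣ N ∧ ¬ P.p ∣ M ∧ P.ModularRepOfLevel M :=
  s44_of_r4 P hcond hpN hirr hmod (fun habc => r4Statement_of_data P (h habc))

end Fermat.Agent.S40.Top.OfData
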