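/-
S44 (row 38), TOP (helper20): **the frozen S44 conclusion from the two NAMED inputs of (R4)**
(`M1/R4Aux.NodeData`, `M1/R4Aux.H3Data`, helper25) at the base unramified level
`K₀ = bigLevel (padicPlace p) ⊥` (helper21 `M1/UnramBase`), everything else plugged in:

* `R4Aux.r4Leaf` : `NodeData → H3Data → SSLeafAsm.R4Leaf` (`5 ≤ p`, `4 ∣ N`, `K₀ ≤ L₀` unramified);
* `Top/OfR4.s44_of_r4` : the frozen S44 conclusion from `R4Leaf` at the auxiliary levels `lcm(4, M')`.

* `DataStatement P` : `NodeData ∧ H3Data` at every level `N` prime to `p` with `4 ∣ N` (place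
  `padicPlace P.p`, `K₀ = bigLevel (padicPlace P.p) ⊥`);
* `r4Statement_of_data`, ★ `s44_of_data`.
-/
import Mathlib
import Fermat.Agent.S40.Top.OfR4
import Fermat.Agent.S40.M1.R4Aux
import Fermat.Agent.S40.M1.UnramBase

set_option autoImplicit false
set_option linter.unusedSectionVars false
set_option linter.unusedVariables false
set_option linter.style.haveILetI false

open ModularCurve AlgebraicCurve

noncomputable section

namespace Fermat.Agent.S40.Top.OfNodeData

open WeierstrassCurve WeierstrassCurve.Affine WeierstrassCurve.Affine.Point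
open Fermat.Agent.N4.BigDVR Fermat.Agent.P3G.Gamma
open Fermat.Agent.S40.Top.FreyGlue Fermat.Agent.S40.Top.FreyGluePadic
open Fermat.Agent.S40.Top.OfR4
open Fermat.Agent.S40.M1.SmallField Fermat.Agent.S40.M1.SSLeafAsm Fermat.Agent.S40.M1.R4Aux
open Fermat.Agent.S40.M1.UnramBase
open Fermat.Agent.S56.Places.Dict

local notation "Qbar" => AlgebraicClosure ℚ

variable (P : FreyPackage) {N : ℕ}

/-- **The two named inputs of (R4)** for the Frey package `P`: at every level `N'` prime to
`p = P.p` with `4 ∣ N'`, `R4Aux.NodeData` and `R4Aux.H3Data` at the place `padicPlace p` and the base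
unramified level `K₀ = bigLevel (padicPlace p) ⊥`. -/
def DataStatement : Prop :=
  haveI : Fact P.p.Prime := ⟨P.pp⟩
  ∀ (N' : ℕ) [NeZero N'], ¬ P.p ∣ N' → 4 ∣ N' →
    NodeData N' P.p (padicPlace P.p)
        (bigLevel (padicPlace P.p) (⊥ : IntermediateField ℚ Qbar)) ∧
      H3Data N' P.p (padicPlace P.p)
        (bigLevel (padicPlace P.p) (⊥ : IntermediateField ℚ Qbar))

/-- The two named inputs give the named leaf (R4) of `Top/OfR4`. -/
theorem r4Statement_of_data (h : DataStatement P) : R4Statement P := by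
  intro W hW M' _ hpM' hmod'
  haveI : Fact P.p.Prime := ⟨P.pp⟩
  haveI : NeZero P.p := ⟨P.pp.ne_zero⟩
  haveI : NeZero (Nat.lcm 4 M') := neZero_lcm4 M'
  intro V hV hle hC hnew
  have hpN' : ¬ P.p ∣ Nat.lcm 4 M' := not_dvd_lcm4 P.pp P.hp5 hpM'
  obtain ⟨hnode, hH3⟩ := h (Nat.lcm 4 M') hpN' (Nat.dvd_lcm_left 4 M')
  exact r4Leaf P.hp5 (Nat.dvd_lcm_left 4 M') hpN' (liesOverPrime_padicPlace P.p)
    (isUnramLevel_bigLevel_bot (padicPlace P.p) P.pp (liesOverPrime_padicPlace P.p))
    (bigLevel_bot_le (padicPlace P.p) (smallField V)) hnode hH3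

/-- ★★ **The frozen S44 from the two named inputs of (R4)** (which may use `p ∣ abc`). -/
theorem s44_of_data (hcond : P.IsConductorLevel N) (hpN : P.p ∣ N)
    (hirr : GaloisRepIsIrreducible (K := AlgebraicClosure ℚ) ℚ P.freyCurve P.p)
    (hmod : P.ModularRepOfLevel N)
    (hdata : (P.p : ℤ) ∣ P.a * P.b * P.c → DataStatement P) :
    ∃ M : ℕ, M ∣ N ∧ ¬ P.p ∣ M ∧ P.ModularRepOfLevel M :=
  s44_of_r4 P hcond hpN hirr hmod (fun habc => r4Statement_of_data P (hdata habc))

end Fermat.Agent.S40.Top.OfNodeData
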